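import Fermat.Agent.Specialization.Riemann
import Fermat.Prelude.Def_AlgebraicCurve_DivisorPushPull

/-!
# Finite extensions of function fields: degrees, norms and traces at places
-/

set_option autoImplicit false
set_option linter.style.haveILetI false
set_option linter.unusedSectionVars false

noncomputable section

namespace FLTAgent.Specialization

open AlgebraicCurve FLTAgent.Curves Polynomial IntermediateField

variable {K F F' : Type*} [Field K] [Field F] [Field F'] [Algebra K F] [Algebra K F']
  [Algebra F F'] [IsScalarTower K F F'] [IsAlgClosed K] [IsFunctionField K F]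
  [IsFunctionField K F'] [FiniteDimensional F F']

instance (priority := 100) instHasPrincipalDivisors : HasPrincipalDivisors K F :=
  hasPrincipalDivisors

theorem pullback_poleDiv (t : F) :
    Divisor.pullback F' (poleDiv K t) = poleDiv K (algebraMap F F' t) :=
  Finsupp.ext fun w => by
    rw [Divisor.pullback_apply, poleDiv_apply, poleDiv_apply, w.ord_restrict,
      mul_max_of_nonneg _ _ (Int.natCast_nonneg _), mul_zero, mul_neg]

theorem finrank_adjoin_algebraMap (t : F) :
    Module.finrank K⟮algebraMap F F' t⟯ F' = Module.finrank F F' * Module.finrank K⟮t⟯ F := by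
  rw [mul_comm, Module.finrank_mul_finrank K⟮t⟯ F F']
  have hmap : K⟮t⟯.map (IsScalarTower.toAlgHom K F F') = K⟮algebraMap F F' t⟯ := by
    rw [IntermediateField.adjoin_map, Set.image_singleton]; rfl
  let e : K⟮t⟯ ≃ₐ[K] K⟮algebraMap F F' t⟯ :=
    (K⟮t⟯.equivMap (IsScalarTower.toAlgHom K F F')).trans (IntermediateField.equivOfEq hmap)
  exact (Algebra.finrank_eq_of_equiv_equiv e.toRingEquiv (RingEquiv.refl F')
    (RingHom.ext fun _ => rfl)).symm

theorem exists_only_pole (v : Place K F) :
    ∃ (t : F) (n : ℕ), 0 < n ∧ Transcendental K t ∧ poleDiv K t = Finsupp.single v (n : ℤ) := by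
  classical
  obtain ⟨n, hn⟩ : ∃ n : ℕ, rBound K F + 1 ≤ (n : ℤ) :=
    ⟨(rBound K F + 1).toNat, Int.self_le_toNat _⟩
  have h0 := rBound_nonneg (K := K) (F := F)
  obtain ⟨t, ht, htv⟩ := exists_exact (G := Finsupp.single v (n : ℤ))
    (by rw [degree_single']; exact hn) v
  have hord := ((exact_iff ht).1 htv).2
  rw [Finsupp.single_eq_same] at hord
  refine ⟨t, n, by omega, transcendental_of_ord_ne_zero (v := v) (by omega),
    Finsupp.ext fun w => ?_⟩
  rw [poleDiv_apply, Finsupp.single_apply]
  split_ifs with h
  · subst h; omega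
  · have := (mem_rrSpace.1 ht w).le_ord htv.ne_zero
    rw [Finsupp.single_apply, if_neg h] at this
    omega

/-- The fundamental identity. -/
theorem sum_ramificationIndex (v : Place K F) :
    ∑ w ∈ v.fiber F', (w.ramificationIndex F : ℤ) = Module.finrank F F' := by
  obtain ⟨t, n, hn, ht, htn⟩ := exists_only_pole v
  have ht' : Transcendental K (algebraMap F F' t) :=
    (transcendental_algebraMap_iff (algebraMap F F').injective).2 ht
  have h : Divisor.degree (Divisor.pullback F' (Finsupp.single v (n : ℤ))) =
      (Module.finrank F F' : ℤ) * n := by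
    rw [← htn, pullback_poleDiv, degree_poleDiv ht', finrank_adjoin_algebraMap, Nat.cast_mul]
    congr 1
    rw [← degree_poleDiv ht, htn, degree_single']
  rw [Divisor.pullback_single, map_sum] at h
  simp only [degree_single', ← Finset.mul_sum] at h
  exact mul_left_cancel₀ (Int.natCast_ne_zero.2 hn.ne') (h.trans (mul_comm _ _))

instance (priority := 100) instFundamentalIdentity : FundamentalIdentity K F F' where
  sum_ramificationIndex_mul_deg v := by
    simp only [deg_eq_one, Nat.cast_one, mul_one]
    exact sum_ramificationIndex v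

theorem exists_restrict_eq (v : Place K F) : ∃ w : Place K F', w.restrict F = v := by
  by_contra! h
  have h2 := sum_ramificationIndex (F' := F') v
  rw [Finset.sum_eq_zero fun w hw => absurd (Place.mem_fiber.1 hw) (h w)] at h2
  have := Module.finrank_pos (R := F) (M := F')
  omega

theorem mapRestrict_pullback (D : Divisor K F) :
    Divisor.mapRestrict F (Divisor.pullback F' D) = (Module.finrank F F' : ℤ) • D := by
  induction D using Finsupp.induction with
  | zero => simp
  | single_add v n D _ _ ih =>
      rw [map_add, map_add, ih, smul_add, Divisor.pullback_single, map_sum]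
      congr 1
      rw [Finset.sum_congr rfl fun w hw => by
        rw [Divisor.mapRestrict_single, Place.mem_fiber.1 hw],
        ← Finsupp.single_finsetSum, ← Finset.mul_sum, sum_ramificationIndex, Finsupp.smul_single,
        smul_eq_mul, mul_comm]

theorem isIntegral_of_regular (v : Place K F) [Algebra v.toValuationSubring F']
    [IsScalarTower v.toValuationSubring F F'] {g : F'}
    (h : ∀ w : Place K F', w.restrict F = v → OrdGE w 0 g) : IsIntegral v.toValuationSubring g := by
  set φ := algebraMap v.toValuationSubring F' with hφ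
  have hmem : g ∈ (integralClosure (Subring.closure (φ.range : Set F')) F').toSubring := by
    rw [← iInf_valuationSubring_superset, Subring.mem_iInf]
    rintro ⟨V, hV⟩
    have hVv : ∀ a : v.toValuationSubring, algebraMap F F' a ∈ V := fun a => by
      have := hV (show φ a ∈ (φ.range : Set F') from ⟨a, rfl⟩)
      rwa [hφ, IsScalarTower.algebraMap_apply v.toValuationSubring F F'] at this
    by_cases hVtop : V = ⊤
    · subst hVtop; exact ValuationSubring.mem_top g
    let w : Place K F' := placeOfValuationSubring V (fun c => by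
      have := hVv ⟨algebraMap K F c, v.algebraMap_mem' c⟩
      rwa [← IsScalarTower.algebraMap_apply] at this) hVtop
    exact ordGE_zero_iff_mem.1 (h w (place_eq_of_le fun a ha => hVv ⟨a, ha⟩).symm)
  obtain ⟨p, hp, hpg⟩ := hmem
  have hclosure : Subring.closure (φ.range : Set F') = φ.range := Subring.closure_eq _
  let ψ : v.toValuationSubring →+* Subring.closure (φ.range : Set F') :=
    φ.codRestrict _ fun a => Subring.subset_closure ⟨a, rfl⟩
  have hψ : Function.Surjective ψ := fun y => by
    obtain ⟨a, ha⟩ : (y : F') ∈ φ.range := hclosure.le y.2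
    exact ⟨a, Subtype.ext ha⟩
  obtain ⟨q, hq, -, hqm⟩ := Polynomial.lifts_and_degree_eq_and_monic
    ((Polynomial.mem_lifts p).2 (Polynomial.map_surjective ψ hψ p)) hp
  refine ⟨q, hqm, ?_⟩
  rw [← hpg, ← hq, eval₂_map]
  rfl

section Local

variable {v : Place K F} {g : F'}

theorem ordGE_norm_zero (h : ∀ w : Place K F', w.restrict F = v → OrdGE w 0 g) :
    OrdGE v 0 (Algebra.norm F g) := by
  letI := ((algebraMap F F').comp (algebraMap v.toValuationSubring F)).toAlgebra
  haveI : IsScalarTower v.toValuationSubring F F' := IsScalarTower.of_algebraMap_eq fun _ => rfl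
  obtain ⟨y, hy⟩ := IsIntegrallyClosed.isIntegral_iff.1
    (Algebra.isIntegral_norm (R := v.toValuationSubring) F (isIntegral_of_regular v h))
  exact ordGE_zero_iff_mem.2 (hy ▸ y.2)

theorem ordGE_trace_zero (h : ∀ w : Place K F', w.restrict F = v → OrdGE w 0 g) :
    OrdGE v 0 (Algebra.trace F F' g) := by
  letI := ((algebraMap F F').comp (algebraMap v.toValuationSubring F)).toAlgebra
  haveI : IsScalarTower v.toValuationSubring F F' := IsScalarTower.of_algebraMap_eq fun _ => rfl
  obtain ⟨y, hy⟩ := IsIntegrallyClosed.isIntegral_iff.1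
    (Algebra.isIntegral_trace (R := v.toValuationSubring) (L := F) (isIntegral_of_regular v h))
  exact ordGE_zero_iff_mem.2 (hy ▸ y.2)

theorem exists_ord_eq_int (v : Place K F) (c : ℤ) : ∃ t : F, t ≠ 0 ∧ v.ord t = c := by
  obtain ⟨u, hu, h1⟩ := exists_uniformizer v
  exact ⟨u ^ c, zpow_ne_zero _ hu, by rw [v.ord_zpow, h1, mul_one]⟩

theorem ordGE_div_algebraMap {w : Place K F'} {t : F} (_ht : t ≠ 0) {c : ℤ}
    (h : OrdGE w c g) : OrdGE w (c - w.ramificationIndex F * (w.restrict F).ord t)
      (g / algebraMap F F' t) := by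
  rw [div_eq_mul_inv]
  refine (h.mul (ordGE_of_le (w.ord_inv _).ge)).mono ?_
  rw [w.ord_restrict]; omega

/-- The norm at a place, with a twist. -/
theorem ordGE_norm {c : ℤ}
    (h : ∀ w : Place K F', w.restrict F = v → OrdGE w (w.ramificationIndex F * c) g) :
    OrdGE v (Module.finrank F F' * c) (Algebra.norm F g) := by
  obtain ⟨t, ht0, htc⟩ := exists_ord_eq_int v c
  have hn := ordGE_norm_zero (v := v) (g := g / algebraMap F F' t) fun w hw =>
    (ordGE_div_algebraMap ht0 (h w hw)).mono (by rw [hw, htc]; simp)
  have he : Algebra.norm F g =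
      Algebra.norm F (g / algebraMap F F' t) * t ^ Module.finrank F F' := by
    rw [← Algebra.norm_algebraMap (S := F') t, ← map_mul,
      div_mul_cancel₀ g ((_root_.map_ne_zero _).2 ht0)]
  rw [he]
  refine (hn.mul (ordGE_ord v _)).mono ?_
  rw [ord_pow, htc]; omega

theorem ord_norm (hg : g ≠ 0) {c : ℤ}
    (h : ∀ w : Place K F', w.restrict F = v → w.ord g = w.ramificationIndex F * c) :
    v.ord (Algebra.norm F g) = Module.finrank F F' * c := by
  have h0 : Algebra.norm F g ≠ 0 := Algebra.norm_ne_zero_iff.2 hg
  have h1 := (ordGE_norm (v := v) fun w hw => ordGE_of_le (h w hw).ge).le_ord h0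
  have h2 := (ordGE_norm (v := v) (g := g⁻¹) (c := -c) fun w hw =>
    ordGE_of_le (by rw [w.ord_inv, h w hw]; simp)).le_ord
      (Algebra.norm_ne_zero_iff.2 (inv_ne_zero hg))
  rw [show Algebra.norm F g⁻¹ = (Algebra.norm F g)⁻¹ from
    eq_inv_of_mul_eq_one_left (by rw [← map_mul, inv_mul_cancel₀ hg, map_one]), v.ord_inv,
    mul_neg] at h2
  omega

theorem ordGE_trace {c : ℤ}
    (h : ∀ w : Place K F', w.restrict F = v → OrdGE w (w.ramificationIndex F * c) g) :
    OrdGE v c (Algebra.trace F F' g) := by
  obtain ⟨t, ht0, htc⟩ := exists_ord_eq_int v c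
  have hn := ordGE_trace_zero (v := v) (g := g / algebraMap F F' t) fun w hw =>
    (ordGE_div_algebraMap ht0 (h w hw)).mono (by rw [hw, htc]; simp)
  have he : Algebra.trace F F' g = t * Algebra.trace F F' (g / algebraMap F F' t) := by
    rw [← smul_eq_mul t, ← map_smul, Algebra.smul_def,
      mul_div_cancel₀ g ((_root_.map_ne_zero _).2 ht0)]
  rw [he]
  exact ((ordGE_of_le htc.ge).mul hn).mono (by simp)

theorem ordGE_norm_one (h : ∀ w : Place K F', w.restrict F = v → OrdGE w 0 g)
    {w₀ : Place K F'} (hw₀ : w₀.restrict F = v) (hpos : OrdGE w₀ 1 g) :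
    OrdGE v 1 (Algebra.norm F g) := by
  letI := ((algebraMap F F').comp (algebraMap v.toValuationSubring F)).toAlgebra
  haveI : IsScalarTower v.toValuationSubring F F' := IsScalarTower.of_algebraMap_eq fun _ => rfl
  have hint := isIntegral_of_regular v h
  have hgF : IsIntegral F g := hint.tower_top
  set p := minpoly v.toValuationSubring g with hp
  have hpmap : minpoly F g = p.map (algebraMap v.toValuationSubring F) :=
    minpoly.isIntegrallyClosed_eq_field_fractions' F hint
  have ha0 : OrdGE v 1 ((p.coeff 0 : v.toValuationSubring) : F) := by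
    have he : aeval g p = 0 := minpoly.aeval v.toValuationSubring g
    rw [← X_mul_divX_add p, map_add, map_mul, aeval_X, aeval_C] at he
    have h1 : OrdGE w₀ 0 (aeval g p.divX) := by
      rw [aeval_eq_sum_range]
      refine OrdGE.sum fun i _ => ?_
      rw [Algebra.smul_def]
      have hc : OrdGE w₀ 0 (algebraMap v.toValuationSubring F' (p.divX.coeff i)) :=
        ordGE_zero_iff_mem.2 (by
          have hle : ∀ a : F, a ∈ v.toValuationSubring →
              a ∈ (w₀.restrict F).toValuationSubring := fun a ha => hw₀.symm ▸ ha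
          exact hle _ (p.divX.coeff i).2)
      simpa using hc.mul ((h w₀ hw₀).pow i)
    have h2 : OrdGE w₀ 1 (algebraMap v.toValuationSubring F' (p.coeff 0)) := by
      rw [eq_neg_of_add_eq_zero_right he]
      simpa using (hpos.mul h1).neg
    rcases h2 with h2 | h2
    · left
      exact (_root_.map_eq_zero (algebraMap F F')).1 h2
    · rw [show algebraMap v.toValuationSubring F' (p.coeff 0) =
        algebraMap F F' ((p.coeff 0 : v.toValuationSubring) : F) from rfl, w₀.ord_restrict,
        hw₀] at h2
      refine ordGE_of_le ?_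
      have := Int.natCast_nonneg (w₀.ramificationIndex F)
      nlinarith
  have hnorm : Algebra.norm F (AdjoinSimple.gen F g) =
      (-1) ^ (adjoin.powerBasis hgF).dim * ((p.coeff 0 : v.toValuationSubring) : F) := by
    rw [← adjoin.powerBasis_gen hgF, Algebra.PowerBasis.norm_gen_eq_coeff_zero_minpoly,
      adjoin.powerBasis_gen hgF, IntermediateField.minpoly_gen, hpmap, coeff_map]
    rfl
  rw [Algebra.norm_eq_norm_adjoin, hnorm]
  have hsign : OrdGE v 0 ((-1 : F) ^ (adjoin.powerBasis hgF).dim) := by
    simpa using ((ordGE_one v).neg).pow (adjoin.powerBasis hgF).dim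
  refine ((hsign.mul ha0).pow _).mono ?_
  have : 0 < Module.finrank F⟮g⟯ F' := Module.finrank_pos
  push_cast
  omega

end Local

/-- A divisor whose pullback is principal is killed by the degree. -/
theorem isPrincipal_nsmul_of_pullback {E : Divisor K F}
    (h : Divisor.IsPrincipal (Divisor.pullback F' E)) :
    Divisor.IsPrincipal (Module.finrank F F' • E) := by
  obtain ⟨g, hg, hdiv⟩ := h
  refine ⟨Algebra.norm F g, Algebra.norm_ne_zero_iff.2 hg, fun v => ?_⟩
  rw [ord_norm hg fun w hw => by rw [← hdiv w, Divisor.pullback_apply, hw], Finsupp.smul_apply,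
    nsmul_eq_mul]

end FLTAgent.Specialization
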