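import Fermat.Agent.Specialization.Model
import Fermat.Prelude.Def_ModularCurve_LaurentCoeff

/-!
# The Gauss reduction of fields of Laurent series, and models cut out inside an ambient field
-/

set_option autoImplicit false
set_option linter.style.haveILetI false
set_option linter.unusedSectionVars false

noncomputable section

namespace FLTAgent.Specialization

open AlgebraicCurve FLTAgent.Curves Polynomial IntermediateField ModularCurve

variable {L k : Type*} [Field L] [Field k] {A : ValuationSubring L} {π : A →+* k}

theorem coeffMap_subtype_injective (A : ValuationSubring L) :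
    Function.Injective (coeffMap A.subtype) := fun _ _ h =>
  HahnSeries.ext <| funext fun n =>
    Subtype.ext (congrArg (fun z : LaurentSeries L => z.coeff n) h)

/-- `f` is a quotient of integral series whose denominator has nonzero reduction. -/
def IsGauss (π : A →+* k) (f : LaurentSeries L) (a b : LaurentSeries A) : Prop :=
  coeffMap π b ≠ 0 ∧ f * coeffMap A.subtype b = coeffMap A.subtype a

namespace IsGauss

variable {f f' : LaurentSeries L} {a b a' b' : LaurentSeries A}

theorem div_eq (h : IsGauss π f a b) (h' : IsGauss π f a' b') :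
    coeffMap π a / coeffMap π b = coeffMap π a' / coeffMap π b' := by
  have he : a * b' = a' * b := coeffMap_subtype_injective A (by
    rw [map_mul, map_mul, ← h.2, ← h'.2]; ring)
  rw [div_eq_div_iff h.1 h'.1, ← map_mul, ← map_mul, he]

theorem add (h : IsGauss π f a b) (h' : IsGauss π f' a' b') :
    IsGauss π (f + f') (a * b' + a' * b) (b * b') :=
  ⟨by rw [map_mul]; exact mul_ne_zero h.1 h'.1, by
    simp only [map_mul, map_add, ← h.2, ← h'.2]; ring⟩

theorem mul (h : IsGauss π f a b) (h' : IsGauss π f' a' b') :
    IsGauss π (f * f') (a * a') (b * b') :=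
  ⟨by rw [map_mul]; exact mul_ne_zero h.1 h'.1, by
    simp only [map_mul, ← h.2, ← h'.2]; ring⟩

theorem neg (h : IsGauss π f a b) : IsGauss π (-f) (-a) b :=
  ⟨h.1, by rw [map_neg, ← h.2, neg_mul]⟩

theorem of_series (π : A →+* k) (y : LaurentSeries A) :
    IsGauss π (coeffMap A.subtype y) y 1 :=
  ⟨by rw [map_one]; exact one_ne_zero, by rw [map_one, mul_one]⟩

theorem zero (π : A →+* k) : IsGauss π 0 0 1 := by simpa using of_series π 0

theorem one (π : A →+* k) : IsGauss π 1 1 1 := by simpa using of_series π 1

end IsGauss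

theorem gauss_add_aux {a b a' b' : LaurentSeries A} (hb : coeffMap π b ≠ 0)
    (hb' : coeffMap π b' ≠ 0) : coeffMap π (a * b' + a' * b) / coeffMap π (b * b') =
      coeffMap π a / coeffMap π b + coeffMap π a' / coeffMap π b' := by
  rw [(coeffMap π).map_add, (coeffMap π).map_mul, (coeffMap π).map_mul, (coeffMap π).map_mul,
    div_add_div _ _ hb hb']
  ring

theorem gauss_mul_aux {a b a' b' : LaurentSeries A} :
    coeffMap π (a * a') / coeffMap π (b * b') =
      coeffMap π a / coeffMap π b * (coeffMap π a' / coeffMap π b') := by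
  rw [(coeffMap π).map_mul, (coeffMap π).map_mul, div_mul_div_comm]

section

variable (π) (E : IntermediateField L (LaurentSeries L))

/-- The integral elements of a field of Laurent series. -/
def gaussRing : Subring E where
  carrier := {f | ∃ a b, IsGauss π (f : LaurentSeries L) a b}
  zero_mem' := ⟨0, 1, IsGauss.zero π⟩
  one_mem' := ⟨1, 1, IsGauss.one π⟩
  add_mem' := fun ⟨_, _, h⟩ ⟨_, _, h'⟩ => ⟨_, _, h.add h'⟩
  mul_mem' := fun ⟨_, _, h⟩ ⟨_, _, h'⟩ => ⟨_, _, h.mul h'⟩
  neg_mem' := fun ⟨_, _, h⟩ => ⟨_, _, h.neg⟩

theorem exists_gauss (f : gaussRing π E) :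
    ∃ a b, IsGauss π ((f : E) : LaurentSeries L) a b := f.2

/-- The reduced series. -/
def gaussVal (f : gaussRing π E) : LaurentSeries k :=
  coeffMap π (exists_gauss π E f).choose / coeffMap π (exists_gauss π E f).choose_spec.choose

variable {π E}

theorem gaussVal_eq {f : gaussRing π E} {a b : LaurentSeries A}
    (h : IsGauss π ((f : E) : LaurentSeries L) a b) :
    gaussVal π E f = coeffMap π a / coeffMap π b :=
  (exists_gauss π E f).choose_spec.choose_spec.div_eq h

variable (π E)

/-- The reduction as a ring homomorphism. -/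
def gaussHom : gaussRing π E →+* LaurentSeries k where
  toFun := gaussVal π E
  map_one' := by
    have h : IsGauss π (((1 : gaussRing π E) : E) : LaurentSeries L) 1 1 := by
      rw [Subring.coe_one, IntermediateField.coe_one]
      exact IsGauss.one π
    rw [gaussVal_eq h, (coeffMap π).map_one, div_one]
  map_zero' := by
    have h : IsGauss π (((0 : gaussRing π E) : E) : LaurentSeries L) 0 1 := by
      rw [Subring.coe_zero, IntermediateField.coe_zero]
      exact IsGauss.zero π
    rw [gaussVal_eq h, (coeffMap π).map_zero, zero_div]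
  map_add' f g := by
    obtain ⟨a, b, h⟩ := exists_gauss π E f
    obtain ⟨a', b', h'⟩ := exists_gauss π E g
    have h2 : IsGauss π (((f + g : gaussRing π E) : E) : LaurentSeries L) (a * b' + a' * b)
        (b * b') := by
      rw [Subring.coe_add, IntermediateField.coe_add]
      exact h.add h'
    rw [gaussVal_eq h2, gaussVal_eq h, gaussVal_eq h']
    exact gauss_add_aux h.1 h'.1
  map_mul' f g := by
    obtain ⟨a, b, h⟩ := exists_gauss π E f
    obtain ⟨a', b', h'⟩ := exists_gauss π E g
    have h2 : IsGauss π (((f * g : gaussRing π E) : E) : LaurentSeries L) (a * a') (b * b') := by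
      rw [Subring.coe_mul, IntermediateField.coe_mul]
      exact h.mul h'
    rw [gaussVal_eq h2, gaussVal_eq h, gaussVal_eq h']
    exact gauss_mul_aux

end

theorem coeffMap_single_zero {R S : Type*} [CommRing R] [CommRing S] (φ : R →+* S) (r : R) :
    coeffMap φ (HahnSeries.single 0 r) = HahnSeries.single 0 (φ r) :=
  coeffMap_single φ 0 r

end FLTAgent.Specialization

namespace FLTAgent.Specialization

open AlgebraicCurve FLTAgent.Curves Polynomial IntermediateField ModularCurve

variable {L k : Type*} [Field L] [Field k] {A : ValuationSubring L} {π : A →+* k}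

variable (π) in
/-- The reduction of a field of Laurent series. -/
def laurentReduction (E : IntermediateField L (LaurentSeries L)) :
    Reduction π E (LaurentSeries k) where
  O := gaussRing π E
  red := gaussHom π E
  algebraMap_mem a := ⟨HahnSeries.single 0 a, 1, by
    rw [show ((algebraMap L E (a : L) : E) : LaurentSeries L) =
      coeffMap A.subtype (HahnSeries.single 0 a) by
        rw [coeffMap_single_zero]; exact algebraMap_laurentSeries_eq_single L (a : L)]
    exact IsGauss.of_series π _⟩
  red_algebraMap a := by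
    show gaussVal π E _ = _
    rw [gaussVal_eq (a := HahnSeries.single 0 a) (b := 1) (by
      rw [show ((algebraMap L E (a : L) : E) : LaurentSeries L) =
        coeffMap A.subtype (HahnSeries.single 0 a) by
          rw [coeffMap_single_zero]; exact algebraMap_laurentSeries_eq_single L (a : L)]
      exact IsGauss.of_series π _), map_one, div_one, coeffMap_single_zero,
      algebraMap_laurentSeries_eq_single]
  inv_mem f hf := by
    obtain ⟨a, b, h⟩ := exists_gauss π E f
    have hval : gaussHom π E f = coeffMap π a / coeffMap π b := gaussVal_eq h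
    have ha : coeffMap π a ≠ 0 := fun h0 => hf (by rw [hval, h0, zero_div])
    refine ⟨b, a, ha, ?_⟩
    have hf0 : ((f : E) : LaurentSeries L) ≠ 0 := fun h0 => by
      have := h.2
      rw [h0, zero_mul] at this
      exact ha (by rw [coeffMap_subtype_injective A (by rw [← this, map_zero] : coeffMap A.subtype a =
        coeffMap A.subtype 0), map_zero])
    push_cast
    rw [← h.2, ← mul_assoc, inv_mul_cancel₀ hf0, one_mul]

theorem laurentReduction_res {E : IntermediateField L (LaurentSeries L)} {y : LaurentSeries A}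
    (hy : coeffMap A.subtype y ∈ E) :
    (laurentReduction π E).Res ⟨coeffMap A.subtype y, hy⟩ (coeffMap π y) := by
  have hmem : (⟨coeffMap A.subtype y, hy⟩ : E) ∈ gaussRing π E := ⟨y, 1, IsGauss.of_series π y⟩
  have h : IsGauss π (((⟨⟨coeffMap A.subtype y, hy⟩, hmem⟩ : gaussRing π E) : E) :
      LaurentSeries L) y 1 := IsGauss.of_series π y
  refine ⟨hmem, ?_⟩
  show gaussVal π E (⟨⟨coeffMap A.subtype y, hy⟩, hmem⟩ : gaussRing π E) = coeffMap π y
  rw [gaussVal_eq h, (coeffMap π).map_one, div_one]

theorem laurentReduction_compat {E E' : IntermediateField L (LaurentSeries L)} (h : E ≤ E') {f : E}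
    {g : LaurentSeries k} (hf : (laurentReduction π E).Res f g) :
    (laurentReduction π E').Res ⟨(f : LaurentSeries L), h f.2⟩ g := by
  obtain ⟨hm, hg⟩ := hf
  obtain ⟨a, b, hab⟩ := exists_gauss π E ⟨f, hm⟩
  have hmem : (⟨(f : LaurentSeries L), h f.2⟩ : E') ∈ gaussRing π E' := ⟨a, b, hab⟩
  have h2 : IsGauss π (((⟨⟨(f : LaurentSeries L), h f.2⟩, hmem⟩ : gaussRing π E') : E') :
      LaurentSeries L) a b := hab
  refine ⟨hmem, ?_⟩
  show gaussVal π E' (⟨⟨(f : LaurentSeries L), h f.2⟩, hmem⟩ : gaussRing π E') = g
  rw [gaussVal_eq h2, ← gaussVal_eq hab]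
  exact hg

section Ambient

variable {F Ω : Type*} [Field F] [Algebra L F] [Field Ω] [Algebra k Ω] [IsAlgClosed L]
  [IsFunctionField L F] [IsAlgClosed k]

/-- Reductions of elements of `F` stay in a field generated by reductions of the right degree. -/
theorem mem_of_res_ambient (R : Reduction π F Ω) (hπ : Function.Surjective π) {x : F}
    (hxL : Transcendental L x) {Fb : IntermediateField k Ω} {xb : Ω} (hx : R.Res x xb)
    (hxb : Transcendental k xb) (hle : k⟮xb⟯ ≤ Fb)
    [FiniteDimensional k⟮xb⟯ (IntermediateField.extendScalars hle)]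
    (hdeg : Module.finrank L⟮x⟯ F = Module.finrank k⟮xb⟯ (IntermediateField.extendScalars hle))
    {S : Set Ω} (hS : ∀ s ∈ S, ∃ f, R.Res f s) (hgen : Fb = IntermediateField.adjoin k S)
    {f : F} {g : Ω} (h : R.Res f g) : g ∈ Fb := by
  have hE : IntermediateField.extendScalars hle = IntermediateField.adjoin k⟮xb⟯ S := by
    apply IntermediateField.restrictScalars_injective k
    rw [IntermediateField.extendScalars_restrictScalars,
      IntermediateField.restrictScalars_adjoin, IntermediateField.adjoin_union,
      IntermediateField.adjoin_self, ← hgen]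
    exact (sup_eq_right.2 hle).symm
  obtain ⟨u, w, huw, hw, hwE⟩ := exists_lift_basis R (IntermediateField.extendScalars hle) hS hE
  haveI := finiteDimensional_adjoin (K := L) hxL
  have hu : LinearIndependent L⟮x⟯ u :=
    Reduction.linearIndependent_of_res (Reduction.lineReduction_compat hx hxb hπ) huw
      (Reduction.lineReduction_total hx hxb hπ) hw
  haveI : Nonempty (Fin (Module.finrank k⟮xb⟯ (IntermediateField.extendScalars hle))) :=
    ⟨⟨0, hdeg ▸ Module.finrank_pos⟩⟩
  have hspan := hu.span_eq_top_of_card_eq_finrank (by rw [Fintype.card_fin, hdeg])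
  obtain ⟨a, ha⟩ := (Submodule.mem_span_range_iff_exists_fun _).1
    (hspan ▸ Submodule.mem_top : f ∈ Submodule.span L⟮x⟯ (Set.range u))
  obtain ⟨b, -, rfl⟩ := Reduction.coord_res (Reduction.lineReduction_compat hx hxb hπ) huw
    (Reduction.lineReduction_total hx hxb hπ) hw (ha.symm ▸ h)
  refine sum_mem fun i _ => ?_
  rw [IntermediateField.smul_def, smul_eq_mul]
  exact mul_mem (hle (b i).2) (hwE i)

/-- A reduction whose values lie in an intermediate field, as a reduction into that field. -/
def Reduction.codRestrict {F Ω : Type*} [Field F] [Algebra L F] [Field Ω] [Algebra k Ω]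
    (R : Reduction π F Ω) (Fb : IntermediateField k Ω) (h : ∀ f g, R.Res f g → g ∈ Fb) :
    Reduction π F Fb where
  O := R.O
  red := R.red.codRestrict Fb fun f => h _ _ (R.res_red f.2)
  algebraMap_mem := R.algebraMap_mem
  red_algebraMap a := Subtype.ext (R.red_algebraMap a)
  inv_mem f hf := R.inv_mem f fun h0 => hf (Subtype.ext h0)

theorem Reduction.codRestrict_res {F Ω : Type*} [Field F] [Algebra L F] [Field Ω] [Algebra k Ω]
    {R : Reduction π F Ω} {Fb : IntermediateField k Ω} {h : ∀ f g, R.Res f g → g ∈ Fb} {f : F}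
    {g : Fb} : (R.codRestrict Fb h).Res f g ↔ R.Res f (g : Ω) :=
  ⟨fun ⟨h1, h2⟩ => ⟨h1, congrArg Subtype.val h2⟩, fun ⟨h1, h2⟩ => ⟨h1, Subtype.ext h2⟩⟩

theorem gen_codRestrict {F Ω : Type*} [Field F] [Algebra L F] [Field Ω] [Algebra k Ω]
    (R : Reduction π F Ω) (Fb : IntermediateField k Ω) (h : ∀ f g, R.Res f g → g ∈ Fb)
    {S : Set Ω} (hS : ∀ s ∈ S, ∃ f, R.Res f s) (hgen : Fb = IntermediateField.adjoin k S) (z : Fb) :
    z ∈ IntermediateField.adjoin k (Set.range (R.codRestrict Fb h).red) := by
  have hle : Fb ≤ (IntermediateField.adjoin k (Set.range (R.codRestrict Fb h).red)).map Fb.val := by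
    conv_lhs => rw [hgen]
    rw [IntermediateField.adjoin_le_iff]
    intro s hs
    obtain ⟨f, hf⟩ := hS s hs
    have hsm : s ∈ Fb := h f s hf
    exact ⟨⟨s, hsm⟩, IntermediateField.subset_adjoin k _
      ⟨⟨f, hf.1⟩, Subtype.ext hf.2⟩, rfl⟩
  obtain ⟨y, hy, hyz⟩ := hle z.2
  rwa [show z = y from Subtype.ext hyz.symm]

end Ambient

end FLTAgent.Specialization
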