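import Fermat.Agent.ModEq.Triples

/-!
# Auxiliary levels

Every level prime to `ℓ` sits in a chain `N ∣ N₂ ∣ N'` where `N'` is divisible by `4` (by `9` if
`ℓ = 2`), the index from `N₂` to `N'` is prime to `ℓ` and that from `N` to `N₂` is a power of `ℓ`.
-/

set_option autoImplicit false

noncomputable section

namespace FLTAgent.Specialization

open ModularCurve

/-- The auxiliary level: `9` at `2`, and `4` otherwise. -/
def auxLevel (ℓ : ℕ) : ℕ := if ℓ = 2 then 9 else 4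

theorem exists_mul_prime {p : ℕ} (hp : p.Prime) {ℓ : ℕ} (hl : ℓ.Prime) (hlp : ℓ ≠ p) {N : ℕ}
    (hN : ¬ ℓ ∣ N) : ∃ M, N ∣ M ∧ p ∣ M ∧ ¬ ℓ ∣ M ∧
      (dedekindPsi M = dedekindPsi N ∨ dedekindPsi M = dedekindPsi N * (p + 1)) := by
  by_cases h : p ∣ N
  · exact ⟨N, dvd_rfl, h, hN, .inl rfl⟩
  · refine ⟨N * p, dvd_mul_right _ _, dvd_mul_left _ _, fun hd => ?_,
      .inr ((FLTAgent.ModEq.dedekindPsi_mul_prime_of_not_dvd hp h).trans (mul_comm _ _))⟩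
    rcases hl.dvd_mul.1 hd with h1 | h1
    · exact hN h1
    · exact hlp ((Nat.prime_dvd_prime_iff_eq hl hp).1 h1)

theorem exists_mul_prime_sq {p : ℕ} (hp : p.Prime) {ℓ : ℕ} (hl : ℓ.Prime) (hlp : ℓ ≠ p) {N : ℕ}
    (hN : ¬ ℓ ∣ N) (hpN : p ∣ N) : ∃ M, N ∣ M ∧ p * p ∣ M ∧ ¬ ℓ ∣ M ∧
      (dedekindPsi M = dedekindPsi N ∨ dedekindPsi M = dedekindPsi N * p) := by
  by_cases h : p * p ∣ N
  · exact ⟨N, dvd_rfl, h, hN, .inl rfl⟩
  · refine ⟨N * p, dvd_mul_right _ _, mul_dvd_mul_right hpN p, fun hd => ?_,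
      .inr ((FLTAgent.ModEq.dedekindPsi_mul_prime_of_dvd hp hpN).trans (mul_comm _ _))⟩
    rcases hl.dvd_mul.1 hd with h1 | h1
    · exact hN h1
    · exact hlp ((Nat.prime_dvd_prime_iff_eq hl hp).1 h1)

theorem exists_levels {ℓ : ℕ} (hl : ℓ.Prime) {N : ℕ} (hN : ¬ ℓ ∣ N) :
    ∃ N₂ N' : ℕ, N ∣ N₂ ∧ N₂ ∣ N' ∧ ¬ ℓ ∣ N' ∧ auxLevel ℓ ∣ N' ∧
      (∃ d, dedekindPsi N' = dedekindPsi N₂ * d ∧ ¬ ℓ ∣ d) ∧
      (∃ e, dedekindPsi N₂ = dedekindPsi N * ℓ ^ e) ∧ (5 ≤ ℓ → N₂ = N) := by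
  rcases eq_or_ne ℓ 2 with rfl | h2
  · obtain ⟨N₁, a1, a2, a3, a4⟩ := exists_mul_prime Nat.prime_three hl (by decide) hN
    obtain ⟨N', b1, b2, b3, b4⟩ := exists_mul_prime_sq Nat.prime_three hl (by decide) a3 a2
    refine ⟨N₁, N', a1, b1, b3, by simpa [auxLevel] using b2, ?_, ?_, by omega⟩
    · rcases b4 with h | h
      · exact ⟨1, by rw [h, mul_one], by decide⟩
      · exact ⟨3, h, by decide⟩
    · rcases a4 with h | h
      · exact ⟨0, by rw [h, pow_zero, mul_one]⟩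
      · exact ⟨2, by rw [h]; norm_num⟩
  · obtain ⟨N₁, a1, a2, a3, a4⟩ := exists_mul_prime Nat.prime_two hl h2 hN
    obtain ⟨N', b1, b2, b3, b4⟩ := exists_mul_prime_sq Nat.prime_two hl h2 a3 a2
    have hl2 : ¬ ℓ ∣ 2 := fun h => h2 ((Nat.prime_dvd_prime_iff_eq hl Nat.prime_two).1 h)
    have haux : auxLevel ℓ ∣ N' := by simpa [auxLevel, h2] using b2
    rcases eq_or_ne ℓ 3 with rfl | h3
    · refine ⟨N₁, N', a1, b1, b3, haux, ?_, ?_, by omega⟩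
      · rcases b4 with h | h
        · exact ⟨1, by rw [h, mul_one], by decide⟩
        · exact ⟨2, h, by decide⟩
      · rcases a4 with h | h
        · exact ⟨0, by rw [h, pow_zero, mul_one]⟩
        · exact ⟨1, by rw [h, pow_one]⟩
    · have hl3 : ¬ ℓ ∣ 3 := fun h => h3 ((Nat.prime_dvd_prime_iff_eq hl Nat.prime_three).1 h)
      refine ⟨N, N', dvd_rfl, a1.trans b1, b3, haux, ?_, ⟨0, by rw [pow_zero, mul_one]⟩,
        fun _ => rfl⟩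
      have hd : ∀ x y : ℕ, ¬ ℓ ∣ x → ¬ ℓ ∣ y → ¬ ℓ ∣ x * y := fun x y hx hy h =>
        (hl.dvd_mul.1 h).elim hx hy
      rcases a4 with h | h <;> rcases b4 with h' | h' <;> rw [h', h]
      · exact ⟨1, (mul_one _).symm, hl.not_dvd_one⟩
      · exact ⟨2, rfl, hl2⟩
      · exact ⟨3, rfl, hl3⟩
      · exact ⟨3 * 2, (mul_assoc _ _ _), hd _ _ hl3 hl2⟩

end FLTAgent.Specialization
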