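import Fermat.Agent.Specialization.Torsion
import Fermat.Agent.LocalEC.Galois
import Fermat.Prelude.Def_ModularCurve_LaurentCoeff
import Mathlib.FieldTheory.IsAlgClosed.AlgebraicClosure

/-!
# Places of `ℚ̄` over a prime: rank one, and primitive multiples of integral series
-/

set_option autoImplicit false
set_option linter.style.haveILetI false

noncomputable section

namespace FLTAgent.Specialization

open IntermediateField Polynomial IsLocalRing ModularCurve

local notation "QA" => AlgebraicClosure ℚ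

variable {A : ValuationSubring QA} {ℓ : ℕ} [hℓ : Fact ℓ.Prime] (hA : A.LiesOverPrime ℓ)

include hA

theorem val_ell_lt_one : A.valuation (ℓ : QA) < 1 := A.mem_nonunits_iff.mp hA

theorem val_ell_pos : 0 < A.valuation (ℓ : QA) :=
  zero_lt_iff.2 ((_root_.map_ne_zero _).2 (Nat.cast_ne_zero.2 hℓ.out.ne_zero))

theorem exists_val_natCast {n : ℕ} (hn : n ≠ 0) :
    ∃ z : ℤ, A.valuation (n : QA) = A.valuation (ℓ : QA) ^ z := by
  obtain ⟨e, u, hu, rfl⟩ := Nat.exists_eq_pow_mul_and_not_dvd hn ℓ hℓ.out.ne_one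
  refine ⟨e, ?_⟩
  rw [Nat.cast_mul, map_mul, LocalEC.val_natCast_eq_one hA hℓ.out hu, mul_one, Nat.cast_pow,
    map_pow, zpow_natCast]

theorem exists_val_ratCast {q : ℚ} (hq : q ≠ 0) :
    ∃ z : ℤ, A.valuation (q : QA) = A.valuation (ℓ : QA) ^ z := by
  obtain ⟨a, ha⟩ := exists_val_natCast hA (n := q.num.natAbs) (by simpa using hq)
  obtain ⟨b, hb⟩ := exists_val_natCast hA q.den_nz
  refine ⟨a - b, ?_⟩
  have h : A.valuation (q.num : QA) = A.valuation (q.num.natAbs : QA) := by
    rcases Int.natAbs_eq q.num with e | e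
    · conv_lhs => rw [e, Int.cast_natCast]
    · conv_lhs => rw [e, Int.cast_neg, Int.cast_natCast, Valuation.map_neg]
  rw [Rat.cast_def, map_div₀, h, ha, hb, zpow_sub₀ (val_ell_pos hA).ne']

/-- A bounded power of the absolute value of an algebraic number is a power of that of `ℓ`. -/
theorem exists_val_pow {x : QA} (hx : x ≠ 0) {n : ℕ} (hn : (minpoly ℚ x).natDegree ≤ n) :
    ∃ z : ℤ, A.valuation x ^ (n.factorial) = A.valuation (ℓ : QA) ^ z := by
  classical
  set p := minpoly ℚ x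
  have hint : IsIntegral ℚ x := ((AlgebraicClosure.isAlgebraic ℚ).isAlgebraic x).isIntegral
  set S := p.support
  have hS : S.Nonempty := Polynomial.support_nonempty.2 (minpoly.ne_zero hint)
  set w := fun i : ℕ => A.valuation ((p.coeff i : QA) * x ^ i) with hw
  obtain ⟨i, hi, himax⟩ := S.exists_max_image w hS
  have hterm : ∀ j ∈ S, (p.coeff j : QA) * x ^ j ≠ 0 := fun j hj =>
    mul_ne_zero (by exact_mod_cast Polynomial.mem_support_iff.1 hj) (pow_ne_zero _ hx)
  have hsum : ∑ j ∈ S, (p.coeff j : QA) * x ^ j = 0 := by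
    have h := minpoly.aeval ℚ x
    rw [Polynomial.aeval_def, Polynomial.eval₂_eq_sum, Polynomial.sum_def] at h
    exact h
  obtain ⟨j, hj, hji, hwj⟩ : ∃ j ∈ S, j ≠ i ∧ w j = w i := by
    by_contra hcon
    push Not at hcon
    have := A.valuation.map_sum_eq_of_lt hi
      (fun j hj => lt_of_le_of_ne (himax j (Finset.mem_sdiff.1 hj).1)
        (hcon j (Finset.mem_sdiff.1 hj).1 (by simpa using (Finset.mem_sdiff.1 hj).2)))
    rw [hsum, map_zero] at this
    exact hterm i hi ((A.valuation.zero_iff).1 this.symm)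
  obtain ⟨a, ha⟩ := exists_val_ratCast hA (Polynomial.mem_support_iff.1 hi)
  obtain ⟨b, hb⟩ := exists_val_ratCast hA (Polynomial.mem_support_iff.1 hj)
  simp only [hw, map_mul, map_pow, ha, hb] at hwj
  have key : ∀ {s t : ℕ} {u v : ℤ}, s ≤ n → t < s →
      A.valuation (ℓ : QA) ^ u * A.valuation x ^ s = A.valuation (ℓ : QA) ^ v * A.valuation x ^ t →
      ∃ z : ℤ, A.valuation x ^ (n.factorial) = A.valuation (ℓ : QA) ^ z := by
    intro s t u v hs hts h
    obtain ⟨c, hc⟩ := Nat.dvd_factorial (by omega : 0 < s - t) (by omega : s - t ≤ n)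
    refine ⟨(v - u) * c, ?_⟩
    have hx0 : A.valuation x ≠ 0 := (_root_.map_ne_zero _).2 hx
    have hl0 := (val_ell_pos hA).ne'
    have h1 : A.valuation x ^ (s - t) = A.valuation (ℓ : QA) ^ (v - u) := by
      rw [zpow_sub₀ hl0, eq_div_iff (zpow_ne_zero _ hl0)]
      apply mul_right_cancel₀ (pow_ne_zero t hx0)
      rw [← h, mul_right_comm, ← pow_add, Nat.sub_add_cancel hts.le, mul_comm]
    rw [hc, pow_mul, h1, ← zpow_natCast, ← zpow_mul]
  have hle : ∀ s ∈ S, s ≤ n := fun s hs =>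
    (Polynomial.le_natDegree_of_mem_supp s hs).trans hn
  rcases lt_or_gt_of_ne hji with h | h
  · exact key (hle i hi) h hwj.symm
  · exact key (hle j hj) h hwj

/-- The place has rank one. -/
theorem rankOne_residue : RankOne (residue A) := by
  intro a b ha ha0 hb
  have hax : (a : QA) ≠ 0 := fun h => ha0 (Subtype.ext h)
  obtain ⟨za, hza⟩ := exists_val_pow hA hax (n := (minpoly ℚ (a : QA)).natDegree) le_rfl
  obtain ⟨zb, hzb⟩ := exists_val_pow hA hb (n := (minpoly ℚ b).natDegree) le_rfl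
  set D := (minpoly ℚ (a : QA)).natDegree.factorial
  set D' := (minpoly ℚ b).natDegree.factorial
  have hD : D ≠ 0 := Nat.factorial_ne_zero _
  have hD' : D' ≠ 0 := Nat.factorial_ne_zero _
  have hv1 : A.valuation (a : QA) < 1 := (LocalEC.residue_eq_zero_iff_val_lt_one a).1 ha
  have hl0 := val_ell_pos hA
  have hl1 := val_ell_lt_one hA
  have hza' : 0 < za := by
    by_contra h
    push Not at h
    have h1 := pow_lt_one₀ zero_le hv1 hD
    rw [hza] at h1
    exact h1.not_ge (one_le_zpow_of_nonpos₀ hl0 hl1.le h)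
  refine ⟨D * (zb.natAbs + 1), fun hmem => ?_⟩
  have hle := (A.valuation_le_one_iff _).2 hmem
  rw [map_div₀, map_pow, div_le_one₀ (pow_pos (zero_lt_iff.2 ((_root_.map_ne_zero _).2 hax)) _)] at hle
  have h2 := pow_le_pow_left₀ zero_le hle D'
  rw [hzb, pow_mul, hza, ← zpow_natCast, ← zpow_natCast, ← zpow_mul, ← zpow_mul] at h2
  have h3 := (zpow_right_strictAnti₀ hl0 hl1).le_iff_ge.1 h2
  have h4 : (zb.natAbs : ℤ) + 1 ≤ za * (((zb.natAbs + 1 : ℕ) : ℤ) * D') := by
    refine le_trans ?_ (le_mul_of_one_le_left (by positivity) hza')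
    exact_mod_cast Nat.le_mul_of_pos_right _ (Nat.pos_of_ne_zero hD')
  omega

/-- A nonzero combination of series with integer coefficients has a primitive multiple. -/
theorem exists_primitive {ι : Type*} [Fintype ι] (c : ι → QA) (z : ι → LaurentSeries ℤ)
    {a : LaurentSeries QA}
    (ha : a = ∑ i, HahnSeries.C (c i) * coeffMap (Int.castRingHom QA) (z i)) (ha0 : a ≠ 0) :
    ∃ (u : QA) (y : LaurentSeries A), u ≠ 0 ∧
      coeffMap A.subtype y = HahnSeries.C u * a ∧ coeffMap (residue A) y ≠ 0 := by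
  classical
  set K0 := IntermediateField.adjoin ℚ (Set.range c)
  haveI : FiniteDimensional ℚ K0 :=
    IntermediateField.finiteDimensional_adjoin fun x _ => ((AlgebraicClosure.isAlgebraic ℚ).isAlgebraic x).isIntegral
  set D := (Module.finrank ℚ K0).factorial
  have hD : D ≠ 0 := Nat.factorial_ne_zero _
  have hpow : ∀ x ∈ K0, x ≠ 0 → ∃ z : ℤ, A.valuation x ^ D = A.valuation (ℓ : QA) ^ z := by
    intro x hx hx0
    refine exists_val_pow hA hx0 ?_
    rw [← IntermediateField.minpoly_eq (⟨x, hx⟩ : K0)]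
    exact minpoly.natDegree_le _
  have hcoeff : ∀ m, a.coeff m = ∑ i, c i * ((z i).coeff m : QA) := fun m => by
    rw [ha, HahnSeries.coeff_sum]
    refine Finset.sum_congr rfl fun i _ => ?_
    rw [HahnSeries.C_mul_eq_smul, HahnSeries.coeff_smul, smul_eq_mul]
    rfl
  have hmem : ∀ m, a.coeff m ∈ K0 := fun m => hcoeff m ▸ sum_mem fun i _ =>
    mul_mem (IntermediateField.subset_adjoin ℚ _ ⟨i, rfl⟩) (intCast_mem K0 _)
  obtain ⟨m₀, hm₀⟩ : ∃ m, a.coeff m ≠ 0 := by
    by_contra h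
    push Not at h
    exact ha0 (HahnSeries.ext (funext h))
  obtain ⟨i₀, -, hi₀⟩ := Finset.univ.exists_max_image (fun i => A.valuation (c i))
    (by
      by_contra h
      rw [Finset.not_nonempty_iff_eq_empty] at h
      exact hm₀ (by rw [hcoeff, h, Finset.sum_empty]))
  have hbound : ∀ m, A.valuation (a.coeff m) ≤ A.valuation (c i₀) := fun m => by
    rw [hcoeff]
    refine A.valuation.map_sum_le fun i _ => ?_
    rw [map_mul]
    exact (mul_le_of_le_one_right' ((A.valuation_le_one_iff _).2 (intCast_mem A _))).trans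
      (hi₀ i (Finset.mem_univ _))
  have hc0 : c i₀ ≠ 0 := fun h => hm₀ ((A.valuation.zero_iff).1
    (le_antisymm (by simpa [h] using hbound m₀) zero_le))
  obtain ⟨z₀, hz₀⟩ := hpow _ (IntermediateField.subset_adjoin ℚ _ ⟨i₀, rfl⟩) hc0
  have hanti := zpow_right_strictAnti₀ (val_ell_pos hA) (val_ell_lt_one hA)
  obtain ⟨w, ⟨n, hn0, hn⟩, hmin⟩ := Int.exists_least_of_bdd
    (P := fun w => ∃ m, a.coeff m ≠ 0 ∧ A.valuation (a.coeff m) ^ D = A.valuation (ℓ : QA) ^ w)
    ⟨z₀, fun w ⟨m, _, hm⟩ => hanti.le_iff_ge.1 (by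
      rw [← hm, ← hz₀]; exact pow_le_pow_left₀ zero_le (hbound m) D)⟩
    (by obtain ⟨w, hw⟩ := hpow _ (hmem m₀) hm₀; exact ⟨w, m₀, hm₀, hw⟩)
  have hmax : ∀ m, A.valuation (a.coeff m) ≤ A.valuation (a.coeff n) := fun m => by
    by_cases hm : a.coeff m = 0
    · simp [hm]
    obtain ⟨w', hw'⟩ := hpow _ (hmem m) hm
    exact (pow_le_pow_iff_left₀ zero_le zero_le hD).1
      (by rw [hw', hn]; exact hanti.le_iff_ge.2 (hmin w' ⟨m, hm, hw'⟩))
  have hint : ∀ m, (a.coeff n)⁻¹ * a.coeff m ∈ A := fun m => by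
    rw [← A.valuation_le_one_iff, map_mul, map_inv₀,
      inv_mul_le_one₀ (zero_lt_iff.2 ((_root_.map_ne_zero _).2 hn0))]
    exact hmax m
  refine ⟨(a.coeff n)⁻¹, ⟨fun m => ⟨_, hint m⟩, a.isPWO_support.mono fun m hm h => hm
    (Subtype.ext (by simp [h]))⟩, inv_ne_zero hn0, HahnSeries.ext (funext fun m => ?_), fun h => ?_⟩
  · rw [coeffMap_coeff, HahnSeries.C_mul_eq_smul, HahnSeries.coeff_smul]
    rfl
  · have h1 := congrArg (fun y : LaurentSeries (ResidueField A) => y.coeff n) h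
    simp only [coeffMap_coeff, HahnSeries.coeff_zero] at h1
    rw [show (⟨_, hint n⟩ : A) = 1 from Subtype.ext (inv_mul_cancel₀ hn0), map_one] at h1
    exact one_ne_zero h1

end FLTAgent.Specialization
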