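import Fermat.Agent.Specialization.Modular
import Fermat.Agent.Specialization.Valuation
import Fermat.Agent.Specialization.Levels
import Fermat.Agent.FrobTrace.Global

/-!
# The reduction of `J₀(N)` modulo `ℓ` and its injectivity on torsion prime to `ℓ`
-/

set_option autoImplicit false
set_option linter.style.haveILetI false
set_option synthInstance.maxHeartbeats 400000
set_option maxHeartbeats 1000000

noncomputable section

namespace FLTAgent.Specialization

open AlgebraicCurve FLTAgent.Curves IntermediateField ModularCurve IsLocalRing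

local notation "QA" => AlgebraicClosure ℚ

variable {A : ValuationSubring QA} {ℓ : ℕ} [Fact ℓ.Prime] (hA : A.LiesOverPrime ℓ)

/-- The good-model input at a level: the Riemann–Roch spaces of multiples of the poles of `j` do
not grow on reduction. -/
def GoodLevel (A : ValuationSubring QA) (N : ℕ) [NeZero N] : Prop :=
  ∀ [IsAlgClosed (ResidueField A)]
    [IsFunctionField (ResidueField A) (modularFunctionFieldFullC (ResidueField A) N)],
    ∃ m₀ : ℕ, ∀ m : ℕ, m₀ ≤ m →
      ell ((m : ℤ) • poleDiv (ResidueField A)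
          (⟨jqModC _, jqModC_mem_full _ N⟩ : modularFunctionFieldFullC (ResidueField A) N)) ≤
        ell ((m : ℤ) • poleDiv QA (⟨_, jq_mem_X0Bar (A := A) N⟩ : X0Bar N))

include hA

theorem natCast_ne_zero_residue {n : ℕ} (hn : ¬ ℓ ∣ n) : (n : ResidueField A) ≠ 0 := by
  haveI := FrobTrace.charP_residueField hA
  exact fun h => hn ((CharP.cast_eq_zero_iff _ ℓ n).1 h)

theorem not_dvd_of_natCast_ne_zero {n : ℕ} (hn : (n : ResidueField A) ≠ 0) : ¬ ℓ ∣ n := by
  haveI := FrobTrace.charP_residueField hA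
  exact fun h => hn ((CharP.cast_eq_zero_iff _ ℓ n).2 h)

/-- The specialisation of the places of `X₀(N)` at a good level for all `ℓ ∤ N`. -/
theorem exists_isSpecialisation_of_goodLevel
    (hgood : ∀ (M : ℕ) [NeZero M], auxLevel ℓ ∣ M → ¬ ℓ ∣ M → GoodLevel A M)
    (N : ℕ) [NeZero N] (hN : ¬ ℓ ∣ N) :
    ∃ r, IsSpecialisation (π := residue A) N r := by
  have hl : ℓ.Prime := Fact.out
  haveI : IsAlgClosed (ResidueField A) := FrobTrace.isAlgClosed_residueField A
  obtain ⟨N₂, N', h12, h23, hN', haux, ⟨d, hd, hdl⟩, ⟨e, he⟩, -⟩ := exists_levels hl hN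
  haveI : NeZero N' := ⟨fun h => hN' (h ▸ dvd_zero ℓ)⟩
  haveI : NeZero N₂ := ⟨fun h => NeZero.ne N' (by simpa [h] using h23)⟩
  have hk : ∀ {n : ℕ}, ¬ ℓ ∣ n → (n : ResidueField A) ≠ 0 := natCast_ne_zero_residue hA
  have hk' : (N' : ResidueField A) ≠ 0 := hk hN'
  have hk₂ : (N₂ : ResidueField A) ≠ 0 := hk fun h => hN' (h.trans h23)
  haveI := isFunctionField_full (ResidueField A) N rfl (hk hN)
  haveI := isFunctionField_full (ResidueField A) N₂ rfl hk₂
  haveI := isFunctionField_full (ResidueField A) N' rfl hk'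
  refine exists_isSpecialisation residue_surjective (hk hN) h12 hk₂ (rankOne_residue hA) he
    (fun m hm => ?_) (smooth_of_dvd residue_surjective hk₂ h23 hk' hd (hk hdl)
      (hgood N' haux hN'))
  exact Nat.Coprime.pow_left e ((Nat.Prime.coprime_iff_not_dvd hl).2
    (not_dvd_of_natCast_ne_zero hA hm))

omit hA in
theorem divisorExpansionsC_le_range (N : ℕ) :
    divisorExpansionsC QA N ⊆ Set.range (coeffMap (Int.castRingHom QA)) := by
  rintro _ ⟨d, hne, -, rfl⟩
  haveI := hne
  exact ⟨qExpand ℤ d (jqModC ℤ), by rw [coeffMap_qExpand, coeffMap_jqModC]⟩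

omit hA in
theorem exists_sum_of_mem_adjoin {R B : Type*} [CommSemiring R] [CommSemiring B] [Algebra R B]
    {S : Set B} {a : B} (ha : a ∈ Algebra.adjoin R S) :
    ∃ (n : ℕ) (c : Fin n → R) (s : Fin n → (Submonoid.closure S : Submonoid B)),
      a = ∑ i, algebraMap R B (c i) * (s i : B) := by
  rw [← Subalgebra.mem_toSubmodule, Algebra.adjoin_eq_span, Submodule.mem_span_set'] at ha
  obtain ⟨n, c, s, rfl⟩ := ha
  exact ⟨n, c, fun i => ⟨s i, (s i).2⟩, Finset.sum_congr rfl fun i _ => Algebra.smul_def _ _⟩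

/-- A nonzero element of the algebra of the generators has a primitive integral multiple. -/
theorem exists_integral_multiple (N : ℕ) {a : LaurentSeries QA}
    (ha : a ∈ Algebra.adjoin QA (divisorExpansionsC QA N)) (ha0 : a ≠ 0) :
    ∃ (u : QA) (y : LaurentSeries A), u ≠ 0 ∧
      coeffMap A.subtype y = algebraMap QA _ u * a ∧ coeffMap (residue A) y ≠ 0 := by
  obtain ⟨n, c, s, rfl⟩ := exists_sum_of_mem_adjoin ha
  have hs : ∀ i, ∃ z : LaurentSeries ℤ, coeffMap (Int.castRingHom QA) z = (s i : LaurentSeries QA) :=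
    fun i => by
      have h : Submonoid.closure (divisorExpansionsC QA N) ≤
          MonoidHom.mrange (coeffMap (Int.castRingHom QA) : LaurentSeries ℤ →* LaurentSeries QA) :=
        Submonoid.closure_le.2 (divisorExpansionsC_le_range N)
      exact h (s i).2
  choose z hz using hs
  obtain ⟨u, y, hu, hy, hy'⟩ := exists_primitive hA c z (Finset.sum_congr rfl fun i _ => by
    rw [hz, algebraMap_laurentSeries_eq_single]; rfl) ha0
  exact ⟨u, y, hu, by rw [hy, algebraMap_laurentSeries_eq_single]; rfl, hy'⟩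

theorem principalGeneratedByIntegral (N : ℕ) [NeZero N] (hN : ¬ ℓ ∣ N) :
    PrincipalGeneratedByIntegral A (residue A) N := by
  haveI : IsAlgClosed (ResidueField A) := FrobTrace.isAlgClosed_residueField A
  intro D hD
  obtain ⟨f, hf, rfl⟩ := isPrincipal_iff.1 hD
  have hfm : (f : LaurentSeries QA) ∈ modularFunctionFieldFullC QA N := by
    rw [← laurentBaseChange_full_eq]; exact f.2
  rw [modularFunctionFieldFullC, IntermediateField.mem_adjoin_iff_div] at hfm
  obtain ⟨a, ha, b, hb, hab⟩ := hfm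
  have hf' : (f : LaurentSeries QA) ≠ 0 := fun h => hf (Subtype.ext h)
  have ha0 : a ≠ 0 := fun h => hf' (by rw [hab, h, zero_div])
  have hb0 : b ≠ 0 := fun h => hf' (by rw [hab, h, div_zero])
  have hle : Algebra.adjoin QA (divisorExpansionsC QA N) ≤ (X0Bar N).toSubalgebra := by
    rw [X0Bar, laurentBaseChange_full_eq]
    exact IntermediateField.algebra_adjoin_le_adjoin QA _
  have key : ∀ (c : LaurentSeries QA) (hc : c ∈ Algebra.adjoin QA (divisorExpansionsC QA N)),
      c ≠ 0 → divOf QA (⟨c, hle hc⟩ : X0Bar N) ∈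
        AddSubgroup.closure (integralPrincipalDivisors A (residue A) N) := by
    intro c hc hc0
    obtain ⟨u, y, hu, hy, hy'⟩ := exists_integral_multiple hA N hc hc0
    have hmem : coeffMap A.subtype y ∈ X0Bar N := by
      rw [hy]; exact mul_mem (IntermediateField.algebraMap_mem _ u) (hle hc)
    refine AddSubgroup.subset_closure ⟨y, hmem, res_mem_full residue_surjective N
      (natCast_ne_zero_residue hA hN) (laurentReduction_res hmem), hy', fun P => ?_⟩
    have he : (⟨coeffMap A.subtype y, hmem⟩ : X0Bar N) =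
        algebraMap QA (X0Bar N) u * ⟨c, hle hc⟩ := Subtype.ext hy
    rw [divOf_apply, he, ← divOf_apply, ← divOf_apply,
      divOf_mul ((_root_.map_ne_zero _).2 hu) (fun h => hc0 (congrArg Subtype.val h)),
      divOf_algebraMap, zero_add]
  have hf2 : f * (⟨b, hle hb⟩ : X0Bar N) = ⟨a, hle ha⟩ := Subtype.ext (by
    show (f : LaurentSeries QA) * b = a
    rw [hab, div_mul_cancel₀ a hb0])
  have h := sub_mem (key a ha ha0) (key b hb hb0)
  rwa [← hf2, divOf_mul hf (fun h => hb0 (congrArg Subtype.val h)), add_sub_cancel_right] at h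

/-- The reduction of `J₀(N)` modulo `ℓ` is defined. -/
theorem reductionInputsModL
    (hgood : ∀ (M : ℕ) [NeZero M], auxLevel ℓ ∣ M → ¬ ℓ ∣ M → GoodLevel A M)
    (N : ℕ) [NeZero N] (hN : ¬ ℓ ∣ N) : ReductionInputsModL A N := by
  obtain ⟨r, hr⟩ := exists_isSpecialisation_of_goodLevel hA hgood N hN
  exact ⟨r, hr.res, principalGeneratedByIntegral hA N hN⟩

omit hA in
theorem mapDomain_eq_of_principal {N : ℕ} [NeZero N]
    {r₁ r₂ : Place QA (X0Bar N) → Place (ResidueField A)
      (modularFunctionFieldFullC (ResidueField A) N)}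
    (h₁ : IsPlaceReductionAlong A (residue A) N r₁) (h₂ : IsPlaceReductionAlong A (residue A) N r₂)
    (hgen : PrincipalGeneratedByIntegral A (residue A) N) {D : Divisor QA (X0Bar N)}
    (hD : D ∈ Divisor.principal (K := QA) (F := X0Bar N)) :
    Finsupp.mapDomain r₁ D = Finsupp.mapDomain r₂ D := by
  have hD' := hgen hD
  clear hD
  induction hD' using AddSubgroup.closure_induction with
  | mem E hE =>
    obtain ⟨y, hy, hyk, hne, hE'⟩ := hE
    exact Finsupp.ext fun Q => (h₁.2 y hy hyk hne E hE' Q).trans (h₂.2 y hy hyk hne E hE' Q).symm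
  | zero => rw [Finsupp.mapDomain_zero, Finsupp.mapDomain_zero]
  | add E E' _ _ hE hE' => rw [Finsupp.mapDomain_add, Finsupp.mapDomain_add, hE, hE']
  | neg E _ hE =>
    rw [← Finsupp.mapDomain.addMonoidHom_apply, ← Finsupp.mapDomain.addMonoidHom_apply, map_neg,
      map_neg, Finsupp.mapDomain.addMonoidHom_apply, Finsupp.mapDomain.addMonoidHom_apply, hE]

/-- Reduction modulo `ℓ` is injective on torsion prime to `ℓ`. -/
theorem eq_zero_of_reductionModL_eq_zero
    (hgood : ∀ (M : ℕ) [NeZero M], auxLevel ℓ ∣ M → ¬ ℓ ∣ M → GoodLevel A M)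
    (N : ℕ) [NeZero N] (hN : ¬ ℓ ∣ N) (h : ReductionInputsModL A N) (m : ℕ) (hm : ¬ ℓ ∣ m)
    (z : JZero N) (hmz : m • z = 0) (hz : reductionModL A N z = 0) : z = 0 := by
  obtain ⟨r, hr⟩ := exists_isSpecialisation_of_goodLevel hA hgood N hN
  obtain ⟨D, rfl⟩ := Pic0.mk_surjective z
  have hm0 : m ≠ 0 := fun h => hm (h ▸ dvd_zero ℓ)
  have hmD : Divisor.IsPrincipal (m • (D : Divisor QA (X0Bar N))) :=
    (QuotientAddGroup.eq_zero_iff (m • D)).1 hmz
  rw [reductionModL_mk h] at hz
  have hrD : Divisor.IsPrincipal (Finsupp.mapDomain (placeReductionModL h)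
      (D : Divisor QA (X0Bar N))) := (QuotientAddGroup.eq_zero_iff _).1 hz
  refine (QuotientAddGroup.eq_zero_iff D).2 (hr.inj m _ (natCast_ne_zero_residue hA hm) D.2 hmD ?_)
  suffices he : Finsupp.mapDomain r (D : Divisor QA (X0Bar N)) =
      Finsupp.mapDomain (placeReductionModL h) (D : Divisor QA (X0Bar N)) by
    exact (congrArg Divisor.IsPrincipal he).mpr hrD
  have h1 := mapDomain_eq_of_principal hr.res (isPlaceReductionModL_placeReductionModL h)
    h.choose_spec.2 hmD
  rw [← Finsupp.mapDomain.addMonoidHom_apply, ← Finsupp.mapDomain.addMonoidHom_apply, map_nsmul,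
    map_nsmul, Finsupp.mapDomain.addMonoidHom_apply, Finsupp.mapDomain.addMonoidHom_apply] at h1
  ext Q
  have h2 := congrArg (fun E : Divisor (ResidueField A)
    (modularFunctionFieldFullC (ResidueField A) N) => E Q) h1
  simp only [Finsupp.smul_apply, nsmul_eq_mul] at h2
  exact mul_left_cancel₀ (Int.natCast_ne_zero.2 hm0) h2

end FLTAgent.Specialization
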