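import Fermat.Agent.Specialization.Model

/-!
# Specialisation of divisors for a model with preserved genus
-/

set_option autoImplicit false
set_option linter.style.haveILetI false
set_option linter.unusedSectionVars false

noncomputable section

namespace FLTAgent.Specialization

open AlgebraicCurve FLTAgent.Curves Polynomial IntermediateField

variable {L k : Type*} [Field L] [Field k] {A : ValuationSubring L} {π : A →+* k}
variable {F Fb : Type*} [Field F] [Field Fb] [Algebra L F] [Algebra k Fb]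

namespace Reduction

theorem image_map_mulLeft {R : Reduction π F Fb} (hπ : Function.Surjective π) {y : F} {yb : Fb}
    (h : R.Res y yb) (hyb : yb ≠ 0) (U : Submodule L F) :
    R.image (U.map (LinearMap.mulLeft L y)) = (R.image U).map (LinearMap.mulLeft k yb) := by
  refine le_antisymm (image_le ?_) ?_
  · rintro _ g ⟨u, hu, rfl⟩ hg
    rw [LinearMap.mulLeft_apply] at hg
    refine ⟨yb⁻¹ * g, mem_image_of_res hu ?_, by
      rw [LinearMap.mulLeft_apply, ← mul_assoc, mul_inv_cancel₀ hyb, one_mul]⟩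
    have := (h.inv hyb).mul hg
    rwa [← mul_assoc, inv_mul_cancel₀ (h.ne_zero hyb), one_mul] at this
  · rintro _ ⟨g, hg, rfl⟩
    obtain ⟨u, hu, hug⟩ := (mem_image hπ).1 hg
    exact mem_image_of_res (Submodule.mem_map_of_mem hu) (h.mul hug)

end Reduction

namespace Model

variable [IsAlgClosed L] [IsFunctionField L F] [IsAlgClosed k] [IsFunctionField k Fb]
variable (M : Model π F Fb)

/-- The genus does not drop after reduction. -/
def Smooth : Prop :=
  ∃ m₀ : ℕ, ∀ m : ℕ, m₀ ≤ m →
    ell ((m : ℤ) • poleDiv k M.xb) ≤ ell ((m : ℤ) • poleDiv L M.x)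

/-- The degree of the coordinate. -/
def deg : ℤ := Module.finrank L⟮M.x⟯ F

theorem deg_pos : 0 < M.deg := by
  haveI := finiteDimensional_adjoin (K := L) M.transcendental_x
  exact Int.natCast_pos.2 Module.finrank_pos

theorem degree_poles (m : ℤ) : Divisor.degree (m • poleDiv L M.x) = m * M.deg := by
  rw [map_zsmul, degree_poleDiv M.transcendental_x, smul_eq_mul, deg]

theorem degree_poles_red (m : ℤ) : Divisor.degree (m • poleDiv k M.xb) = m * M.deg := by
  rw [map_zsmul, degree_poleDiv M.transcendental, smul_eq_mul, deg, M.finrank_eq]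

theorem exists_le_mul (c : ℤ) : ∃ m₀ : ℕ, ∀ m : ℕ, m₀ ≤ m → c ≤ (m : ℤ) * M.deg := by
  refine ⟨c.toNat, fun m hm => ?_⟩
  have h1 : c ≤ (m : ℤ) := (Int.self_le_toNat c).trans (by exact_mod_cast hm)
  nlinarith [M.deg_pos]

theorem image_poles_le (m : ℕ) : M.image (riemannRochSpace ((m : ℤ) • poleDiv L M.x)) ≤
    riemannRochSpace ((m : ℤ) • poleDiv k M.xb) :=
  Reduction.image_le fun _ _ hf h => M.res_mem_rrSpace_poles hf h

theorem ell_image (G : Divisor L F) :
    (Module.finrank k (M.image (riemannRochSpace G)) : ℤ) = ell G := by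
  rw [M.finrank_image]; rfl

instance instFiniteImage (G : Divisor L F) :
    FiniteDimensional k (M.image (riemannRochSpace G)) :=
  M.hasOrth.finiteDimensional_image M.surj _

variable {M}

theorem Smooth.rGenus_eq (hM : M.Smooth) : rGenus k Fb = rGenus L F := by
  obtain ⟨m₀, hm₀⟩ := hM
  obtain ⟨m₁, hm₁⟩ := M.exists_le_mul (max (rBound L F) (rBound k Fb))
  set m := max m₀ m₁
  have h1 := hm₀ m (le_max_left _ _)
  have h2 := hm₁ m (le_max_right _ _)
  have h3 : ell ((m : ℤ) • poleDiv L M.x) ≤ ell ((m : ℤ) • poleDiv k M.xb) := by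
    rw [← M.ell_image]
    exact Nat.cast_le.2 (Submodule.finrank_mono (M.image_poles_le m))
  have hL : ell ((m : ℤ) • poleDiv L M.x) = (m : ℤ) * M.deg + 1 - rGenus L F := by
    rw [ell_eq (by rw [M.degree_poles]; omega), M.degree_poles]
  have hk : ell ((m : ℤ) • poleDiv k M.xb) = (m : ℤ) * M.deg + 1 - rGenus k Fb := by
    rw [ell_eq (by rw [M.degree_poles_red]; omega), M.degree_poles_red]
  omega

theorem Smooth.image_poles (hM : M.Smooth) : ∃ m₀ : ℕ, ∀ m : ℕ, m₀ ≤ m →
    M.image (riemannRochSpace ((m : ℤ) • poleDiv L M.x)) =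
      riemannRochSpace ((m : ℤ) • poleDiv k M.xb) := by
  obtain ⟨m₀, hm₀⟩ := hM
  refine ⟨m₀, fun m hm => Submodule.eq_of_le_of_finrank_le (M.image_poles_le m) ?_⟩
  have h1 := hm₀ m hm
  rw [← M.ell_image] at h1
  exact Nat.cast_le.1 h1

variable (M) in
/-- `Eb` is the specialisation of `E`, seen on the spaces of sections. -/
def IsBase (E : Divisor L F) (Eb : Divisor k Fb) : Prop :=
  ∃ m₀ : ℕ, ∀ m : ℕ, m₀ ≤ m →
    M.image (riemannRochSpace ((m : ℤ) • poleDiv L M.x - E)) =
      riemannRochSpace ((m : ℤ) • poleDiv k M.xb - Eb)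

theorem IsBase.unique {E : Divisor L F} {B B' : Divisor k Fb} (h : M.IsBase E B)
    (h' : M.IsBase E B') : B = B' := by
  obtain ⟨m₀, hm⟩ := h
  obtain ⟨m₁, hm'⟩ := h'
  obtain ⟨m₂, hm₂⟩ :=
    M.exists_le_mul (rBound k Fb + 1 + max (Divisor.degree B) (Divisor.degree B'))
  set m := max m₀ (max m₁ m₂)
  have h1 := hm₂ m (by omega)
  have h2 := eq_of_rrSpace_eq ((hm m (le_max_left _ _)).symm.trans (hm' m (by omega)))
    (by rw [map_sub, M.degree_poles_red]; omega) (by rw [map_sub, M.degree_poles_red]; omega)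
  exact sub_right_injective h2

theorem exists_isBase (hM : M.Smooth) {E : Divisor L F} (hE : 0 ≤ E) :
    ∃ B : Divisor k Fb, 0 ≤ B ∧ Divisor.degree B = Divisor.degree E ∧ M.IsBase E B := by
  classical
  have hg := hM.rGenus_eq
  have hrL := rBound_nonneg (K := L) (F := F)
  have hrk := rBound_nonneg (K := k) (F := Fb)
  obtain ⟨m₀, hm₀⟩ := hM.image_poles
  set e := Divisor.degree E with he
  have he0 : 0 ≤ e := degree_nonneg hE
  obtain ⟨m₁, hm₁⟩ :=
    M.exists_le_mul (max (rBound L F) (rBound k Fb) + e + 2 + max (rGenus L F) 0)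
  obtain ⟨m, hmm₀, hmm₁⟩ : ∃ m : ℕ, m₀ ≤ m ∧ m₁ ≤ m :=
    ⟨max m₀ m₁, le_max_left _ _, le_max_right _ _⟩
  have hbig := hm₁ m hmm₁
  set D := (m : ℤ) • poleDiv L M.x
  set Db := (m : ℤ) • poleDiv k M.xb
  have hD : Divisor.degree D = (m : ℤ) * M.deg := M.degree_poles m
  have hDb : Divisor.degree Db = (m : ℤ) * M.deg := M.degree_poles_red m
  set W := M.image (riemannRochSpace (D - E))
  have hWle : W ≤ riemannRochSpace Db :=
    hm₀ m hmm₀ ▸ Reduction.image_mono (rrSpace_le (sub_le_self _ hE))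
  have hWdim : (Module.finrank k W : ℤ) = (m : ℤ) * M.deg - e + 1 - rGenus L F := by
    rw [M.ell_image, ell_eq (by rw [map_sub, hD]; omega), map_sub, hD]
  -- degrees of base divisors are bounded
  have hbd : ∀ z : ℤ, (∃ B : Divisor k Fb, 0 ≤ B ∧ W ≤ riemannRochSpace (Db - B) ∧
      Divisor.degree B = z) → z ≤ e := by
    rintro z ⟨B, hB, hW, rfl⟩
    by_contra! hlt
    obtain ⟨B', hB', hB'le, hdeg⟩ := exists_sub_of_degree hB (show 0 ≤ e + 1 by omega) hlt
    have h1 : W ≤ riemannRochSpace (Db - B') :=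
      hW.trans (rrSpace_le (sub_le_sub_left hB'le _))
    have h2 : (Module.finrank k W : ℤ) ≤ ell (Db - B') :=
      Nat.cast_le.2 (Submodule.finrank_mono h1)
    rw [ell_eq (by rw [map_sub, hDb, hdeg]; omega), map_sub, hDb, hdeg, hWdim, hg] at h2
    omega
  obtain ⟨e', ⟨B, hB, hWB, hdeg⟩, hmax⟩ := Int.exists_greatest_of_bdd ⟨e, hbd⟩
    ⟨0, 0, le_rfl, by rwa [sub_zero], map_zero _⟩
  set G := Db - B with hG
  have he' : e' ≤ e := hbd e' ⟨B, hB, hWB, hdeg⟩
  have he'0 : 0 ≤ e' := hdeg ▸ degree_nonneg hB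
  have hexact : ∀ Q, ∃ f ∈ W, Exact G Q f := by
    intro Q
    by_contra! hn
    have h1 : W ≤ riemannRochSpace (Db - (B + Finsupp.single Q 1)) := fun f hf =>
      mem_rrSpace.2 fun v => by
        rw [← sub_sub, ← hG, Finsupp.sub_apply, Finsupp.single_apply]
        split_ifs with hv
        · subst hv
          exact (not_not.1 (hn f hf)).mono (by omega)
        · simpa using mem_rrSpace.1 (hWB hf) v
    have h2 := hmax (e' + 1) ⟨B + Finsupp.single Q 1,
      add_nonneg hB (Finsupp.single_nonneg.2 zero_le_one), h1,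
      by rw [map_add, hdeg, degree_single']⟩
    omega
  obtain ⟨f₁, hf₁, hf₁0⟩ : ∃ f ∈ W, f ≠ 0 := (Submodule.ne_bot_iff W).1 fun h => by
    rw [h, finrank_bot] at hWdim; omega
  obtain ⟨f₂, hf₂, hf₂0, hs⟩ := exists_exact_finset (G := G) ⟨f₁, hf₁, hf₁0⟩
    (s := (divOf k f₁ + G).support) fun Q _ => hexact Q
  have hex : ∀ Q, Exact G Q f₁ ∨ Exact G Q f₂ := by
    intro Q
    by_cases hQ : Q ∈ (divOf k f₁ + G).support
    · exact Or.inr (hs Q hQ)
    · left
      rw [exact_iff (hWB hf₁)]
      rw [Finsupp.notMem_support_iff, Finsupp.add_apply, divOf_apply] at hQ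
      exact ⟨hf₁0, by omega⟩
  have hGdeg : Divisor.degree G = (m : ℤ) * M.deg - e' := by rw [hG, map_sub, hDb, hdeg]
  obtain ⟨j₀, hj₀⟩ := M.exists_le_mul (max (rBound L F) (rBound k Fb) + e + (m : ℤ) * M.deg)
  -- the pencil spans every large section space
  have key : ∀ j : ℕ, max m₀ j₀ ≤ j → e = e' ∧
      M.image (riemannRochSpace (((m + j : ℕ) : ℤ) • poleDiv L M.x - E)) =
        riemannRochSpace (((m + j : ℕ) : ℤ) • poleDiv k M.xb - B) := by
    intro j hj
    have hjb := hj₀ j ((le_max_right _ _).trans hj)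
    set H := (j : ℤ) • poleDiv k M.xb
    have hsum : ((m + j : ℕ) : ℤ) • poleDiv k M.xb - B = G + H := by
      rw [Nat.cast_add, add_smul, hG]; abel
    have hsum' : ((m + j : ℕ) : ℤ) • poleDiv L M.x - E = (D - E) + (j : ℤ) • poleDiv L M.x := by
      rw [Nat.cast_add, add_smul]; abel
    set V := (riemannRochSpace H).map (LinearMap.mulLeft k f₁) ⊔
      (riemannRochSpace H).map (LinearMap.mulLeft k f₂)
    set W' := M.image (riemannRochSpace (((m + j : ℕ) : ℤ) • poleDiv L M.x - E))
    have hVW : V ≤ W' := by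
      refine sup_le ?_ ?_ <;> rintro _ ⟨a, ha, rfl⟩ <;> rw [LinearMap.mulLeft_apply]
      · obtain ⟨F₁, hF₁, hr₁⟩ := (Reduction.mem_image M.surj).1 hf₁
        obtain ⟨a', ha', hra⟩ := (Reduction.mem_image M.surj).1
          (hm₀ j ((le_max_left _ _).trans hj) ▸ ha)
        exact Reduction.mem_image_of_res (hsum' ▸ mem_rrSpace_mul hF₁ ha') (hr₁.mul hra)
      · obtain ⟨F₂, hF₂, hr₂⟩ := (Reduction.mem_image M.surj).1 hf₂
        obtain ⟨a', ha', hra⟩ := (Reduction.mem_image M.surj).1
          (hm₀ j ((le_max_left _ _).trans hj) ▸ ha)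
        exact Reduction.mem_image_of_res (hsum' ▸ mem_rrSpace_mul hF₂ ha') (hr₂.mul hra)
    have hVG : V ≤ riemannRochSpace (G + H) := by
      refine sup_le ?_ ?_ <;> rintro _ ⟨a, ha, rfl⟩
      · exact mem_rrSpace_mul (hWB hf₁) ha
      · exact mem_rrSpace_mul (hWB hf₂) ha
    haveI : FiniteDimensional k V := Submodule.finiteDimensional_of_le hVG
    have hp : 2 * ell H ≤ Module.finrank k V + ell (H - G) :=
      pencil (H := H) hf₁0 hf₂0 hex (hWB hf₁) (hWB hf₂)
    have hH : Divisor.degree H = (j : ℤ) * M.deg := M.degree_poles_red j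
    rw [ell_eq (by omega), ell_eq (by rw [map_sub, hH, hGdeg]; omega), map_sub, hH, hGdeg] at hp
    have h3 : (Module.finrank k V : ℤ) ≤ ell (G + H) := Nat.cast_le.2 (Submodule.finrank_mono hVG)
    rw [ell_eq (by rw [map_add, hH, hGdeg]; omega), map_add, hH, hGdeg] at h3
    have h4 : (Module.finrank k W' : ℤ) = ((m : ℤ) + j) * M.deg - e + 1 - rGenus L F := by
      rw [M.ell_image, ell_eq (by rw [map_sub, M.degree_poles]; push_cast; rw [add_mul]; omega),
        map_sub, M.degree_poles]
      push_cast; rfl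
    rw [add_mul] at h4
    have h5 : Module.finrank k V ≤ Module.finrank k W' := Submodule.finrank_mono hVW
    refine ⟨by omega, ?_⟩
    rw [hsum, ← Submodule.eq_of_le_of_finrank_le hVW (by omega)]
    refine Submodule.eq_of_le_of_finrank_le hVG ?_
    have h6 : (Module.finrank k (riemannRochSpace (G + H)) : ℤ) ≤ Module.finrank k V := by
      show ell (G + H) ≤ _
      rw [ell_eq (by rw [map_add, hH, hGdeg]; omega), map_add, hH, hGdeg]
      omega
    exact_mod_cast h6
  refine ⟨B, hB, hdeg.trans (key _ le_rfl).1.symm, m + max m₀ j₀, fun n hn => ?_⟩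
  obtain ⟨j, rfl⟩ := Nat.exists_eq_add_of_le (show m ≤ n by omega)
  exact (key j (by omega)).2

theorem isBase_add (hM : M.Smooth) {E E' : Divisor L F} (hE : 0 ≤ E) (hE' : 0 ≤ E')
    {B B' : Divisor k Fb} (h : M.IsBase E B) (h' : M.IsBase E' B')
    (hd : Divisor.degree B = Divisor.degree E) (hd' : Divisor.degree B' = Divisor.degree E') :
    M.IsBase (E + E') (B + B') := by
  obtain ⟨C, -, hC, hbase⟩ := exists_isBase hM (add_nonneg hE hE')
  suffices hle : C ≤ B + B' by
    have : C = B + B' := eq_of_le_of_degree_le hle (by rw [map_add, hC, map_add, hd, hd'])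
    exact this ▸ hbase
  intro Q
  obtain ⟨m₀, hm⟩ := h
  obtain ⟨m₁, hm'⟩ := h'
  obtain ⟨m₂, hm''⟩ := hbase
  obtain ⟨m₃, hm₃⟩ :=
    M.exists_le_mul (rBound k Fb + 1 + max (Divisor.degree B) (Divisor.degree B'))
  set m := max (max m₀ m₁) (max m₂ m₃)
  have hb := hm₃ m (by omega)
  obtain ⟨f, hf, hfQ⟩ := exists_exact (G := (m : ℤ) • poleDiv k M.xb - B)
    (by rw [map_sub, M.degree_poles_red]; omega) Q
  obtain ⟨g, hg, hgQ⟩ := exists_exact (G := (m : ℤ) • poleDiv k M.xb - B')
    (by rw [map_sub, M.degree_poles_red]; omega) Q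
  obtain ⟨fl, hfl, hfr⟩ := (Reduction.mem_image M.surj).1 (hm m (by omega) ▸ hf)
  obtain ⟨gl, hgl, hgr⟩ := (Reduction.mem_image M.surj).1 (hm' m (by omega) ▸ hg)
  have hmem : f * g ∈ riemannRochSpace (((m + m : ℕ) : ℤ) • poleDiv k M.xb - C) := by
    rw [← hm'' (m + m) (by omega)]
    refine Reduction.mem_image_of_res ?_ (hfr.mul hgr)
    have := mem_rrSpace_mul hfl hgl
    convert this using 2
    rw [Nat.cast_add, add_smul]; abel
  have h1 := (mem_rrSpace.1 hmem Q).le_ord (mul_ne_zero hfQ.ne_zero hgQ.ne_zero)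
  have h2 := ((exact_iff hf).1 hfQ).2
  have h3 := ((exact_iff hg).1 hgQ).2
  rw [Q.ord_mul hfQ.ne_zero hgQ.ne_zero, h2, h3] at h1
  simp only [Finsupp.sub_apply, Finsupp.smul_apply, Finsupp.add_apply, smul_eq_mul,
    Nat.cast_add] at h1 ⊢
  rw [add_mul] at h1
  omega

theorem exists_place (hM : M.Smooth) (P : Place L F) :
    ∃ Q : Place k Fb, M.IsBase (Finsupp.single P 1) (Finsupp.single Q 1) := by
  obtain ⟨B, hB, hd, hbase⟩ := exists_isBase hM
    (E := Finsupp.single P 1) (Finsupp.single_nonneg.2 zero_le_one)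
  rw [degree_single'] at hd
  obtain ⟨Q, rfl⟩ := eq_single_of_degree_one hB hd
  exact ⟨Q, hbase⟩

/-- The specialisation of a place. -/
def place (hM : M.Smooth) (P : Place L F) : Place k Fb := (exists_place hM P).choose

/-- The specialisation of divisors. -/
def divMap (hM : M.Smooth) : Divisor L F →+ Divisor k Fb :=
  Finsupp.mapDomain.addMonoidHom (place hM)

theorem divMap_apply (hM : M.Smooth) (D : Divisor L F) :
    divMap hM D = Finsupp.mapDomain (place hM) D := rfl

theorem divMap_single (hM : M.Smooth) (P : Place L F) (n : ℤ) :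
    divMap hM (Finsupp.single P n) = Finsupp.single (place hM P) n :=
  Finsupp.mapDomain_single

theorem degree_divMap (hM : M.Smooth) (D : Divisor L F) :
    Divisor.degree (divMap hM D) = Divisor.degree D := by
  induction D using Finsupp.induction with
  | zero => simp
  | single_add P n D _ _ ih =>
      rw [map_add, map_add, map_add, ih, divMap_single, degree_single', degree_single']

theorem divMap_nonneg (hM : M.Smooth) {D : Divisor L F} (h : 0 ≤ D) : 0 ≤ divMap hM D := by
  rw [divMap_apply, Finsupp.mapDomain, Finsupp.sum]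
  exact Finset.sum_nonneg fun P _ => Finsupp.single_nonneg.2 (h P)

theorem divMap_mono (hM : M.Smooth) {D E : Divisor L F} (h : D ≤ E) :
    divMap hM D ≤ divMap hM E := by
  have := divMap_nonneg hM (sub_nonneg.2 h)
  rwa [map_sub, sub_nonneg] at this

theorem isBase_divMap (hM : M.Smooth) {E : Divisor L F} (hE : 0 ≤ E) :
    M.IsBase E (divMap hM E) := by
  classical
  obtain ⟨n, hn⟩ : ∃ n : ℕ, Divisor.degree E = n :=
    ⟨(Divisor.degree E).toNat, (Int.toNat_of_nonneg (degree_nonneg hE)).symm⟩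
  induction n generalizing E with
  | zero =>
      have hE0 : E = 0 := (eq_of_le_of_degree_le hE (by rw [hn, map_zero]; rfl)).symm
      obtain ⟨m₀, hm₀⟩ := hM.image_poles
      exact hE0 ▸ ⟨m₀, fun m hm => by rw [map_zero, sub_zero, sub_zero]; exact hm₀ m hm⟩
  | succ n ih =>
      obtain ⟨v, hv⟩ := exists_pos_of_degree_pos (D := E) (by omega)
      have h' : (0 : Divisor L F) ≤ E - Finsupp.single v 1 := fun w => by
        simp only [Finsupp.sub_apply, Finsupp.single_apply, Finsupp.coe_zero, Pi.zero_apply]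
        have : 0 ≤ E w := hE w
        split_ifs with hw
        · subst hw; omega
        · omega
      have hd : Divisor.degree (E - Finsupp.single v 1) = n := by
        rw [map_sub, degree_single', hn]; push_cast; ring
      have hP : M.IsBase (Finsupp.single v 1) (divMap hM (Finsupp.single v 1)) := by
        rw [divMap_single]; exact (exists_place hM v).choose_spec
      have := isBase_add hM h' (Finsupp.single_nonneg.2 zero_le_one) (ih h' hd) hP
        (degree_divMap hM _) (degree_divMap hM _)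
      rwa [← map_add, sub_add_cancel] at this

/-- Specialisation takes the divisor of a function to the divisor of its reduction. -/
theorem divMap_divOf (hM : M.Smooth) {y : F} {yb : Fb} (h : M.Res y yb) (hyb : yb ≠ 0) :
    divMap hM (divOf L y) = divOf k yb := by
  have hy : y ≠ 0 := h.ne_zero hyb
  set Z := poleDiv L y⁻¹
  set P := poleDiv L y
  obtain ⟨m₀, hm⟩ := isBase_divMap hM (E := Z) (poleDiv_nonneg _)
  obtain ⟨m₁, hm'⟩ := isBase_divMap hM (E := P) (poleDiv_nonneg _)
  obtain ⟨m₂, hm₂⟩ := M.exists_le_mul (rBound k Fb + 1 +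
    max (Divisor.degree (divMap hM Z)) (Divisor.degree (divMap hM P + divOf k yb)))
  set m := max m₀ (max m₁ m₂)
  have hb := hm₂ m (by omega)
  have h1 : riemannRochSpace ((m : ℤ) • poleDiv L M.x - Z) =
      (riemannRochSpace ((m : ℤ) • poleDiv L M.x - P)).map (LinearMap.mulLeft L y) := by
    rw [rrSpace_map_mul _ hy, divOf_eq_sub]
    congr 1
    abel
  have h2 := hm m (le_max_left _ _)
  rw [h1, Reduction.image_map_mulLeft M.surj h hyb, hm' m (by omega), rrSpace_map_mul _ hyb] at h2
  have h3 := eq_of_rrSpace_eq h2 (by rw [sub_sub, map_sub, M.degree_poles_red]; omega)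
    (by rw [map_sub, M.degree_poles_red]; omega)
  rw [divOf_eq_sub y, map_sub]
  rw [sub_sub, sub_right_inj] at h3
  rw [← h3]; abel

theorem res_mem_rrSpace (hM : M.Smooth) {G : Divisor L F} {f : F} {g : Fb}
    (hf : f ∈ riemannRochSpace G) (h : M.Res f g) : g ∈ riemannRochSpace (divMap hM G) := by
  rcases eq_or_ne g 0 with rfl | hg
  · exact Submodule.zero_mem _
  rw [mem_rrSpace_iff_divOf hg, ← divMap_divOf hM h hg, ← map_add]
  exact divMap_nonneg hM ((mem_rrSpace_iff_divOf (h.ne_zero hg)).1 hf)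

/-- A degree beyond which both Riemann inequalities are equalities, with room to spare. -/
def bound (_M : Model π F Fb) : ℤ := max (rBound L F) (rBound k Fb) + 1

theorem image_rrSpace (hM : M.Smooth) {G : Divisor L F} (hG : M.bound ≤ Divisor.degree G) :
    M.image (riemannRochSpace G) = riemannRochSpace (divMap hM G) := by
  refine Submodule.eq_of_le_of_finrank_le
    (Reduction.image_le fun _ _ hf h => res_mem_rrSpace hM hf h) ?_
  have h1 : ell (divMap hM G) = ell G := by
    rw [bound] at hG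
    rw [ell_eq (by rw [degree_divMap]; omega), ell_eq (by omega), degree_divMap, hM.rGenus_eq]
  have h2 := M.ell_image G
  rw [← h1] at h2
  exact Nat.cast_le.1 h2.ge

end Model

end FLTAgent.Specialization
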