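import Fermat.Agent.Specialization.Torsion
import Fermat.Agent.Specialization.Cover

/-!
# Descent of specialisation along a finite extension
-/

set_option autoImplicit false
set_option linter.style.haveILetI false
set_option linter.unusedSectionVars false

noncomputable section

namespace FLTAgent.Specialization

open AlgebraicCurve FLTAgent.Curves Polynomial IntermediateField

variable {L k : Type*} [Field L] [Field k] {A : ValuationSubring L} {π : A →+* k}
  [IsAlgClosed L] [IsAlgClosed k]
variable {F Fb F' Fb' : Type*} [Field F] [Field Fb] [Field F'] [Field Fb']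
  [Algebra L F] [Algebra k Fb] [Algebra L F'] [Algebra k Fb']
  [Algebra F F'] [Algebra Fb Fb'] [IsScalarTower L F F'] [IsScalarTower k Fb Fb']
  [FiniteDimensional F F'] [FiniteDimensional Fb Fb']
  [IsFunctionField L F] [IsFunctionField L F'] [IsFunctionField k Fb] [IsFunctionField k Fb']

/-- Two models related by finite extensions of the same degree. -/
structure Tower (M : Model π F Fb) (M' : Model π F' Fb') : Prop where
  res : M.toReduction.Compat M'.toReduction
  x_eq : M'.x = algebraMap F F' M.x
  finrank_eq : Module.finrank F F' = Module.finrank Fb Fb'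

namespace Tower

variable {M : Model π F Fb} {M' : Model π F' Fb'}

theorem xb_eq (hT : Tower M M') : M'.xb = algebraMap Fb Fb' M.xb :=
  (hT.x_eq ▸ M'.x_res : M'.Res (algebraMap F F' M.x) M'.xb).unique (hT.res _ _ M.x_res)

theorem exists_lift (hT : Tower M M') :
    ∃ (u : Module.Basis (Fin (Module.finrank Fb Fb')) F F'),
      ∀ i, M'.Res (u i) (Module.finBasis Fb Fb' i) := by
  choose u hu using fun i => M'.surjective (Module.finBasis Fb Fb' i)
  have hli : LinearIndependent F u :=
    Reduction.linearIndependent_of_res hT.res hu M.total (Module.finBasis Fb Fb').linearIndependent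
  haveI : Nonempty (Fin (Module.finrank Fb Fb')) := ⟨⟨0, Module.finrank_pos⟩⟩
  refine ⟨basisOfLinearIndependentOfCardEqFinrank hli
    (by rw [Fintype.card_fin, hT.finrank_eq]), fun i => ?_⟩
  rw [coe_basisOfLinearIndependentOfCardEqFinrank]
  exact hu i

theorem exists_matrix (hT : Tower M M') {g : F'} {gb : Fb'} (h : M'.Res g gb) :
    ∃ (u : Module.Basis (Fin (Module.finrank Fb Fb')) F F')
      (Q : Matrix (Fin (Module.finrank Fb Fb')) (Fin (Module.finrank Fb Fb')) M.O),
      Algebra.leftMulMatrix u g = Q.map M.O.subtype ∧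
      Algebra.leftMulMatrix (Module.finBasis Fb Fb') gb = Q.map M.red := by
  obtain ⟨u, hu⟩ := hT.exists_lift
  set w := Module.finBasis Fb Fb' with hw
  have key : ∀ j, ∃ b : Fin (Module.finrank Fb Fb') → Fb,
      (∀ i, M.Res (u.repr (g * u j) i) (b i)) ∧ gb * w j = ∑ i, b i • w i := fun j => by
    refine Reduction.coord_res hT.res hu M.total w.linearIndependent ?_
    rw [u.sum_repr]
    exact h.mul (hu j)
  choose b hb hbw using key
  refine ⟨u, Matrix.of fun i j => ⟨u.repr (g * u j) i, (hb j i).mem⟩, ?_, ?_⟩
  · ext i j; rw [Algebra.leftMulMatrix_eq_repr_mul]; rfl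
  · ext i j
    rw [Algebra.leftMulMatrix_eq_repr_mul, hbw, Module.Basis.repr_sum_self]
    exact (hb j i).2.symm

theorem res_norm (hT : Tower M M') {g : F'} {gb : Fb'} (h : M'.Res g gb) :
    M.Res (Algebra.norm F g) (Algebra.norm Fb gb) := by
  obtain ⟨u, Q, h1, h2⟩ := hT.exists_matrix h
  rw [Algebra.norm_eq_matrix_det u, Algebra.norm_eq_matrix_det (Module.finBasis Fb Fb'), h1, h2]
  rw [← RingHom.mapMatrix_apply, ← RingHom.mapMatrix_apply, ← RingHom.map_det, ← RingHom.map_det]
  exact ⟨Q.det.2, rfl⟩

theorem res_trace (hT : Tower M M') {g : F'} {gb : Fb'} (h : M'.Res g gb) :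
    M.Res (Algebra.trace F F' g) (Algebra.trace Fb Fb' gb) := by
  obtain ⟨u, Q, h1, h2⟩ := hT.exists_matrix h
  rw [Algebra.trace_eq_matrix_trace u, Algebra.trace_eq_matrix_trace (Module.finBasis Fb Fb'), h1,
    h2, show (Q.map M.O.subtype).trace = M.O.subtype Q.trace by simp [Matrix.trace],
    show (Q.map M.red).trace = M.red Q.trace by simp [Matrix.trace]]
  exact ⟨Q.trace.2, rfl⟩

theorem divMap_pullback_divOf (hT : Tower M M') (hM' : M'.Smooth) {y : F} {yb : Fb}
    (h : M.Res y yb) (hyb : yb ≠ 0) :
    Model.divMap hM' (Divisor.pullback F' (divOf L y)) = Divisor.pullback Fb' (divOf k yb) := by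
  rw [show Divisor.pullback F' (divOf L y) = divOf L (algebraMap F F' y) from
    Finsupp.ext fun w => Divisor.pullback_apply_eq_ord (fun _ => rfl) w,
    show Divisor.pullback Fb' (divOf k yb) = divOf k (algebraMap Fb Fb' yb) from
    Finsupp.ext fun w => Divisor.pullback_apply_eq_ord (fun _ => rfl) w]
  exact Model.divMap_divOf hM' (hT.res _ _ h) ((_root_.map_ne_zero _).2 hyb)

/-- The poles of the coordinate specialise to the poles of its reduction. -/
theorem _root_.FLTAgent.Specialization.Model.divMap_poleDiv {F Fb : Type*} [Field F] [Field Fb]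
    [Algebra L F] [Algebra k Fb] [IsFunctionField L F] [IsFunctionField k Fb] {M : Model π F Fb}
    (hM : M.Smooth) : Model.divMap hM (poleDiv L M.x) = poleDiv k M.xb := by
  have h0 := Model.divMap_divOf hM M.x_res M.xb_ne_zero
  rw [divOf_eq_sub, divOf_eq_sub, map_sub] at h0
  refine (eq_of_le_of_degree_le (fun Q => ?_) ?_).symm
  · have h1 := congrArg (fun D : Divisor k Fb => D Q) h0
    have h2 : 0 ≤ Model.divMap hM (poleDiv L M.x⁻¹) Q :=
      Model.divMap_nonneg hM (poleDiv_nonneg _) Q
    have h3 : 0 ≤ Model.divMap hM (poleDiv L M.x) Q :=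
      Model.divMap_nonneg hM (poleDiv_nonneg _) Q
    simp only [Finsupp.sub_apply, poleDiv_apply, Q.ord_inv] at h1 ⊢
    omega
  · rw [Model.degree_divMap, degree_poleDiv M.transcendental_x, degree_poleDiv M.transcendental,
      M.finrank_eq]

theorem divMap_pullback_poles (hT : Tower M M') (hM' : M'.Smooth) (n : ℤ) :
    Model.divMap hM' (Divisor.pullback F' (n • poleDiv L M.x)) =
      Divisor.pullback Fb' (n • poleDiv k M.xb) := by
  rw [map_zsmul, map_zsmul, map_zsmul, pullback_poleDiv, pullback_poleDiv, ← hT.x_eq, ← hT.xb_eq,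
    Model.divMap_poleDiv hM']

/-- Places over the same place specialise over the same place. -/
theorem restrict_place_eq (hT : Tower M M') (hM' : M'.Smooth) {P₁ P₂ : Place L F'}
    (h : P₁.restrict F = P₂.restrict F) :
    (Model.place hM' P₁).restrict Fb = (Model.place hM' P₂).restrict Fb := by
  classical
  by_contra hne
  set Q₁' := Model.place hM' P₁ with hQ₁
  set Q₂' := Model.place hM' P₂ with hQ₂
  set P := P₁.restrict F with hP
  set Q₂ := Q₂'.restrict Fb with hQ₂'
  set d := Module.finrank F F' with hd
  obtain ⟨n, hn⟩ := M'.exists_le_mul (M'.bound + 2)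
  set G := (n : ℤ) • poleDiv L M.x with hG
  set Gb := (n : ℤ) • poleDiv k M.xb with hGb
  set G' := Divisor.pullback F' G with hG'
  set Gb' := Divisor.pullback Fb' Gb with hGb'
  have hGG : Model.divMap hM' G' = Gb' := hT.divMap_pullback_poles hM' n
  have hG'deg : Divisor.degree G' = (n : ℤ) * M'.deg := by
    rw [hG', hG, map_zsmul, pullback_poleDiv, ← hT.x_eq, M'.degree_poles]
  have hb := hn n le_rfl
  have hbd : rBound k Fb' + 1 ≤ M'.bound := by rw [Model.bound]; omega
  have hmap : Model.divMap hM' (G' - Finsupp.single P₁ 1) = Gb' - Finsupp.single Q₁' 1 := by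
    rw [map_sub, hGG, Model.divMap_single]
  have hdeg : M'.bound ≤ Divisor.degree (G' - Finsupp.single P₁ 1) := by
    rw [map_sub, degree_single', hG'deg]; omega
  obtain ⟨gb, hgb, hgb0, hex⟩ := exists_exact_many (G := Gb' - Finsupp.single Q₁' 1)
    (by rw [← hmap, Model.degree_divMap]; omega) (Q₂.fiber Fb')
  obtain ⟨g, hg, hgr⟩ := (Reduction.mem_image M'.surj).1
    (Model.image_rrSpace hM' hdeg ▸ hmap.symm ▸ hgb)
  -- bounds for the norm
  have hw : ∀ w : Place L F', OrdGE w (w.ramificationIndex F * -G (w.restrict F)) g := fun w => by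
    refine (mem_rrSpace.1 hg w).mono ?_
    rw [Finsupp.sub_apply, hG', Divisor.pullback_apply, Finsupp.single_apply]
    split_ifs <;> simp only [mul_neg] <;> omega
  have hy : Algebra.norm F g ∈ riemannRochSpace ((d : ℤ) • G - Finsupp.single P 1) :=
    mem_rrSpace.2 fun v => by
      rw [Finsupp.sub_apply, Finsupp.smul_apply, Finsupp.single_apply, smul_eq_mul]
      split_ifs with hv
      · subst hv
        obtain ⟨t, ht0, htc⟩ := exists_ord_eq_int P (-G P)
        have h1 := ordGE_norm_one (v := P) (g := g / algebraMap F F' t)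
          (fun w hw' => (ordGE_div_algebraMap ht0 (hw w)).mono (by rw [hw', htc]; simp))
          (w₀ := P₁) rfl (by
            refine (ordGE_div_algebraMap ht0 (mem_rrSpace.1 hg P₁)).mono ?_
            rw [Finsupp.sub_apply, hG', Divisor.pullback_apply, ← hP, Finsupp.single_eq_same, htc,
              mul_neg]
            omega)
        have he : Algebra.norm F g = Algebra.norm F (g / algebraMap F F' t) * t ^ d := by
          rw [hd, ← Algebra.norm_algebraMap (S := F') t, ← map_mul,
            div_mul_cancel₀ g ((_root_.map_ne_zero _).2 ht0)]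
        rw [he]
        refine (h1.mul (ordGE_of_le (ord_pow P t d).ge)).mono ?_
        rw [htc, mul_neg]; omega
      · refine (ordGE_norm (v := v) (c := -G v) fun w hw' => hw' ▸ hw w).mono ?_
        rw [← hd, mul_neg]; omega
  have hy' : algebraMap F F' (Algebra.norm F g) ∈
      riemannRochSpace ((d : ℤ) • G' - Finsupp.single P₂ 1) := by
    refine mem_rrSpace.2 fun w => ?_
    rcases mem_rrSpace.1 hy (w.restrict F) with h0 | h0
    · exact Or.inl (by rw [h0, map_zero])
    refine ordGE_of_le ?_
    rw [w.ord_restrict]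
    have he : (1 : ℤ) ≤ w.ramificationIndex F := by
      exact_mod_cast w.ramificationIndex_pos (F := F)
    rw [Finsupp.sub_apply, Finsupp.smul_apply, Finsupp.single_apply, hG', Divisor.pullback_apply,
      smul_eq_mul]
    rw [Finsupp.sub_apply, Finsupp.smul_apply, Finsupp.single_apply, smul_eq_mul] at h0
    by_cases hw2 : P₂ = w
    · subst hw2
      rw [if_pos h] at h0
      rw [if_pos rfl]
      nlinarith
    · rw [if_neg hw2]
      have hle : -((d : ℤ) * G (w.restrict F)) ≤ (w.restrict F).ord (Algebra.norm F g) := by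
        split_ifs at h0 <;> omega
      nlinarith
  have hmem := Model.res_mem_rrSpace hM' hy' (hT.res _ _ (hT.res_norm hgr))
  rw [map_sub, map_zsmul, hGG, Model.divMap_single, ← hQ₂] at hmem
  have hfib : ∀ w : Place k Fb', w.restrict Fb = Q₂ → w.ord gb = w.ramificationIndex Fb * -Gb Q₂ :=
    fun w hw' => by
      have h1 := ((exact_iff hgb).1 (hex w (Place.mem_fiber.2 hw'))).2
      rw [h1, Finsupp.sub_apply, hGb', Divisor.pullback_apply, hw', Finsupp.single_apply,
        if_neg fun e => hne (by rw [← hw', ← e])]
      ring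
  have hord := ord_norm (v := Q₂) hgb0 hfib
  have hne0 : algebraMap Fb Fb' (Algebra.norm Fb gb) ≠ 0 :=
    (_root_.map_ne_zero _).2 (Algebra.norm_ne_zero_iff.2 hgb0)
  have h1 := (mem_rrSpace.1 hmem Q₂').le_ord hne0
  rw [Q₂'.ord_restrict, ← hQ₂', hord, Finsupp.sub_apply, Finsupp.smul_apply, Finsupp.single_eq_same,
    hGb', Divisor.pullback_apply, ← hQ₂', ← hT.finrank_eq, smul_eq_mul, ← hd] at h1
  nlinarith

variable (hT : Tower M M') (hM' : M'.Smooth)

include hT in
theorem exists_desc (P : Place L F) : ∃ w : Place L F', w.restrict F = P :=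
  exists_restrict_eq P

/-- The specialisation of a place of the smaller field. -/
def descPlace (_hT : Tower M M') (P : Place L F) : Place k Fb :=
  (Model.place hM' (exists_restrict_eq (F' := F') P).choose).restrict Fb

theorem descPlace_restrict (w : Place L F') :
    descPlace hM' hT (w.restrict F) = (Model.place hM' w).restrict Fb :=
  hT.restrict_place_eq hM' (exists_restrict_eq (F' := F') (w.restrict F)).choose_spec

/-- The specialisation of divisors of the smaller field. -/
def descMap : Divisor L F →+ Divisor k Fb :=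
  Finsupp.mapDomain.addMonoidHom (descPlace hM' hT)

theorem descMap_single (P : Place L F) (n : ℤ) :
    descMap hT hM' (Finsupp.single P n) = Finsupp.single (descPlace hM' hT P) n :=
  Finsupp.mapDomain_single

theorem degree_descMap (D : Divisor L F) :
    Divisor.degree (descMap hT hM' D) = Divisor.degree D := by
  induction D using Finsupp.induction with
  | zero => simp
  | single_add P n D _ _ ih =>
      rw [map_add, map_add, map_add, ih, descMap_single, degree_single', degree_single']

theorem mapRestrict_divMap (D : Divisor L F') :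
    Divisor.mapRestrict Fb (Model.divMap hM' D) = descMap hT hM' (Divisor.mapRestrict F D) := by
  induction D using Finsupp.induction with
  | zero => simp
  | single_add w n D _ _ ih =>
      rw [map_add, map_add, map_add, map_add, ih, Model.divMap_single, Divisor.mapRestrict_single,
        Divisor.mapRestrict_single, descMap_single, descPlace_restrict]

theorem descMap_divOf {y : F} {yb : Fb} (h : M.Res y yb) (hyb : yb ≠ 0) :
    descMap hT hM' (divOf L y) = divOf k yb := by
  have h1 := congrArg (Divisor.mapRestrict Fb) (hT.divMap_pullback_divOf hM' h hyb)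
  rw [mapRestrict_divMap hT hM', mapRestrict_pullback, mapRestrict_pullback, map_zsmul,
    ← hT.finrank_eq] at h1
  have hd : (Module.finrank F F' : ℤ) ≠ 0 := Int.natCast_ne_zero.2 Module.finrank_pos.ne'
  ext Q
  have h2 := congrArg (fun D : Divisor k Fb => D Q) h1
  simp only [Finsupp.smul_apply, smul_eq_mul] at h2
  exact mul_left_cancel₀ hd h2

theorem isPrincipal_descMap {E : Divisor L F} (hE : Divisor.IsPrincipal E) :
    Divisor.IsPrincipal (descMap hT hM' E) := by
  obtain ⟨f, hf, rfl⟩ := isPrincipal_iff.1 hE
  obtain ⟨c, g, hg, hcg⟩ := M.scaled f hf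
  refine isPrincipal_iff.2 ⟨g, hg, ?_⟩
  have hc : c ≠ 0 := by rintro rfl; rw [zero_smul] at hcg; exact hg (hcg.unique M.res_zero)
  rw [← descMap_divOf hT hM' hcg hg, Algebra.smul_def,
    divOf_mul ((_root_.map_ne_zero _).2 hc) hf, divOf_algebraMap, zero_add]

/-- On torsion classes specialisation commutes with pullback. -/
theorem divMap_pullback {m : ℕ} (hm : m ≠ 0) {E : Divisor L F}
    (hmE : Divisor.IsPrincipal (m • E)) :
    Model.divMap hM' (Divisor.pullback F' E) = Divisor.pullback Fb' (descMap hT hM' E) := by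
  obtain ⟨f, hf, hfE⟩ := isPrincipal_iff.1 hmE
  obtain ⟨c, g, hg, hcg⟩ := M.scaled f hf
  have hc : c ≠ 0 := by rintro rfl; rw [zero_smul] at hcg; exact hg (hcg.unique M.res_zero)
  have hmE' : m • E = divOf L (c • f) := by
    rw [hfE, Algebra.smul_def, divOf_mul ((_root_.map_ne_zero _).2 hc) hf, divOf_algebraMap,
      zero_add]
  have h : m • Model.divMap hM' (Divisor.pullback F' E) =
      m • Divisor.pullback Fb' (descMap hT hM' E) := by
    rw [← map_nsmul, ← map_nsmul, ← map_nsmul, ← map_nsmul, hmE', hT.divMap_pullback_divOf hM' hcg hg,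
      descMap_divOf hT hM' hcg hg]
  ext Q
  have h2 := congrArg (fun D : Divisor k Fb' => D Q) h
  simp only [Finsupp.smul_apply, nsmul_eq_mul] at h2
  exact mul_left_cancel₀ (Int.natCast_ne_zero.2 hm) h2

include hT hM' in
/-- Injectivity of the descended specialisation on torsion. -/
theorem isPrincipal_of_descMap (hA : RankOne π) {m : ℕ} (hm : (m : k) ≠ 0)
    (hcop : Nat.Coprime (Module.finrank F F') m) {E : Divisor L F} (hE : Divisor.degree E = 0)
    (hmE : Divisor.IsPrincipal (m • E)) (hrE : Divisor.IsPrincipal (descMap hT hM' E)) :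
    Divisor.IsPrincipal E := by
  have hm0 : m ≠ 0 := by rintro rfl; simp at hm
  have h1 : Divisor.IsPrincipal (Divisor.pullback F' E) := by
    refine Model.isPrincipal_of_divMap hM' hA hm
      (by rw [Divisor.degree_pullback, hE, mul_zero]) ?_ ?_
    · rw [← map_nsmul]; exact Divisor.isPrincipal_pullback hmE
    · rw [divMap_pullback hT hM' hm0 hmE]; exact Divisor.isPrincipal_pullback hrE
  have h2 : Module.finrank F F' • E ∈ Divisor.principal (K := L) (F := F) :=
    isPrincipal_nsmul_of_pullback h1
  have h3 : m • E ∈ Divisor.principal (K := L) (F := F) := hmE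
  have hb := Nat.gcd_eq_gcd_ab (Module.finrank F F') m
  rw [Nat.Coprime.gcd_eq_one hcop] at hb
  have h4 := add_mem
    (AddSubgroup.zsmul_mem _ h2 (Nat.gcdA (Module.finrank F F') m))
    (AddSubgroup.zsmul_mem _ h3 (Nat.gcdB (Module.finrank F F') m))
  rw [← natCast_zsmul, ← natCast_zsmul, smul_smul, smul_smul, ← add_smul, mul_comm _ (m : ℤ),
    mul_comm _ ((Module.finrank F F' : ℕ) : ℤ)] at h4
  push_cast at hb
  rwa [← hb, one_smul] at h4

include hT hM' in
/-- If the degree is invertible in the residue field, the smaller model is smooth. -/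
theorem smooth_of_invertible (hd : (Module.finrank F F' : k) ≠ 0) : M.Smooth := by
  obtain ⟨u, hu⟩ := exists_inv_natCast M.surj hd
  obtain ⟨m₀, hm₀⟩ := M'.exists_le_mul M'.bound
  refine ⟨m₀, fun m hm => ?_⟩
  set G := (m : ℤ) • poleDiv L M.x with hG
  set Gb := (m : ℤ) • poleDiv k M.xb with hGb
  have hle : riemannRochSpace Gb ≤ M.image (riemannRochSpace G) := by
    intro fb hfb
    have hf' : algebraMap Fb Fb' fb ∈ riemannRochSpace (Divisor.pullback Fb' Gb) := by
      refine mem_rrSpace.2 fun w => ?_
      rcases mem_rrSpace.1 hfb (w.restrict Fb) with h0 | h0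
      · exact Or.inl (by rw [h0, map_zero])
      · refine ordGE_of_le ?_
        rw [w.ord_restrict, Divisor.pullback_apply, ← mul_neg]
        exact mul_le_mul_of_nonneg_left h0 (Int.natCast_nonneg _)
    have hdeg : M'.bound ≤ Divisor.degree (Divisor.pullback F' G) := by
      rw [hG, map_zsmul, pullback_poleDiv, ← hT.x_eq, M'.degree_poles]; exact hm₀ m hm
    rw [← hT.divMap_pullback_poles hM' m, ← Model.image_rrSpace hM' hdeg] at hf'
    obtain ⟨g, hg, hgr⟩ := (Reduction.mem_image M'.surj).1 hf'
    refine Reduction.mem_image_of_res (f := (u : L) • Algebra.trace F F' g)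
      (Submodule.smul_mem _ _ (mem_rrSpace.2 fun v => ordGE_trace fun w hw => ?_)) ?_
    · have := mem_rrSpace.1 hg w
      rw [Divisor.pullback_apply, hw, ← mul_neg] at this
      exact this
    · have h1 := (hT.res_trace hgr).smul u
      rw [Algebra.trace_algebraMap, ← hT.finrank_eq, ← Nat.cast_smul_eq_nsmul k, smul_smul] at h1
      have h2 : π u * (Module.finrank F F' : k) = 1 := by
        rw [← map_natCast π, ← map_mul, show u * (Module.finrank F F' : A) = 1 from
          Subtype.ext (by push_cast; rw [mul_comm]; exact hu), map_one]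
      rwa [h2, one_smul] at h1
  have h1 := Submodule.finrank_mono hle
  rw [M.finrank_image] at h1
  exact Nat.cast_le.2 h1

end Tower

end FLTAgent.Specialization
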