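import Fermat.Agent.Specialization.ModularField
import Fermat.Agent.Specialization.Laurent
import Fermat.Agent.Specialization.Descent
import Fermat.Prelude.Def_ModularCurve_ReductionModL

/-!
# Models of `X₀(N)` and the specialisation of its places
-/

set_option autoImplicit false
set_option linter.style.haveILetI false
set_option synthInstance.maxHeartbeats 400000
set_option maxHeartbeats 1000000

noncomputable section

namespace FLTAgent.Specialization

open AlgebraicCurve FLTAgent.Curves IntermediateField ModularCurve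

local notation "QA" => AlgebraicClosure ℚ

/-- The function field of `X₀(N)` over `ℚ̄`. -/
abbrev X0Bar (N : ℕ) : IntermediateField QA (LaurentSeries QA) :=
  laurentBaseChange QA (modularFunctionFieldFull N)

instance instIsFunctionFieldX0Bar (N : ℕ) [NeZero N] : IsFunctionField QA (X0Bar N) :=
  isFunctionField_full QA N (laurentBaseChange_full_eq N) (Nat.cast_ne_zero.2 (NeZero.ne N))

variable {A : ValuationSubring QA} {k : Type*} [Field k] [IsAlgClosed k] {π : A →+* k}

theorem coeffMap_gen {R S : Type*} [CommRing R] [CommRing S] (φ : R →+* S) (d : ℕ) [NeZero d] :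
    coeffMap φ (qExpand R d (jqModC R)) = qExpand S d (jqModC S) := by
  rw [coeffMap_qExpand, coeffMap_jqModC]

theorem gen_mem (N : ℕ) [NeZero N] {d : ℕ} [NeZero d] (hd : d ∣ N) :
    coeffMap A.subtype (qExpand A d (jqModC A)) ∈ X0Bar N := by
  rw [coeffMap_gen, X0Bar, laurentBaseChange_full_eq]
  exact jqModCd_mem_full QA N hd

theorem jq_mem_X0Bar (N : ℕ) [NeZero N] : coeffMap A.subtype (jqModC A) ∈ X0Bar N := by
  rw [coeffMap_jqModC, X0Bar, laurentBaseChange_full_eq]
  exact jqModC_mem_full QA N

variable (hπ : Function.Surjective π) (N : ℕ) [NeZero N] (hN : (N : k) ≠ 0)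

theorem exists_res_gen : ∀ s ∈ divisorExpansionsC k N,
    ∃ f, (laurentReduction π (X0Bar N)).Res f s := by
  rintro _ ⟨d, hne, hd, rfl⟩
  haveI := hne
  refine ⟨⟨_, gen_mem (A := A) N hd⟩, ?_⟩
  have h := laurentReduction_res (π := π) (gen_mem (A := A) N hd)
  rwa [coeffMap_gen π] at h

theorem res_jq : (laurentReduction π (X0Bar N)).Res ⟨_, jq_mem_X0Bar (A := A) N⟩ (jqModC k) := by
  have h := laurentReduction_res (π := π) (jq_mem_X0Bar (A := A) N)
  rwa [coeffMap_jqModC π] at h

theorem finrank_jq_X0Bar : Module.finrank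
    QA⟮(⟨_, jq_mem_X0Bar (A := A) N⟩ : X0Bar N)⟯ (X0Bar N) = dedekindPsi N :=
  finrank_jElt QA N (laurentBaseChange_full_eq N) (Nat.cast_ne_zero.2 (NeZero.ne N)) _
    (coeffMap_jqModC _)

include hπ hN in
theorem res_mem_full {f : X0Bar N} {g : LaurentSeries k}
    (h : (laurentReduction π (X0Bar N)).Res f g) : g ∈ modularFunctionFieldFullC k N := by
  haveI : FiniteDimensional k⟮jqModC k⟯
      (IntermediateField.extendScalars (jField_le_full k N rfl)) :=
    Module.finite_of_finrank_pos (by
      rw [finrank_extendScalars_full k N rfl hN]; exact dedekindPsi_pos N)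
  refine mem_of_res_ambient (laurentReduction π (X0Bar N)) hπ ?_ (res_jq N)
    (transcendental_jq k) (jField_le_full k N rfl) ?_ (exists_res_gen N) rfl h
  · refine transcendental_coe ?_
    show Transcendental QA (coeffMap A.subtype (jqModC A))
    rw [coeffMap_jqModC]
    exact transcendental_jq QA
  · rw [finrank_jq_X0Bar, finrank_extendScalars_full k N rfl hN]

/-- The Gauss reduction of the function field of `X₀(N)`. -/
def modularModel : Model π (X0Bar N) (modularFunctionFieldFullC k N) where
  toReduction := (laurentReduction π (X0Bar N)).codRestrict (modularFunctionFieldFullC k N)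
    fun _ _ h => res_mem_full hπ N hN h
  surj := hπ
  x := ⟨_, jq_mem_X0Bar (A := A) N⟩
  xb := ⟨jqModC k, jqModC_mem_full k N⟩
  x_res := Reduction.codRestrict_res.2 (res_jq N)
  transcendental := transcendental_coe (transcendental_jq k)
  finrank_eq := by rw [finrank_jq_X0Bar, finrank_jElt k N rfl hN _ rfl]
  gen := gen_codRestrict _ _ _ (exists_res_gen N) rfl

theorem modularModel_res {f : X0Bar N} {g : modularFunctionFieldFullC k N} :
    (modularModel hπ N hN).Res f g ↔ (laurentReduction π (X0Bar N)).Res f (g : LaurentSeries k) :=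
  Reduction.codRestrict_res (h := fun _ _ h => res_mem_full hπ N hN h)

theorem modularModel_res_series {y : LaurentSeries A} (hy : coeffMap A.subtype y ∈ X0Bar N)
    (hyk : coeffMap π y ∈ modularFunctionFieldFullC k N) :
    (modularModel hπ N hN).Res ⟨_, hy⟩ ⟨_, hyk⟩ :=
  (modularModel_res hπ N hN).2 (laurentReduction_res hy)

/-- A specialisation of the places of `X₀(N)`: compatible with integral functions, and injective
on classes of order prime to the residue characteristic. -/
structure IsSpecialisation
    (r : Place QA (X0Bar N) → Place k (modularFunctionFieldFullC k N)) : Prop where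
  res : IsPlaceReductionAlong A π N r
  inj : ∀ (m : ℕ) (D : Divisor QA (X0Bar N)), (m : k) ≠ 0 → Divisor.degree D = 0 →
    Divisor.IsPrincipal (m • D) → Divisor.IsPrincipal (Finsupp.mapDomain r D) →
    Divisor.IsPrincipal D

variable {N} {N' : ℕ} [NeZero N']

theorem X0Bar_mono (h : N ∣ N') : X0Bar N ≤ X0Bar N' := by
  rw [X0Bar, X0Bar, laurentBaseChange_full_eq, laurentBaseChange_full_eq]
  exact full_degeneracyC_le QA h

section Tower

variable (h : N ∣ N') (hN' : (N' : k) ≠ 0)

include hπ h hN hN' in
theorem exists_tower :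
    letI := (IntermediateField.inclusion (X0Bar_mono h)).toRingHom.toAlgebra
    letI := (IntermediateField.inclusion (full_degeneracyC_le k h)).toRingHom.toAlgebra
    (FiniteDimensional (X0Bar N) (X0Bar N') ∧
      FiniteDimensional (modularFunctionFieldFullC k N) (modularFunctionFieldFullC k N')) ∧
    dedekindPsi N * Module.finrank (X0Bar N) (X0Bar N') = dedekindPsi N' ∧
    Tower (modularModel hπ N hN) (modularModel hπ N' hN') := by
  letI := (IntermediateField.inclusion (X0Bar_mono h)).toRingHom.toAlgebra
  letI := (IntermediateField.inclusion (full_degeneracyC_le k h)).toRingHom.toAlgebra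
  obtain ⟨h1, h1'⟩ := finrank_tower QA N (laurentBaseChange_full_eq N)
    (laurentBaseChange_full_eq N') (Nat.cast_ne_zero.2 (NeZero.ne N))
    (Nat.cast_ne_zero.2 (NeZero.ne N')) (X0Bar_mono h)
  obtain ⟨h2, h2'⟩ := finrank_tower k N rfl rfl hN hN' (full_degeneracyC_le k h)
  refine ⟨⟨h1', h2'⟩, h1, ⟨fun f g hfg => ?_, Subtype.ext rfl, ?_⟩⟩
  · exact (modularModel_res hπ N' hN').2
      (laurentReduction_compat (X0Bar_mono h) ((modularModel_res hπ N hN).1 hfg))
  · exact Nat.eq_of_mul_eq_mul_left (dedekindPsi_pos N) (h1.trans h2.symm)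

variable [IsFunctionField k (modularFunctionFieldFullC k N)]
  [IsFunctionField k (modularFunctionFieldFullC k N')]

include hπ h hN hN' in
/-- Smoothness descends along an extension of invertible degree. -/
theorem smooth_of_dvd {d : ℕ} (hd : dedekindPsi N' = dedekindPsi N * d) (hdk : (d : k) ≠ 0)
    (hM' : (modularModel hπ N' hN').Smooth) : (modularModel hπ N hN).Smooth := by
  letI := (IntermediateField.inclusion (X0Bar_mono h)).toRingHom.toAlgebra
  letI := (IntermediateField.inclusion (full_degeneracyC_le k h)).toRingHom.toAlgebra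
  haveI : IsScalarTower QA (X0Bar N) (X0Bar N') := IsScalarTower.of_algebraMap_eq fun _ => rfl
  haveI : IsScalarTower k (modularFunctionFieldFullC k N) (modularFunctionFieldFullC k N') :=
    IsScalarTower.of_algebraMap_eq fun _ => rfl
  obtain ⟨⟨h1, h2⟩, hpsi, hT⟩ := exists_tower hπ hN h hN'
  haveI := h1
  haveI := h2
  refine hT.smooth_of_invertible hM' ?_
  rwa [Nat.eq_of_mul_eq_mul_left (dedekindPsi_pos N) (hpsi.trans hd)]

include hπ h hN hN' in
/-- A smooth model above gives a specialisation below. -/
theorem exists_isSpecialisation (hA : RankOne π) {d : ℕ}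
    (hd : dedekindPsi N' = dedekindPsi N * d)
    (hdk : ∀ m : ℕ, (m : k) ≠ 0 → Nat.Coprime d m)
    (hM' : (modularModel hπ N' hN').Smooth) :
    ∃ r : Place QA (X0Bar N) → Place k (modularFunctionFieldFullC k N),
      IsSpecialisation (π := π) N r := by
  letI := (IntermediateField.inclusion (X0Bar_mono h)).toRingHom.toAlgebra
  letI := (IntermediateField.inclusion (full_degeneracyC_le k h)).toRingHom.toAlgebra
  haveI : IsScalarTower QA (X0Bar N) (X0Bar N') := IsScalarTower.of_algebraMap_eq fun _ => rfl
  haveI : IsScalarTower k (modularFunctionFieldFullC k N) (modularFunctionFieldFullC k N') :=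
    IsScalarTower.of_algebraMap_eq fun _ => rfl
  obtain ⟨⟨h1, h2⟩, hpsi, hT⟩ := exists_tower hπ hN h hN'
  haveI := h1
  haveI := h2
  refine ⟨Tower.descPlace hM' hT, ⟨⟨fun P => ?_, fun y hy hyk hne D hD Q => ?_⟩, ?_⟩⟩
  · rw [deg_eq_one, deg_eq_one]
  · have hD' : D = divOf QA (⟨_, hy⟩ : X0Bar N) := Finsupp.ext fun P => by rw [hD, divOf_apply]
    have h3 := Tower.descMap_divOf hT hM' (modularModel_res_series hπ N hN hy hyk)
      (fun h0 => hne (congrArg Subtype.val h0))
    rw [hD']
    exact (congrArg (fun E : Divisor k (modularFunctionFieldFullC k N) => E Q) h3).trans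
      (divOf_apply _ Q)
  · intro m D hm hdeg hmD hrD
    refine Tower.isPrincipal_of_descMap hT hM' hA hm ?_ hdeg hmD hrD
    rw [Nat.eq_of_mul_eq_mul_left (dedekindPsi_pos N) (hpsi.trans hd)]
    exact hdk m hm

end Tower

end FLTAgent.Specialization
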