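import Fermat.Agent.Curves.Hurwitz

/-!
# Riemann's theorem in every characteristic and base-point lemmas
-/

set_option autoImplicit false
set_option linter.style.haveILetI false
set_option linter.unusedSectionVars false

noncomputable section

namespace FLTAgent.Specialization

open AlgebraicCurve FLTAgent.Curves Polynomial IntermediateField

variable {K F : Type*} [Field K] [Field F] [Algebra K F]

/-- The dimension of the Riemann–Roch space. -/
def ell (D : Divisor K F) : ℤ := Module.finrank K (riemannRochSpace D)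

theorem divisor_le_iff {D E : Divisor K F} : D ≤ E ↔ ∀ v, D v ≤ E v := Iff.rfl

theorem rrSpace_le {D E : Divisor K F} (h : D ≤ E) : riemannRochSpace D ≤ riemannRochSpace E :=
  rrSpace_mono h

/-- `f` has the least order that `L(G)` allows at `Q`. -/
def Exact (G : Divisor K F) (Q : Place K F) (f : F) : Prop := ¬ OrdGE Q (-G Q + 1) f

theorem Exact.ne_zero {G : Divisor K F} {Q : Place K F} {f : F} (h : Exact G Q f) : f ≠ 0 :=
  fun h0 => h (Or.inl h0)

theorem exact_iff {G : Divisor K F} {Q : Place K F} {f : F} (hf : f ∈ riemannRochSpace G) :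
    Exact G Q f ↔ f ≠ 0 ∧ Q.ord f = -G Q := by
  constructor
  · refine fun h => ⟨h.ne_zero, ?_⟩
    have h1 := (mem_rrSpace.1 hf Q).le_ord h.ne_zero
    have h2 : ¬ (-G Q + 1 ≤ Q.ord f) := fun h' => h (ordGE_of_le h')
    omega
  · rintro ⟨hf0, h⟩ h'
    have := h'.le_ord hf0
    omega

variable [IsAlgClosed K] [IsFunctionField K F]

instance instFiniteDimensionalRR (D : Divisor K F) : FiniteDimensional K (riemannRochSpace D) :=
  finiteDimensional_rrSpace D

theorem degree_nonneg {D : Divisor K F} (h : 0 ≤ D) : 0 ≤ Divisor.degree D := by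
  rw [degree_eq_sum (s := D.support) subset_rfl]
  exact Finset.sum_nonneg fun v _ => h v

theorem degree_mono {D E : Divisor K F} (h : D ≤ E) :
    Divisor.degree D ≤ Divisor.degree E := by
  have := degree_nonneg (sub_nonneg.2 h)
  rw [map_sub] at this
  omega

theorem degree_single' (v : Place K F) (n : ℤ) :
    Divisor.degree (Finsupp.single v n) = n := by
  rw [Divisor.degree_single, deg_eq_one v, Nat.cast_one, mul_one]

theorem exists_pos_of_degree_pos {D : Divisor K F} (h : 0 < Divisor.degree D) :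
    ∃ v, 0 < D v := by
  rw [degree_eq_sum (s := D.support) subset_rfl] at h
  by_contra! hn
  have := Finset.sum_nonpos fun v (_ : v ∈ D.support) => hn v
  omega

theorem eq_of_le_of_degree_le {D E : Divisor K F} (h : D ≤ E)
    (hd : Divisor.degree E ≤ Divisor.degree D) : D = E := by
  by_contra hne
  obtain ⟨v, hv⟩ : ∃ v, D v < E v := by
    by_contra! hv
    exact hne (le_antisymm h hv)
  have h1 : 0 ≤ E - D - Finsupp.single v 1 := fun w => by
    classical
    simp only [Finsupp.sub_apply, Finsupp.single_apply, Finsupp.coe_zero, Pi.zero_apply]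
    have := h w
    split_ifs with hw
    · subst hw; omega
    · omega
  have := degree_nonneg h1
  rw [map_sub, map_sub, degree_single'] at this
  omega

theorem eq_single_of_degree_one {D : Divisor K F} (h : 0 ≤ D) (hd : Divisor.degree D = 1) :
    ∃ v, D = Finsupp.single v 1 := by
  obtain ⟨v, hv⟩ := exists_pos_of_degree_pos (D := D) (by omega)
  refine ⟨v, (eq_of_le_of_degree_le (fun w => ?_) (by rw [hd, degree_single'])).symm⟩
  classical
  rw [Finsupp.single_apply]
  split_ifs with hw
  · subst hw; omega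
  · exact h w

theorem exists_sub_of_degree {D : Divisor K F} (h : 0 ≤ D) {e : ℤ} (he : 0 ≤ e)
    (hd : e ≤ Divisor.degree D) :
    ∃ D' : Divisor K F, 0 ≤ D' ∧ D' ≤ D ∧ Divisor.degree D' = e := by
  obtain ⟨n, hn⟩ : ∃ n : ℕ, Divisor.degree D = e + n := ⟨(Divisor.degree D - e).toNat, by omega⟩
  induction n generalizing D with
  | zero => exact ⟨D, h, le_rfl, by omega⟩
  | succ n ih =>
      obtain ⟨v, hv⟩ := exists_pos_of_degree_pos (D := D) (by omega)
      classical
      have h' : (0 : Divisor K F) ≤ D - Finsupp.single v 1 := fun w => by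
        simp only [Finsupp.sub_apply, Finsupp.single_apply, Finsupp.coe_zero, Pi.zero_apply]
        have : 0 ≤ D w := h w
        split_ifs with hw
        · subst hw; omega
        · omega
      have hdeg : Divisor.degree (D - Finsupp.single v 1) = e + n := by
        rw [map_sub, degree_single', hn]; push_cast; ring
      obtain ⟨D', h1, h2, h3⟩ := ih h' (by omega) hdeg
      refine ⟨D', h1, h2.trans fun w => ?_, h3⟩
      simp only [Finsupp.sub_apply, Finsupp.single_apply]
      split_ifs <;> omega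

theorem ell_mono {D E : Divisor K F} (h : D ≤ E) : ell D ≤ ell E :=
  Nat.cast_le.2 (Submodule.finrank_mono (rrSpace_le h))

theorem ell_sub_le {D E : Divisor K F} (h : D ≤ E) :
    ell E ≤ ell D + (Divisor.degree E - Divisor.degree D) :=
  finrank_rrSpace_le h

theorem ell_sub_divOf (D : Divisor K F) {h : F} (hh : h ≠ 0) : ell (D - divOf K h) = ell D :=
  congrArg Nat.cast (mulRRSpace D hh).finrank_eq.symm

theorem exists_riemann_lower : ∃ C : ℤ, ∀ G : Divisor K F, Divisor.degree G + C ≤ ell G := by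
  obtain ⟨x, hx, -⟩ := IsFunctionField.exists_transcendental (K := K) (F := F)
  obtain ⟨B⟩ := nonempty_reducedBasis (K := K) hx
  refine ⟨Module.finrank K⟮x⟯ F - ∑ i, (B.k i : ℤ), fun G => ?_⟩
  have := riemann_le B hx G
  rw [ell]
  omega

/-- Riemann's theorem. -/
theorem exists_riemann : ∃ g c : ℤ, 0 ≤ c ∧
    (∀ G : Divisor K F, Divisor.degree G + 1 - g ≤ ell G) ∧
    ∀ G : Divisor K F, c ≤ Divisor.degree G → ell G = Divisor.degree G + 1 - g := by
  obtain ⟨C, hC⟩ := exists_riemann_lower (K := K) (F := F)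
  obtain ⟨r, ⟨G₀, hG₀⟩, hr⟩ := Int.exists_least_of_bdd
    (P := fun z : ℤ => ∃ G : Divisor K F, ell G - Divisor.degree G = z)
    ⟨C, by rintro _ ⟨G, rfl⟩; have := hC G; omega⟩ ⟨_, ⟨0, rfl⟩⟩
  refine ⟨1 - r, max (Divisor.degree G₀ + (1 - r)) 0, le_max_right _ _,
    fun G => by have := hr _ ⟨G, rfl⟩; omega, fun G hG => ?_⟩
  have hpos : 0 < ell (G - G₀) := by
    have := hr _ ⟨G - G₀, rfl⟩
    rw [map_sub] at this
    have := le_max_left (Divisor.degree G₀ + (1 - r)) 0
    omega
  obtain ⟨h, hh, hh0⟩ := (Submodule.ne_bot_iff (riemannRochSpace (G - G₀))).1 fun hb => by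
    rw [ell, hb, finrank_bot] at hpos; omega
  have hle : G₀ ≤ G - divOf K h⁻¹ := fun v => by
    have := (mem_rrSpace.1 hh v).le_ord hh0
    simp only [Finsupp.sub_apply, divOf_apply, v.ord_inv] at this ⊢
    omega
  have h1 := ell_sub_le hle
  rw [ell_sub_divOf G (inv_ne_zero hh0), map_sub, degree_divOf] at h1
  have := hr _ ⟨G, rfl⟩
  omega

variable (K F) in
/-- The genus in the sense of Riemann's theorem. -/
def rGenus : ℤ := (exists_riemann (K := K) (F := F)).choose

variable (K F) in
/-- A degree beyond which Riemann's inequality is an equality. -/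
def rBound : ℤ := (exists_riemann (K := K) (F := F)).choose_spec.choose

theorem rBound_nonneg : 0 ≤ rBound K F :=
  (exists_riemann (K := K) (F := F)).choose_spec.choose_spec.1

theorem ell_eq {G : Divisor K F} (h : rBound K F ≤ Divisor.degree G) :
    ell G = Divisor.degree G + 1 - rGenus K F :=
  (exists_riemann (K := K) (F := F)).choose_spec.choose_spec.2.2 G h

theorem exists_exact {G : Divisor K F} (h : rBound K F + 1 ≤ Divisor.degree G) (Q : Place K F) :
    ∃ f ∈ riemannRochSpace G, Exact G Q f := by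
  by_contra! hn
  have hle : riemannRochSpace G ≤ riemannRochSpace (G - Finsupp.single Q 1) := fun f hf =>
    mem_rrSpace.2 fun v => by
      classical
      rw [Finsupp.sub_apply, Finsupp.single_apply]
      split_ifs with hv
      · subst hv
        exact (not_not.1 (hn f hf)).mono (by omega)
      · simpa using mem_rrSpace.1 hf v
  have h1 : ell G ≤ ell (G - Finsupp.single Q 1) := Nat.cast_le.2 (Submodule.finrank_mono hle)
  rw [ell_eq (by omega), ell_eq (by rw [map_sub, degree_single']; omega), map_sub,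
    degree_single'] at h1
  omega

/-- An element of `W` exact at finitely many places simultaneously. -/
theorem exists_exact_finset {W : Submodule K F} {G : Divisor K F}
    (hne : ∃ f ∈ W, f ≠ 0) {s : Finset (Place K F)} (h : ∀ Q ∈ s, ∃ f ∈ W, Exact G Q f) :
    ∃ f ∈ W, f ≠ 0 ∧ ∀ Q ∈ s, Exact G Q f := by
  classical
  induction s using Finset.induction with
  | empty =>
      obtain ⟨f, hf, hf0⟩ := hne
      exact ⟨f, hf, hf0, by simp⟩
  | insert a s ha ih =>
      obtain ⟨f, hf, hf0, hfs⟩ := ih fun Q hQ => h Q (Finset.mem_insert_of_mem hQ)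
      obtain ⟨g, hg, hga⟩ := h a (Finset.mem_insert_self a s)
      -- at each place at most one value of the parameter is bad
      have hbad : ∀ Q ∈ insert a s,
          {t : K | ¬ Exact G Q (f + t • g)}.Subsingleton := by
        intro Q hQ t ht t' ht'
        by_contra hne
        have h1 : OrdGE Q (-G Q + 1) ((f + t • g) - (f + t' • g)) :=
          (not_not.1 ht).sub (not_not.1 ht')
        rw [add_sub_add_left_eq_sub, ← sub_smul] at h1
        have h2 : OrdGE Q (-G Q + 1) g := by
          have := h1.smul (t - t')⁻¹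
          rwa [smul_smul, inv_mul_cancel₀ (sub_ne_zero.2 hne), one_smul] at this
        rcases Finset.mem_insert.1 hQ with rfl | hQ
        · exact hga h2
        · have := (not_not.1 ht).sub (h2.smul t)
          rw [add_sub_cancel_right] at this
          exact hfs Q hQ this
      have hfin : (⋃ Q ∈ insert a s, {t : K | ¬ Exact G Q (f + t • g)}).Finite :=
        Set.Finite.biUnion (Finset.finite_toSet _) fun Q hQ => (hbad Q hQ).finite
      obtain ⟨t, ht⟩ := hfin.infinite_compl.nonempty
      simp only [Set.mem_compl_iff, Set.mem_iUnion, Set.mem_ofPred_eq, not_exists, not_not] at ht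
      exact ⟨f + t • g, W.add_mem hf (W.smul_mem t hg),
        (ht a (Finset.mem_insert_self a s)).ne_zero, ht⟩

theorem exists_exact_many {G : Divisor K F} (h : rBound K F + 1 ≤ Divisor.degree G)
    (s : Finset (Place K F)) :
    ∃ f ∈ riemannRochSpace G, f ≠ 0 ∧ ∀ Q ∈ s, Exact G Q f := by
  refine exists_exact_finset ?_ fun Q _ => exists_exact h Q
  obtain ⟨x, hx, -⟩ := IsFunctionField.exists_transcendental (K := K) (F := F)
  obtain ⟨Q, -⟩ := exists_ord_pos (K := K) hx
  obtain ⟨f, hf, hQ⟩ := exists_exact h Q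
  exact ⟨f, hf, hQ.ne_zero⟩

theorem le_of_rrSpace_le {G G' : Divisor K F} (h : riemannRochSpace G ≤ riemannRochSpace G')
    (hG : rBound K F + 1 ≤ Divisor.degree G) : G ≤ G' := fun Q => by
  obtain ⟨f, hf, hQ⟩ := exists_exact hG Q
  have h1 := ((exact_iff hf).1 hQ).2
  have h2 := (mem_rrSpace.1 (h hf) Q).le_ord hQ.ne_zero
  omega

theorem eq_of_rrSpace_eq {G G' : Divisor K F} (h : riemannRochSpace G = riemannRochSpace G')
    (hG : rBound K F + 1 ≤ Divisor.degree G) (hG' : rBound K F + 1 ≤ Divisor.degree G') :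
    G = G' :=
  le_antisymm (le_of_rrSpace_le h.le hG) (le_of_rrSpace_le h.ge hG')

theorem mem_rrSpace_mul {D E : Divisor K F} {f g : F} (hf : f ∈ riemannRochSpace D)
    (hg : g ∈ riemannRochSpace E) : f * g ∈ riemannRochSpace (D + E) :=
  mem_rrSpace.2 fun v => ((mem_rrSpace.1 hf v).mul (mem_rrSpace.1 hg v)).mono (by simp only [Finsupp.add_apply]; omega)

theorem one_mem_rrSpace {D : Divisor K F} (h : 0 ≤ D) : (1 : F) ∈ riemannRochSpace D :=
  mem_rrSpace.2 fun v => (ordGE_one v).mono (by have := h v; simp at this ⊢; omega)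

theorem rrSpace_map_mul (D : Divisor K F) {h : F} (hh : h ≠ 0) :
    (riemannRochSpace D).map (LinearMap.mulLeft K h) = riemannRochSpace (D - divOf K h) := by
  apply le_antisymm
  · rintro _ ⟨f, hf, rfl⟩
    exact ((mulRRSpace D hh) ⟨f, hf⟩).2
  · intro f hf
    exact ⟨h⁻¹ * f, ((mulRRSpace D hh).symm ⟨f, hf⟩).2, by
      rw [LinearMap.mulLeft_apply, ← mul_assoc, mul_inv_cancel₀ hh, one_mul]⟩

/-- The base-point-free pencil trick. -/
theorem pencil {G H : Divisor K F} {f₁ f₂ : F} (h₁ : f₁ ≠ 0) (h₂ : f₂ ≠ 0)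
    (h : ∀ Q, Exact G Q f₁ ∨ Exact G Q f₂) (hf₁ : f₁ ∈ riemannRochSpace G)
    (hf₂ : f₂ ∈ riemannRochSpace G) :
    2 * ell H ≤ Module.finrank K ↥((riemannRochSpace H).map (LinearMap.mulLeft K f₁) ⊔
      (riemannRochSpace H).map (LinearMap.mulLeft K f₂)) + ell (H - G) := by
  have hinf : (riemannRochSpace H).map (LinearMap.mulLeft K f₁) ⊓
      (riemannRochSpace H).map (LinearMap.mulLeft K f₂) ≤
        (riemannRochSpace (H - G)).map (LinearMap.mulLeft K (f₁ * f₂)) := by
    rintro z ⟨⟨a, ha, rfl⟩, b, hb, hab⟩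
    simp only [LinearMap.mulLeft_apply] at hab ⊢
    refine ⟨a / f₂, mem_rrSpace.2 fun Q => ?_, by
      simp only [LinearMap.mulLeft_apply]; field_simp⟩
    rcases eq_or_ne a 0 with rfl | ha0
    · exact Or.inl (by simp)
    have hb0 : b ≠ 0 := by
      rintro rfl
      rw [mul_zero] at hab
      exact mul_ne_zero h₁ ha0 hab.symm
    refine ordGE_of_le ?_
    rw [Finsupp.sub_apply]
    have hab' := congrArg Q.ord hab
    rw [Q.ord_mul h₂ hb0, Q.ord_mul h₁ ha0] at hab'
    have hA := (mem_rrSpace.1 ha Q).le_ord ha0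
    have hB := (mem_rrSpace.1 hb Q).le_ord hb0
    rw [ord_div Q ha0 h₂]
    rcases h Q with hQ | hQ
    · have := ((exact_iff hf₁).1 hQ).2; omega
    · have := ((exact_iff hf₂).1 hQ).2; omega
  have hdim := Submodule.finrank_sup_add_finrank_inf_eq
    ((riemannRochSpace H).map (LinearMap.mulLeft K f₁))
    ((riemannRochSpace H).map (LinearMap.mulLeft K f₂))
  have hle := Submodule.finrank_mono hinf
  rw [← (Submodule.equivMapOfInjective _ (mul_right_injective₀ h₁) (riemannRochSpace H)).finrank_eq,
    ← (Submodule.equivMapOfInjective _ (mul_right_injective₀ h₂) (riemannRochSpace H)).finrank_eq]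
    at hdim
  rw [← (Submodule.equivMapOfInjective _ (mul_right_injective₀ (mul_ne_zero h₁ h₂))
    (riemannRochSpace (H - G))).finrank_eq] at hle
  simp only [ell]
  omega

theorem poleDiv_nonneg (f : F) : 0 ≤ poleDiv K f := fun v => by
  rw [poleDiv_apply]; exact le_max_right _ _

theorem divOf_eq_sub (f : F) : divOf K f = poleDiv K f⁻¹ - poleDiv K f :=
  Finsupp.ext fun v => by
    rw [Finsupp.sub_apply, poleDiv_apply, poleDiv_apply, divOf_apply, v.ord_inv]; omega

theorem isPrincipal_iff {D : Divisor K F} :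
    Divisor.IsPrincipal D ↔ ∃ f : F, f ≠ 0 ∧ D = divOf K f :=
  ⟨fun ⟨f, hf, h⟩ => ⟨f, hf, Finsupp.ext h⟩, fun ⟨f, hf, h⟩ => ⟨f, hf, fun _ => h ▸ rfl⟩⟩

theorem divOf_mul {f g : F} (hf : f ≠ 0) (hg : g ≠ 0) :
    divOf K (f * g) = divOf K f + divOf K g :=
  Finsupp.ext fun v => by simp [v.ord_mul hf hg]

theorem divOf_div {f g : F} (hf : f ≠ 0) (hg : g ≠ 0) :
    divOf K (f / g) = divOf K f - divOf K g :=
  Finsupp.ext fun v => by simp [ord_div v hf hg]

theorem divOf_pow (f : F) (n : ℕ) : divOf K (f ^ n) = n • divOf K f :=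
  Finsupp.ext fun v => by simp [ord_pow]

theorem divOf_algebraMap (a : K) : divOf K (algebraMap K F a) = 0 :=
  Finsupp.ext fun v => by simp [ord_algebraMap]

theorem mem_rrSpace_iff_divOf {D : Divisor K F} {f : F} (hf : f ≠ 0) :
    f ∈ riemannRochSpace D ↔ 0 ≤ divOf K f + D := by
  rw [mem_rrSpace]
  refine forall_congr' fun v => ?_
  rw [ordGE_iff_of_ne hf, Finsupp.add_apply, divOf_apply]
  simp only [Finsupp.coe_zero, Pi.zero_apply]
  omega

end FLTAgent.Specialization
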