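import Fermat.Agent.Specialization.Lattice
import Fermat.Agent.Specialization.Riemann

/-!
# Models of function fields with preserved degree, and the bound on poles after reduction
-/

set_option autoImplicit false
set_option linter.style.haveILetI false
set_option linter.unusedSectionVars false

noncomputable section

namespace FLTAgent.Specialization

open AlgebraicCurve FLTAgent.Curves Polynomial IntermediateField

variable {L k : Type*} [Field L] [Field k] {A : ValuationSubring L} {π : A →+* k}

/-- A reduction of function fields preserving the degree over the line of some coordinate. -/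
structure Model (π : A →+* k) (F Fb : Type*) [Field F] [Field Fb] [Algebra L F]
    [Algebra k Fb] extends Reduction π F Fb where
  surj : Function.Surjective π
  x : F
  xb : Fb
  x_res : toReduction.Res x xb
  transcendental : Transcendental k xb
  finrank_eq : Module.finrank L⟮x⟯ F = Module.finrank k⟮xb⟯ Fb
  gen : ∀ z : Fb, z ∈ IntermediateField.adjoin k (Set.range red)

theorem exists_lift_basis {F Ω : Type*} [Field F] [Field Ω] [Algebra L F] [Algebra k Ω]
    (R : Reduction π F Ω) {Kb : IntermediateField k Ω} (E : IntermediateField Kb Ω)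
    [FiniteDimensional Kb E] {S : Set Ω} (hS : ∀ s ∈ S, ∃ f, R.Res f s)
    (hE : E = IntermediateField.adjoin Kb S) :
    ∃ (u : Fin (Module.finrank Kb E) → F) (w : Fin (Module.finrank Kb E) → Ω),
      (∀ i, R.Res (u i) (w i)) ∧ LinearIndependent Kb w ∧ ∀ i, w i ∈ E := by
  have hsub : ∀ s ∈ S, s ∈ E := fun s hs => hE ▸ IntermediateField.subset_adjoin Kb S hs
  have halg : ∀ s ∈ S, IsAlgebraic Kb s := fun s hs => by
    have := Algebra.IsAlgebraic.isAlgebraic (R := Kb) (⟨s, hsub s hs⟩ : E)
    exact this.algebraMap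
  have hspan : Submodule.span Kb (Submonoid.closure S : Set Ω) =
      Subalgebra.toSubmodule E.toSubalgebra := by
    rw [hE, IntermediateField.adjoin_toSubalgebra_of_isAlgebraic halg, Algebra.adjoin_eq_span]
  have hfin : Module.finrank Kb (Submodule.span Kb (Submonoid.closure S : Set Ω)) =
      Module.finrank Kb E := by
    rw [hspan]; rfl
  haveI : FiniteDimensional Kb (Submodule.span Kb (Submonoid.closure S : Set Ω)) := by
    rw [hspan]; exact ‹FiniteDimensional Kb E›
  obtain ⟨w, hw, hws, hwi⟩ :=
    Submodule.exists_fun_fin_finrank_span_eq Kb (Submonoid.closure S : Set Ω)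
  have hlift : ∀ s ∈ Submonoid.closure S, ∃ f, R.Res f s := fun s hs => by
    induction hs using Submonoid.closure_induction with
    | mem s hs => exact hS s hs
    | one => exact ⟨1, R.res_one⟩
    | mul a b _ _ ha hb =>
        obtain ⟨f, hf⟩ := ha
        obtain ⟨g, hg⟩ := hb
        exact ⟨f * g, hf.mul hg⟩
  choose u hu using fun i => hlift _ (hw i)
  refine ⟨fun i => u (Fin.cast hfin.symm i), fun i => w (Fin.cast hfin.symm i), fun i => hu _,
    hwi.comp _ (Fin.cast_injective _), fun i => ?_⟩
  have h := Submodule.subset_span (R := Kb) (hw (Fin.cast hfin.symm i))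
  exact (hspan ▸ le_rfl : Submodule.span Kb (Submonoid.closure S : Set Ω) ≤ Subalgebra.toSubmodule E.toSubalgebra) h

namespace Model

variable {F Fb : Type*} [Field F] [Field Fb] [Algebra L F] [Algebra k Fb] (M : Model π F Fb)

theorem transcendental_x : Transcendental L M.x := by
  rintro ⟨p, hp, hp0⟩
  obtain ⟨c, q, -, hq, h⟩ := Reduction.exists_scale_aeval M.x_res M.transcendental M.surj hp
  rw [hp0, smul_zero] at h
  exact M.transcendental ⟨q, hq, h.unique M.res_zero⟩

variable [IsAlgClosed L] [IsFunctionField L F] [IsAlgClosed k] [IsFunctionField k Fb]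

theorem exists_basis : ∃ (u : Fin (Module.finrank k⟮M.xb⟯ Fb) → F)
    (w : Fin (Module.finrank k⟮M.xb⟯ Fb) → Fb), (∀ i, M.Res (u i) (w i)) ∧
      LinearIndependent k⟮M.xb⟯ w ∧
      Submodule.span L⟮M.x⟯ (Set.range u) = ⊤ ∧ Submodule.span k⟮M.xb⟯ (Set.range w) = ⊤ := by
  haveI := finiteDimensional_adjoin (K := k) M.transcendental
  haveI := finiteDimensional_adjoin (K := L) M.transcendental_x
  have htop : (⊤ : IntermediateField k⟮M.xb⟯ Fb) =
      IntermediateField.adjoin k⟮M.xb⟯ (Set.range M.red) := by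
    refine (eq_top_iff.2 fun z _ => ?_).symm
    have h : IntermediateField.adjoin k (Set.range M.red) ≤
        (IntermediateField.adjoin k⟮M.xb⟯ (Set.range M.red)).restrictScalars k :=
      IntermediateField.adjoin_le_iff.2 (IntermediateField.subset_adjoin k⟮M.xb⟯ _)
    exact h (M.gen z)
  obtain ⟨u, w, huw, hw, -⟩ := exists_lift_basis M.toReduction (⊤ : IntermediateField k⟮M.xb⟯ Fb)
    (S := Set.range M.red) (fun s ⟨f, hf⟩ => ⟨f, f.2, hf⟩) htop
  have hn : Module.finrank k⟮M.xb⟯ (⊤ : IntermediateField k⟮M.xb⟯ Fb) =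
      Module.finrank k⟮M.xb⟯ Fb := IntermediateField.finrank_top'
  let u' : Fin (Module.finrank k⟮M.xb⟯ Fb) → F := fun i => u (Fin.cast hn.symm i)
  let w' : Fin (Module.finrank k⟮M.xb⟯ Fb) → Fb := fun i => w (Fin.cast hn.symm i)
  have hw' : LinearIndependent k⟮M.xb⟯ w' := hw.comp _ (Fin.cast_injective _)
  have huw' : ∀ i, M.Res (u' i) (w' i) := fun i => huw _
  have hu' : LinearIndependent L⟮M.x⟯ u' :=
    Reduction.linearIndependent_of_res (Reduction.lineReduction_compat M.x_res M.transcendental M.surj)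
      huw' (Reduction.lineReduction_total M.x_res M.transcendental M.surj) hw'
  haveI : Nonempty (Fin (Module.finrank k⟮M.xb⟯ Fb)) := ⟨⟨0, Module.finrank_pos⟩⟩
  exact ⟨u', w', huw', hw', hu'.span_eq_top_of_card_eq_finrank
      (by rw [Fintype.card_fin, M.finrank_eq]),
    hw'.span_eq_top_of_card_eq_finrank (Fintype.card_fin _)⟩

theorem scaled : M.toReduction.Scaled := by
  obtain ⟨u, w, huw, hw, hu, -⟩ := M.exists_basis
  exact Reduction.scaled_of_span (Reduction.lineReduction_compat M.x_res M.transcendental M.surj)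
    huw (Reduction.lineReduction_total M.x_res M.transcendental M.surj) hw
    (Reduction.lineReduction_scaled M.x_res M.transcendental M.surj) hu

theorem total : M.toReduction.Total := M.scaled.total M.surj

theorem hasOrth : M.toReduction.HasOrth := by
  obtain ⟨u, w, huw, hw, hu, -⟩ := M.exists_basis
  exact Reduction.hasOrth_of_basis M.x_res M.transcendental huw hw hu M.surj

theorem finrank_image (U : Submodule L F) [FiniteDimensional L U] :
    Module.finrank k (M.image U) = Module.finrank L U :=
  M.hasOrth.finrank_image M.surj U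

theorem exists_res_aeval (p : k[X]) : ∃ f, M.Res f (aeval M.xb p) := by
  obtain ⟨P, rfl⟩ := Polynomial.map_surjective π M.surj p
  exact ⟨_, Reduction.res_aeval M.x_res P⟩

theorem exists_res_of_mem_adjoin {z : Fb} (hz : z ∈ k⟮M.xb⟯) : ∃ f, M.Res f z := by
  obtain ⟨p, q, rfl⟩ := (mem_adjoin_simple_iff k z).1 hz
  obtain ⟨f, hf⟩ := M.exists_res_aeval p
  obtain ⟨g, hg⟩ := M.exists_res_aeval q
  rcases eq_or_ne (aeval M.xb q) 0 with h | h
  · exact ⟨0, by rw [h, div_zero]; exact M.res_zero⟩
  · exact ⟨f / g, hf.div hg h⟩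

/-- The reduction map is surjective. -/
theorem surjective (z : Fb) : ∃ f, M.Res f z := by
  obtain ⟨u, w, huw, -, -, hw⟩ := M.exists_basis
  obtain ⟨b, rfl⟩ := (Submodule.mem_span_range_iff_exists_fun _).1
    (hw ▸ Submodule.mem_top : z ∈ Submodule.span k⟮M.xb⟯ (Set.range w))
  choose f hf using fun i => M.exists_res_of_mem_adjoin (b i).2
  exact ⟨∑ i, f i * u i, Reduction.Res.sum fun i _ => by
    simpa [IntermediateField.smul_def] using (hf i).mul (huw i)⟩

theorem xb_ne_zero : M.xb ≠ 0 := ne_zero_of_transcendental M.transcendental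

/-- The same model with the inverse coordinate. -/
def withInv : Model π F Fb where
  toReduction := M.toReduction
  surj := M.surj
  x := M.x⁻¹
  xb := M.xb⁻¹
  x_res := M.x_res.inv M.xb_ne_zero
  transcendental := transcendental_inv M.transcendental
  finrank_eq := by rw [finrank_adjoin_inv, finrank_adjoin_inv, M.finrank_eq]
  gen := M.gen

/-- Reductions of functions regular off the poles of `x` are regular off the poles of `x̄`. -/
theorem integralWrt_res {f : F} {g : Fb} (hf : IntegralWrt L M.x f) (h : M.Res f g) :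
    IntegralWrt k M.xb g := by
  classical
  have hxL := M.transcendental_x
  haveI := finiteDimensional_adjoin (K := L) hxL
  obtain ⟨u, w, huw, hw, hu, -⟩ := M.exists_basis
  obtain ⟨B⟩ := nonempty_reducedBasis (K := L) hxL
  set R₁ := Reduction.lineReduction M.x_res M.transcendental M.surj with hR₁
  let b : Module.Basis _ L⟮M.x⟯ F := Module.Basis.mk
    (Reduction.linearIndependent_of_res
      (Reduction.lineReduction_compat M.x_res M.transcendental M.surj) huw
      (Reduction.lineReduction_total M.x_res M.transcendental M.surj) hw) hu.ge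
  let T : F →ₗ[L⟮M.x⟯] F := Algebra.lmul L⟮M.x⟯ F f
  set χ := T.charpoly with hχdef
  -- Gauss-integral entries
  have hent : ∀ i j, (LinearMap.toMatrix b b T) i j ∈ R₁.O := fun i j => by
    rw [LinearMap.toMatrix_apply]
    refine Reduction.coord_mem (Reduction.lineReduction_compat M.x_res M.transcendental M.surj)
      huw (Reduction.lineReduction_total M.x_res M.transcendental M.surj) hw
      (a := fun i => b.repr (T (b j)) i) ?_ i
    have := b.sum_repr (T (b j))
    simp only [b, Module.Basis.coe_mk] at this ⊢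
    rw [this]
    show f * u j ∈ _
    exact mul_mem h.mem (huw j).mem
  let M₀ : Matrix _ _ R₁.O := Matrix.of fun i j => ⟨_, hent i j⟩
  have hO : ∀ i, χ.coeff i ∈ R₁.O := fun i => by
    rw [hχdef, ← LinearMap.charpoly_toMatrix T b,
      show LinearMap.toMatrix b b T = M₀.map R₁.O.subtype from rfl, Matrix.charpoly_map,
      coeff_map]
    exact SetLike.coe_mem _
  -- polynomial entries
  let φ : L[X] →ₐ[L] L⟮M.x⟯ := aeval (AdjoinSimple.gen L M.x)
  have hpoly : ∀ i, ∃ p : L[X], (χ.coeff i : F) = aeval M.x p := by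
    have hp : ∀ i j, ∃ p : L[X], (LinearMap.toMatrix (B.wBasis hxL) (B.wBasis hxL) T) i j = φ p := by
      intro i j
      obtain ⟨p, hp⟩ := B.exists_polynomial_coord hxL (f := f * B.w j) fun v hv => by
        simpa using (hf v hv).mul (B.integral j v hv)
      refine ⟨p i, Subtype.ext ?_⟩
      rw [LinearMap.toMatrix_apply, ReducedBasis.coe_wBasis]
      have h2 : (φ (p i) : F) = aeval M.x (p i) := by
        simpa [φ] using (aeval_algHom_apply L⟮M.x⟯.val (AdjoinSimple.gen L M.x) (p i)).symm
      rw [h2, ← hp i]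
      rfl
    choose p hp using hp
    intro i
    refine ⟨(Matrix.of p).charpoly.coeff i, ?_⟩
    rw [hχdef, ← LinearMap.charpoly_toMatrix T (B.wBasis hxL),
      show LinearMap.toMatrix (B.wBasis hxL) (B.wBasis hxL) T = (Matrix.of p).map φ.toRingHom from
        Matrix.ext hp, Matrix.charpoly_map, coeff_map]
    simpa [φ] using (aeval_algHom_apply L⟮M.x⟯.val (AdjoinSimple.gen L M.x) _).symm
  have hq : ∀ i, ∃ q : k[X], M.Res (χ.coeff i : F) (aeval M.xb q) := fun i => by
    obtain ⟨p, hp⟩ := hpoly i
    have hm : aeval M.x p ∈ M.O := hp ▸ hO i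
    obtain ⟨q, -, hq⟩ := Reduction.res_of_aeval_mem M.x_res M.transcendental M.surj hm
    exact ⟨q, hp ▸ hq⟩
  choose q hq using hq
  -- Cayley–Hamilton
  have hCH : aeval f χ = 0 := by
    have h1 : Algebra.lmul L⟮M.x⟯ F (aeval f χ) = 0 := by
      rw [← aeval_algHom_apply, hχdef]
      exact LinearMap.aeval_self_charpoly T
    simpa using LinearMap.congr_fun h1 1
  have hlc : (χ.coeff χ.natDegree : F) = 1 := by
    rw [show χ.coeff χ.natDegree = 1 from (LinearMap.charpoly_monic T).coeff_natDegree]; rfl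
  rw [aeval_eq_sum_range, Finset.sum_range_succ] at hCH
  simp only [IntermediateField.smul_def, smul_eq_mul, hlc, one_mul] at hCH
  set n := χ.natDegree
  have hsum : M.Res ((∑ i ∈ Finset.range n, (χ.coeff i : F) * f ^ i) + f ^ n)
      ((∑ i ∈ Finset.range n, aeval M.xb (q i) * g ^ i) + g ^ n) :=
    (Reduction.Res.sum fun i _ => (hq i).mul (h.pow i)).add (h.pow n)
  rw [hCH] at hsum
  have hg := (M.res_zero.unique hsum).symm
  intro v hv
  by_contra hcon
  have hg0 : g ≠ 0 := fun h0 => hcon (Or.inl h0)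
  have hneg : v.ord g < 0 := not_le.1 fun h0 => hcon (ordGE_of_le h0)
  have h1 : OrdGE v (((n : ℤ) - 1) * v.ord g) (∑ i ∈ Finset.range n, aeval M.xb (q i) * g ^ i) := by
    refine OrdGE.sum fun i hi => ?_
    have hin : (i : ℤ) + 1 ≤ n := by exact_mod_cast Finset.mem_range.1 hi
    refine ((ordGE_aeval hv (q i)).mul (ordGE_of_le (ord_pow v g i).ge)).mono ?_
    nlinarith
  rw [add_comm, add_eq_zero_iff_eq_neg] at hg
  have h2 : OrdGE v (((n : ℤ) - 1) * v.ord g) (g ^ n) := hg ▸ h1.neg
  have h3 := h2.le_ord (pow_ne_zero _ hg0)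
  rw [ord_pow] at h3
  nlinarith

/-- Reduction does not increase pole orders at infinity. -/
theorem res_mem_rrSpace_poles {m : ℕ} {f : F} {g : Fb}
    (hf : f ∈ riemannRochSpace ((m : ℤ) • poleDiv L M.x)) (h : M.Res f g) :
    g ∈ riemannRochSpace ((m : ℤ) • poleDiv k M.xb) := by
  rw [mem_rrSpace_poles] at hf ⊢
  refine ⟨M.integralWrt_res hf.1 h, fun v hv => ?_⟩
  have hx0 := ne_zero_of_transcendental M.transcendental_x
  have hint : IntegralWrt L M.withInv.x (f * (M.x⁻¹) ^ m) := fun w hw => by
    have hw' : 0 ≤ w.ord M.x⁻¹ := hw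
    rw [w.ord_inv] at hw'
    have hp : OrdGE w ((m : ℤ) * -w.ord M.x) ((M.x⁻¹) ^ m) :=
      ordGE_of_le (by rw [ord_pow, w.ord_inv])
    rcases eq_or_lt_of_le (show w.ord M.x ≤ 0 by omega) with h0 | h0
    · simpa [h0] using (hf.1 w h0.ge).mul hp
    · refine ((hf.2 w h0).mul hp).mono ?_
      ring_nf; rfl
  have hr : M.withInv.Res (f * (M.x⁻¹) ^ m) (g * (M.xb⁻¹) ^ m) :=
    h.mul ((M.x_res.inv M.xb_ne_zero).pow m)
  have hg := M.withInv.integralWrt_res hint hr v (by
    show 0 ≤ v.ord M.xb⁻¹
    rw [v.ord_inv]; omega)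
  have h2 := hg.mul (ordGE_ord v (M.xb ^ m))
  rw [mul_assoc, ← mul_pow, inv_mul_cancel₀ M.xb_ne_zero, one_pow, mul_one, ord_pow, zero_add] at h2
  exact h2

end Model

end FLTAgent.Specialization
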