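import Fermat.Agent.Specialization.Divisors

/-!
# Specialisation is injective on torsion of order prime to the residue characteristic
-/

set_option autoImplicit false
set_option linter.style.haveILetI false
set_option linter.unusedSectionVars false

noncomputable section

namespace FLTAgent.Specialization

open AlgebraicCurve FLTAgent.Curves Polynomial IntermediateField

variable {L k : Type*} [Field L] [Field k] {A : ValuationSubring L} {π : A →+* k}

/-- No nonzero constant is divisible by all powers of an element of the maximal ideal. -/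
def RankOne (π : A →+* k) : Prop :=
  ∀ (a : A) (b : L), π a = 0 → a ≠ 0 → b ≠ 0 → ∃ n : ℕ, b / (a : L) ^ n ∉ A

theorem exists_pow_add {R : Type*} [CommRing R] (x y : R) (m : ℕ) :
    ∃ z : R, (x + y) ^ m = x ^ m + m * x ^ (m - 1) * y + z * y ^ 2 := by
  obtain ⟨z, hz⟩ := Polynomial.binomExpansion (X ^ m : R[X]) x y
  exact ⟨z, by simpa [Polynomial.derivative_X_pow] using hz⟩

theorem exists_inv_natCast (hπ : Function.Surjective π) {m : ℕ} (hm : (m : k) ≠ 0) :
    ∃ u : A, (m : L) * u = 1 := by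
  have hne : π (m : A) ≠ 0 := by rwa [map_natCast]
  have hm0 : (m : L) ≠ 0 := fun h0 => hne (by
    rw [show (m : A) = 0 from Subtype.ext (by simpa using h0), map_zero])
  exact ⟨⟨(m : L)⁻¹, (Reduction.base π hπ).inv_mem (m : A) hne⟩, mul_inv_cancel₀ hm0⟩

theorem exists_common_denominator_finset (hπ : Function.Surjective π) (s : Finset L) :
    ∃ b : L, b ≠ 0 ∧ ∀ c ∈ s, b * c ∈ A := by
  by_cases h : ∃ c ∈ s, c ≠ 0
  · obtain ⟨i, -, hi, hmax⟩ := (Reduction.base_total hπ).exists_max s id h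
    exact ⟨i⁻¹, inv_ne_zero hi, fun c hc => by rw [inv_mul_eq_div]; exact hmax c hc⟩
  · push Not at h
    exact ⟨1, one_ne_zero, fun c hc => by rw [h c hc, mul_zero]; exact zero_mem _⟩

/-- Polynomial equations with integral approximate solutions of every precision have a solution. -/
theorem exists_common_zero [IsAlgClosed L] (hπ : Function.Surjective π) (hA : RankOne π)
    {σ τ : Type*} [Finite σ] [Fintype τ] (P : τ → MvPolynomial σ L) {a : A} (ha : π a = 0)
    (ha0 : a ≠ 0)
    (happ : ∀ n : ℕ, ∃ c : σ → A, ∀ t, MvPolynomial.eval (fun i => (c i : L)) (P t) / (a : L) ^ n ∈ A) :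
    ∃ c : σ → L, ∀ t, MvPolynomial.eval c (P t) = 0 := by
  classical
  by_contra hcon
  push Not at hcon
  set I := Ideal.span (Set.range P)
  have hI : I = ⊤ := by
    rw [← Ideal.radical_eq_top, ← MvPolynomial.vanishingIdeal_zeroLocus_eq_radical (K := L) I]
    have he : MvPolynomial.zeroLocus L I = ∅ := by
      rw [MvPolynomial.zeroLocus_span]
      refine Set.eq_empty_of_forall_notMem fun c hc => ?_
      obtain ⟨t, ht⟩ := hcon c
      exact ht (by simpa [MvPolynomial.aeval_eq_eval] using hc (P t) ⟨t, rfl⟩)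
    rw [he, MvPolynomial.vanishingIdeal_empty]
  obtain ⟨q, hq⟩ := Ideal.mem_span_range_iff_exists_fun.1
    (show (1 : MvPolynomial σ L) ∈ I from hI ▸ Submodule.mem_top)
  obtain ⟨b, hb, hbA⟩ := exists_common_denominator_finset hπ
    (Finset.univ.biUnion fun t => (q t).support.image fun d => (q t).coeff d)
  obtain ⟨n, hn⟩ := hA a b ha ha0 hb
  obtain ⟨c, hc⟩ := happ n
  apply hn
  have hq' := congrArg (MvPolynomial.eval fun i => (c i : L)) hq
  rw [map_sum, map_one] at hq'
  have he : b / (a : L) ^ n = ∑ t, (b * MvPolynomial.eval (fun i => (c i : L)) (q t)) *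
      (MvPolynomial.eval (fun i => (c i : L)) (P t) / (a : L) ^ n) := by
    conv_lhs => rw [← mul_one b, ← hq', Finset.mul_sum, Finset.sum_div]
    exact Finset.sum_congr rfl fun t _ => by rw [map_mul]; ring
  rw [he]
  refine sum_mem fun t _ => mul_mem ?_ (hc t)
  rw [MvPolynomial.eval_eq, Finset.mul_sum]
  refine sum_mem fun d hd => ?_
  rw [← mul_assoc]
  exact mul_mem (hbA _ (Finset.mem_biUnion.2
    ⟨t, Finset.mem_univ t, Finset.mem_image.2 ⟨d, hd, rfl⟩⟩)) (prod_mem fun i _ => pow_mem (c i).2 _)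

namespace Model

variable {F Fb : Type*} [Field F] [Field Fb] [Algebra L F] [Algebra k Fb]
variable [IsAlgClosed L] [IsFunctionField L F] [IsAlgClosed k] [IsFunctionField k Fb]
variable {M : Model π F Fb}

theorem mem_rrSpace_pow {K E : Type*} [Field K] [Field E] [Algebra K E] {D : Divisor K E} {f : E}
    (hf : f ∈ riemannRochSpace D) (n : ℕ) : f ^ n ∈ riemannRochSpace (n • D) :=
  mem_rrSpace.2 fun v => ((mem_rrSpace.1 hf v).pow n).mono (by simp)

/-- The first-order term of an `m`-th power deformation lies in the unmultiplied space. -/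
theorem tangent (hM : M.Smooth) {m : ℕ} (hm : (m : k) ≠ 0) {E₁ G : Divisor L F} (hE : 0 ≤ E₁)
    (hG : 0 ≤ G) (hr : divMap hM E₁ = divMap hM G) {f : F} (hf : f ≠ 0)
    (hdiv : divOf L f = m • (E₁ - G)) {ε : L} (hε : ε ≠ 0) {h : F} {hb : Fb}
    (hfh : f = 1 + ε • h) (hh : M.Res h hb) : hb ∈ riemannRochSpace (divMap hM G) := by
  classical
  obtain ⟨p, rfl⟩ : ∃ p, m = p + 1 := ⟨m - 1, by
    rcases m with _ | m
    · simp at hm
    · omega⟩
  have hfG : f ∈ riemannRochSpace ((p + 1) • (G - E₁)) := by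
    rw [mem_rrSpace_iff_divOf hf, hdiv, ← smul_add, sub_add_sub_cancel, sub_self, smul_zero]
  have hdegE : Divisor.degree E₁ = Divisor.degree G := by
    rw [← degree_divMap hM, hr, degree_divMap]
  -- regularity away from the support
  have hhG : h ∈ riemannRochSpace ((p + 1) • G) := by
    have h1 : f - 1 ∈ riemannRochSpace ((p + 1) • G) :=
      Submodule.sub_mem _ (rrSpace_le (nsmul_le_nsmul_right (sub_le_self G hE) _) hfG)
        (one_mem_rrSpace (nsmul_nonneg hG _))
    rw [hfh, add_sub_cancel_left] at h1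
    have := Submodule.smul_mem _ ε⁻¹ h1
    rwa [smul_smul, inv_mul_cancel₀ hε, one_smul] at this
  have hb_off : hb ∈ riemannRochSpace ((p + 1) • divMap hM G) := by
    rw [← map_nsmul]; exact res_mem_rrSpace hM hhG hh
  obtain ⟨n, hn⟩ := M.exists_le_mul (M.bound + Divisor.degree G)
  set H : Divisor L F := G + (n : ℤ) • poleDiv L M.x with hHdef
  have hnD : (0 : Divisor L F) ≤ (n : ℤ) • poleDiv L M.x := fun v => by
    rw [Finsupp.smul_apply, poleDiv_apply, smul_eq_mul]
    exact mul_nonneg (Int.natCast_nonneg _) (le_max_right _ _)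
  have hH : 0 ≤ H := add_nonneg hG hnD
  have hHdeg : M.bound ≤ Divisor.degree (H - G) := by
    rw [hHdef, add_sub_cancel_left, M.degree_poles]
    have := hn n le_rfl
    have := degree_nonneg hG
    omega
  have hHE : M.bound ≤ Divisor.degree (H - E₁) := by
    rw [map_sub] at hHdeg ⊢; omega
  have hbd : rBound k Fb + 1 ≤ M.bound := by rw [bound]; omega
  obtain ⟨ab, hab, -, hexact⟩ := exists_exact_many (G := divMap hM (H - G))
    (by rw [degree_divMap]; omega) (divMap hM G).support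
  obtain ⟨a, ha, har⟩ := (Reduction.mem_image M.surj).1 (image_rrSpace hM hHdeg ▸ hab)
  have hU : M.image (riemannRochSpace (H - E₁)) = riemannRochSpace (divMap hM (H - G)) := by
    rw [image_rrSpace hM hHE, map_sub, map_sub, hr]
  obtain ⟨n₁, n₂, v, w, hvw, hw, hspanU, hspanU'⟩ :=
    M.hasOrth.exists_extend M.surj (rrSpace_le (sub_le_self H hE))
  have hvU : ∀ i, v (.inl i) ∈ riemannRochSpace (H - E₁) := fun i =>
    hspanU ▸ Submodule.subset_span ⟨i, rfl⟩
  have hvU' : ∀ i, v i ∈ riemannRochSpace H := fun i => hspanU' ▸ Submodule.subset_span ⟨i, rfl⟩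
  have himU : ∀ {g : Fb}, g ∈ M.image (riemannRochSpace (H - E₁)) →
      ∃ d : Fin n₁ → k, g = ∑ i, d i • w (.inl i) := fun {g} hg => by
    obtain ⟨u, hu, hur⟩ := (Reduction.mem_image M.surj).1 hg
    obtain ⟨c, -, he⟩ := Reduction.exists_coord_res M.surj (v := v ∘ Sum.inl) (w := w ∘ Sum.inl)
      (fun i => hvw _) (hw.comp _ Sum.inl_injective) (hspanU.symm ▸ hu) hur
    exact ⟨_, he⟩
  have hwU : ∀ (d : Fin n₁ ⊕ Fin n₂ → k),
      ∑ i, d i • w i ∈ M.image (riemannRochSpace (H - E₁)) → ∀ j, d (.inr j) = 0 := by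
    intro d hd j
    obtain ⟨d', hd'⟩ := himU hd
    have h0 : ∑ i, (d i - Sum.elim d' 0 i) • w i = 0 := by
      simp only [sub_smul, Finset.sum_sub_distrib]
      rw [hd', Fintype.sum_sum_type (fun i => Sum.elim d' 0 i • w i)]
      simp
    simpa using Fintype.linearIndependent_iff.1 hw _ h0 (.inr j)
  obtain ⟨c, hac, habc⟩ := Reduction.exists_coord_res M.surj hvw hw
    (hspanU'.symm ▸ rrSpace_le (sub_le_self H hG) ha) har
  have hcr : ∀ j, π (c (.inr j)) = 0 := hwU (fun i => π (c i)) (habc ▸ hU.symm ▸ hab)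
  set aI : F := ∑ i, (c (.inl i) : L) • v (.inl i) with haI
  have haIU : aI ∈ riemannRochSpace (H - E₁) :=
    Submodule.sum_mem _ fun i _ => Submodule.smul_mem _ _ (hvU i)
  have haIr : M.Res aI ab := by
    have h1 : M.Res aI (∑ i, π (c (.inl i)) • w (.inl i)) :=
      Reduction.Res.sum fun i _ => (hvw _).smul _
    rwa [show ab = ∑ i, π (c (.inl i)) • w (.inl i) by
      rw [habc, Fintype.sum_sum_type]; simp [hcr]]
  -- the scaled remainder
  obtain ⟨ρ, b, bb, hab', hbU, hbr, hρ, hbnot⟩ : ∃ (ρ : A) (b : F) (bb : Fb),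
      a = aI + (ρ : L) • b ∧ b ∈ riemannRochSpace H ∧ M.Res b bb ∧ π ρ = 0 ∧
      ((ρ : L) ≠ 0 → bb ∉ M.image (riemannRochSpace (H - E₁))) := by
    by_cases hz : (fun j => (c (.inr j) : L)) = 0
    · refine ⟨0, 0, 0, ?_, Submodule.zero_mem _, M.res_zero, map_zero _, fun h => absurd rfl h⟩
      rw [hac, Fintype.sum_sum_type, haI, smul_zero, add_zero, add_eq_left]
      exact Finset.sum_eq_zero fun j _ => by rw [congrFun hz j, Pi.zero_apply, zero_smul]
    obtain ⟨s, j, hs, hj⟩ := (Reduction.base_total M.surj).exists_scale_family hz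
    let d : Fin n₁ ⊕ Fin n₂ → A := Sum.elim 0 fun i => ⟨s * (c (.inr i) : L), hs i⟩
    refine ⟨c (.inr j), ∑ i, (d i : L) • v i, ∑ i, π (d i) • w i, ?_,
      Submodule.sum_mem _ fun i _ => Submodule.smul_mem _ _ (hvU' i),
      Reduction.Res.sum fun i _ => (hvw i).smul _, hcr j, fun _ hmem => ?_⟩
    · rw [hac, Fintype.sum_sum_type, Fintype.sum_sum_type (fun i => (d i : L) • v i), haI]
      simp only [d, Sum.elim_inl, Sum.elim_inr, Pi.zero_apply, ZeroMemClass.coe_zero, zero_smul,
        Finset.sum_const_zero, zero_add, add_right_inj, Finset.smul_sum, smul_smul]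
      refine Finset.sum_congr rfl fun i _ => ?_
      congr 1
      rw [← mul_assoc, mul_comm (c (.inr j) : L) s, hj, one_mul]
    · have := hwU (fun i => π (d i)) hmem j
      rw [show d (.inr j) = 1 from Subtype.ext hj, map_one] at this
      exact one_ne_zero this
  obtain ⟨z, hz⟩ := exists_pow_add (R := M.O) ⟨aI, haIr.mem⟩
    ⟨(ρ : L) • b, (hbr.smul ρ).mem⟩ (p + 1)
  have hz' : a ^ (p + 1) = aI ^ (p + 1) + ((p + 1 : ℕ) : F) * aI ^ p * ((ρ : L) • b) +
      (z : F) * ((ρ : L) • b) ^ 2 := by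
    have := congrArg Subtype.val hz
    push_cast at this
    rw [hab']
    simpa using this
  set Y : F := f * a ^ (p + 1) - aI ^ (p + 1) with hY
  have hYmem : Y ∈ riemannRochSpace ((p + 1) • (H - E₁)) := by
    refine Submodule.sub_mem _ ?_ (mem_rrSpace_pow haIU _)
    have := mem_rrSpace_mul hfG (mem_rrSpace_pow ha (p + 1))
    rwa [← smul_add, show G - E₁ + (H - G) = H - E₁ by abel] at this
  have hYe : Y = ε • (h * a ^ (p + 1)) + (ρ : L) • (((p + 1 : ℕ) : F) * aI ^ p * b +
      (z : F) * ((ρ : L) • b ^ 2)) := by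
    rw [hY, hfh, add_mul, one_mul, smul_mul_assoc]
    conv_lhs => enter [1, 1]; rw [hz']
    simp only [Algebra.smul_def]
    ring
  have hrY : divMap hM ((p + 1) • (H - E₁)) = (p + 1) • divMap hM (H - G) := by
    rw [map_nsmul, map_sub, map_sub, hr]
  obtain ⟨zb, hzb⟩ := M.exists_res_of_mem z.2
  have hR2 : M.Res (((p + 1 : ℕ) : F) * aI ^ p * b + (z : F) * ((ρ : L) • b ^ 2))
      (((p + 1 : ℕ) : Fb) * ab ^ p * bb) := by
    have h1 : M.Res ((p + 1 : ℕ) : F) ((p + 1 : ℕ) : Fb) := by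
      simpa using M.res_algebraMap ((p + 1 : ℕ) : A)
    have := ((h1.mul (haIr.pow p)).mul hbr).add (hzb.mul ((hbr.pow 2).smul ρ))
    rwa [hρ, zero_smul, mul_zero, add_zero] at this
  -- local consequence at a point of the support
  have hloc : ∀ Q ∈ (divMap hM G).support, ∀ y : Fb,
      ab ^ p * y ∈ riemannRochSpace ((p + 1) • divMap hM (H - G)) →
      OrdGE Q (-divMap hM (H - G) Q) y := by
    intro Q hQ y hy
    have hα := ((exact_iff hab).1 (hexact Q hQ)).2
    have h0 : ab ≠ 0 := (hexact Q hQ).ne_zero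
    have h1 := (ordGE_of_le (show -(p : ℤ) * Q.ord ab ≤ Q.ord ((ab ^ p)⁻¹) by
      rw [Q.ord_inv, ord_pow, neg_mul])).mul (mem_rrSpace.1 hy Q)
    rw [← mul_assoc, inv_mul_cancel₀ (pow_ne_zero _ h0), one_mul, Finsupp.smul_apply,
      nsmul_eq_mul, hα] at h1
    refine h1.mono (le_of_eq ?_)
    push_cast; ring
  by_cases hη : (ρ : L) / ε ∈ A
  · have hres : M.Res (ε⁻¹ • Y) (hb * ab ^ (p + 1) +
        π ⟨_, hη⟩ • (((p + 1 : ℕ) : Fb) * ab ^ p * bb)) := by
      rw [hYe, smul_add, smul_smul, inv_mul_cancel₀ hε, one_smul, smul_smul, inv_mul_eq_div]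
      exact (hh.mul (har.pow _)).add (hR2.smul ⟨_, hη⟩)
    have hmem := res_mem_rrSpace hM (Submodule.smul_mem _ ε⁻¹ hYmem) hres
    rw [hrY, show hb * ab ^ (p + 1) + π ⟨_, hη⟩ • (((p + 1 : ℕ) : Fb) * ab ^ p * bb) =
      ab ^ p * (hb * ab + (π ⟨_, hη⟩ * ((p + 1 : ℕ) : k)) • bb) by
        simp only [Algebra.smul_def, map_mul, map_natCast]; ring] at hmem
    refine mem_rrSpace.2 fun Q => ?_
    by_cases hQ : Q ∈ (divMap hM G).support
    · have h1 := (hloc Q hQ _ hmem).mono (d := -divMap hM H Q) (by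
        have : 0 ≤ divMap hM G Q := divMap_nonneg hM hG Q
        rw [map_sub, Finsupp.sub_apply]; omega)
      have h2 := h1.sub ((mem_rrSpace.1 (res_mem_rrSpace hM hbU hbr) Q).smul
        (π ⟨_, hη⟩ * ((p + 1 : ℕ) : k)))
      rw [add_sub_cancel_right] at h2
      have h0 := (hexact Q hQ).ne_zero
      have h3 := h2.mul (ordGE_of_le (Q.ord_inv ab).ge)
      rw [mul_assoc, mul_inv_cancel₀ h0, mul_one, ((exact_iff hab).1 (hexact Q hQ)).2] at h3
      refine h3.mono ?_
      rw [map_sub, Finsupp.sub_apply]; omega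
    · have h1 := mem_rrSpace.1 hb_off Q
      rw [Finsupp.smul_apply, Finsupp.notMem_support_iff.1 hQ, smul_zero] at h1
      rwa [Finsupp.notMem_support_iff.1 hQ]
  · exfalso
    have hρ0 : (ρ : L) ≠ 0 := fun h => hη (by rw [h, zero_div]; exact zero_mem _)
    have hμ : ε / (ρ : L) ∈ A := by
      rw [← inv_div]; exact (A.mem_or_inv_mem _).resolve_left hη
    have hμ0 : π ⟨_, hμ⟩ = 0 :=
      Reduction.map_eq_zero_of_inv_notMem M.surj (a := ⟨_, hμ⟩) (by rwa [inv_div])
    have hres : M.Res ((ρ : L)⁻¹ • Y) (((p + 1 : ℕ) : Fb) * ab ^ p * bb) := by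
      rw [hYe, smul_add, smul_smul, inv_mul_eq_div, smul_smul, inv_mul_cancel₀ hρ0, one_smul]
      have := ((hh.mul (har.pow (p + 1))).smul ⟨_, hμ⟩).add hR2
      rwa [hμ0, zero_smul, zero_add] at this
    have hmem := res_mem_rrSpace hM (Submodule.smul_mem _ (ρ : L)⁻¹ hYmem) hres
    rw [hrY] at hmem
    have hmem' := Submodule.smul_mem _ ((p + 1 : ℕ) : k)⁻¹ hmem
    rw [show ((p + 1 : ℕ) : k)⁻¹ • (((p + 1 : ℕ) : Fb) * ab ^ p * bb) = ab ^ p * bb by
      rw [mul_assoc, Algebra.smul_def, ← mul_assoc, ← map_natCast (algebraMap k Fb), ← map_mul,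
        inv_mul_cancel₀ hm, map_one, one_mul]] at hmem'
    refine hbnot hρ0 (hU ▸ mem_rrSpace.2 fun Q => ?_)
    by_cases hQ : Q ∈ (divMap hM G).support
    · exact hloc Q hQ bb hmem'
    · have := mem_rrSpace.1 (res_mem_rrSpace hM hbU hbr) Q
      rwa [map_sub, Finsupp.sub_apply, Finsupp.notMem_support_iff.1 hQ, sub_zero]

section Root

variable (hM : M.Smooth) {m : ℕ} (hm : (m : k) ≠ 0) {E₁ G₀ : Divisor L F} (hE : 0 ≤ E₁)
  (hG : 0 ≤ G₀) (hr : divMap hM E₁ = divMap hM G₀) {f : F} (hf0 : f ≠ 0)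
  (hdiv : divOf L f = m • (E₁ - G₀)) {r s : ℕ} {v : Fin r ⊕ Fin s → F} {w : Fin r ⊕ Fin s → Fb}
  (hvw : ∀ i, M.Res (v i) (w i)) (hw : LinearIndependent k w)
  (hV : Submodule.span L (Set.range (v ∘ Sum.inl)) = riemannRochSpace G₀)
  (hGdeg : M.bound ≤ Divisor.degree G₀)

include hM hm hE hG hr hf0 hdiv hvw hw hV hGdeg in
/-- The coordinates outside `L(G₀)` of `f - g ^ m` are dominated by those inside. -/
theorem coords_le {g : F} (hgV : g ∈ riemannRochSpace G₀) (hg1 : M.Res g 1)
    {θ : Fin r ⊕ Fin s → L} (hθ : f - g ^ m = ∑ i, θ i • v i) {η : L} (hη : η ≠ 0)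
    (hl : ∀ i, θ (.inl i) / η ∈ A) : ∀ i, θ i / η ∈ A := by
  classical
  by_contra hcon
  push Not at hcon
  obtain ⟨i₀, hi₀⟩ := hcon
  have hne : θ ≠ 0 := fun h => hi₀ (by rw [h, Pi.zero_apply, zero_div]; exact zero_mem _)
  obtain ⟨s', i, hs, hi⟩ := (Reduction.base_total M.surj).exists_scale_family hne
  have hs' : s' ≠ 0 := left_ne_zero_of_mul_eq_one hi
  have hsη : s' * η ∈ A ∧ ∀ h, π ⟨s' * η, h⟩ = 0 := by
    have hn : (s' * η)⁻¹ ∉ A := fun hmem => hi₀ (by
      have := mul_mem (hs i₀ : s' * θ i₀ ∈ A) hmem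
      rwa [show s' * θ i₀ * (s' * η)⁻¹ = θ i₀ / η by field_simp] at this)
    exact ⟨(A.mem_or_inv_mem _).resolve_right hn,
      fun h => Reduction.map_eq_zero_of_inv_notMem M.surj (a := ⟨_, h⟩) hn⟩
  let d : Fin r ⊕ Fin s → A := fun j => ⟨s' * θ j, hs j⟩
  have hdl : ∀ l, π (d (.inl l)) = 0 := fun l => by
    rw [show d (.inl l) = ⟨s' * η, hsη.1⟩ * ⟨_, hl l⟩ from Subtype.ext (by
      show s' * θ (.inl l) = s' * η * (θ (.inl l) / η); field_simp), map_mul, hsη.2, zero_mul]
  have hres : M.Res (s' • (f - g ^ m)) (∑ j, π (d j) • w j) := by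
    rw [hθ, Finset.smul_sum]
    exact Reduction.Res.sum fun j _ => by rw [smul_smul]; exact (hvw j).smul (d j)
  have hg0 : g ≠ 0 := hg1.ne_zero one_ne_zero
  have hh : M.Res (s' • (f - g ^ m) / g ^ m) (∑ j, π (d j) • w j) := by
    simpa using hres.div (hg1.pow m) (by simp)
  have hZ : 0 ≤ divOf L g + G₀ := (mem_rrSpace_iff_divOf hg0).1 hgV
  have hrZ : divMap hM E₁ = divMap hM (divOf L g + G₀) := by
    rw [map_add, divMap_divOf hM hg1 one_ne_zero, show (1 : Fb) = algebraMap k Fb 1 by simp,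
      divOf_algebraMap, zero_add, hr]
  have hgm : g ^ m ≠ 0 := pow_ne_zero _ hg0
  have hdiv' : divOf L (f / g ^ m) = m • (E₁ - (divOf L g + G₀)) := by
    rw [divOf_div hf0 hgm, hdiv, divOf_pow, ← smul_sub]; congr 1; abel
  have hT := tangent hM hm hE hZ hrZ (div_ne_zero hf0 hgm) hdiv' (inv_ne_zero hs')
    (h := s' • (f - g ^ m) / g ^ m) (by
      rw [← smul_div_assoc, smul_smul, inv_mul_cancel₀ hs', one_smul, sub_div, div_self hgm]
      ring) hh
  rw [← hrZ, hr, ← image_rrSpace hM hGdeg] at hT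
  obtain ⟨u, hu, hur⟩ := (Reduction.mem_image M.surj).1 hT
  obtain ⟨c, -, he⟩ := Reduction.exists_coord_res M.surj (v := v ∘ Sum.inl) (w := w ∘ Sum.inl)
    (fun i => hvw _) (hw.comp _ Sum.inl_injective) (hV.symm ▸ hu) hur
  have h0 : ∑ j, (π (d j) - Sum.elim (fun l => π (c l)) 0 j) • w j = 0 := by
    simp only [sub_smul, Finset.sum_sub_distrib]
    rw [he, Fintype.sum_sum_type (fun j => Sum.elim (fun l => π (c l)) 0 j • w j)]
    simp
  have h1 := Fintype.linearIndependent_iff.1 hw _ h0 i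
  rw [show d i = 1 from Subtype.ext hi, map_one] at h1
  rcases i with l | l
  · exact one_ne_zero ((show π (d (.inl l)) = 1 by
      rw [show d (.inl l) = 1 from Subtype.ext hi, map_one]).symm.trans (hdl l))
  · simp at h1

include hM hm hE hG hr hf0 hdiv hvw hw hV hGdeg in
theorem exists_root (hA : RankOne π) (hf1 : M.Res f 1)
    (hW : Submodule.span L (Set.range v) = riemannRochSpace (m • G₀)) :
    ∃ g : F, g ∈ riemannRochSpace G₀ ∧ g ^ m = f := by
  classical
  obtain ⟨p, rfl⟩ : ∃ p, m = p + 1 := ⟨m - 1, by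
    rcases m with _ | m
    · simp at hm
    · omega⟩
  obtain ⟨u, hu⟩ := exists_inv_natCast M.surj hm
  have hfW : f ∈ riemannRochSpace ((p + 1) • G₀) := by
    rw [mem_rrSpace_iff_divOf hf0, hdiv, ← smul_add, sub_add_cancel]
    exact nsmul_nonneg hE _
  have hvV : ∀ i, v (.inl i) ∈ riemannRochSpace G₀ := fun i =>
    hV ▸ Submodule.subset_span ⟨i, rfl⟩
  have hLI : LinearIndependent L v :=
    Reduction.linearIndependent_of_res (Reduction.compat_base M.surj M.toReduction) hvw
      (Reduction.base_total M.surj) hw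
  have huniq : ∀ θ θ' : Fin r ⊕ Fin s → L, (∑ i, θ i • v i) = ∑ i, θ' i • v i → θ = θ' := by
    intro θ θ' h
    funext i
    have h0 : ∑ i, (θ i - θ' i) • v i = 0 := by
      simp only [sub_smul, Finset.sum_sub_distrib, h, sub_self]
    exact sub_eq_zero.1 (Fintype.linearIndependent_iff.1 hLI _ h0 i)
  have hcoord : ∀ y ∈ riemannRochSpace ((p + 1) • G₀), y ∈ M.O →
      ∃ c : Fin r ⊕ Fin s → A, y = ∑ i, (c i : L) • v i := fun y hy hyO => by
    obtain ⟨c, hc, -⟩ := Reduction.exists_coord_res M.surj hvw hw (hW.symm ▸ hy) (M.res_red hyO)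
    exact ⟨c, hc⟩
  let G : (Fin r → L) → F := fun c => ∑ i, c i • v (.inl i)
  have hGV : ∀ c, G c ∈ riemannRochSpace G₀ := fun c =>
    Submodule.sum_mem _ fun i _ => Submodule.smul_mem _ _ (hvV i)
  -- coordinates of the monomials
  have hΓ : ∀ ψ : Fin (p + 1) → Fin r,
      ∃ c : Fin r ⊕ Fin s → A, ∏ j, v (.inl (ψ j)) = ∑ i, (c i : L) • v i := fun ψ => by
    refine hcoord _ (mem_rrSpace.2 fun Q => ?_) (prod_mem fun j _ => (hvw _).mem)
    have key : ∀ t : Finset (Fin (p + 1)),
        OrdGE Q ((t.card : ℤ) * -G₀ Q) (∏ j ∈ t, v (.inl (ψ j))) := fun t => by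
      induction t using Finset.induction with
      | empty => simpa using ordGE_one Q
      | insert j t hj ih =>
          rw [Finset.prod_insert hj, Finset.card_insert_of_notMem hj]
          refine ((mem_rrSpace.1 (hvV (ψ j)) Q).mul ih).mono (le_of_eq ?_)
          push_cast; ring
    refine (key Finset.univ).mono (le_of_eq ?_)
    simp
  choose Γ hΓ using hΓ
  obtain ⟨φ, hφ⟩ := hcoord f hfW hf1.mem
  let P : Fin r ⊕ Fin s → MvPolynomial (Fin r) L := fun i =>
    MvPolynomial.C (φ i : L) -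
      ∑ ψ : Fin (p + 1) → Fin r, MvPolynomial.C (Γ ψ i : L) * ∏ j, MvPolynomial.X (ψ j)
  have hP : ∀ c, f - G c ^ (p + 1) = ∑ i, MvPolynomial.eval c (P i) • v i := fun c => by
    simp only [P, map_sub, map_sum, map_mul, MvPolynomial.eval_C, map_prod, MvPolynomial.eval_X,
      sub_smul, Finset.sum_sub_distrib, Finset.sum_smul, ← hφ]
    congr 1
    rw [Finset.sum_comm, show G c = ∑ i, c i • v (.inl i) from rfl, Fintype.sum_pow]
    refine Finset.sum_congr rfl fun ψ _ => ?_
    rw [Finset.prod_smul, hΓ, Finset.smul_sum]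
    exact Finset.sum_congr rfl fun i _ => by rw [smul_smul, mul_comm]
  obtain ⟨c₁, hc₁, hc₁'⟩ := Reduction.exists_coord_res M.surj (v := v ∘ Sum.inl)
    (w := w ∘ Sum.inl) (fun i => hvw _) (hw.comp _ Sum.inl_injective)
    (hV.symm ▸ one_mem_rrSpace hG) M.res_one
  obtain ⟨θ, hθ, hθ'⟩ := Reduction.exists_coord_res M.surj hvw hw
    (f := f - 1) (hW.symm ▸ Submodule.sub_mem _ hfW (one_mem_rrSpace (nsmul_nonneg hG _)))
    (hf1.sub M.res_one)
  by_cases hz : (fun i => (θ i : L)) = 0
  · refine ⟨1, one_mem_rrSpace hG, ?_⟩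
    rw [one_pow, eq_comm, ← sub_eq_zero, hθ]
    exact Finset.sum_eq_zero fun i _ => by rw [congrFun hz i, Pi.zero_apply, zero_smul]
  obtain ⟨s', i₁, hs, hi₁⟩ := (Reduction.base_total M.surj).exists_scale_family hz
  set a := θ i₁ with hadef
  have ha : π a = 0 := by
    rw [sub_self] at hθ'
    exact Fintype.linearIndependent_iff.1 hw _ hθ'.symm i₁
  have ha0 : (a : L) ≠ 0 := right_ne_zero_of_mul_eq_one hi₁
  -- successive approximation
  have key : ∀ n : ℕ, ∃ c : Fin r → A, (∃ e ∈ M.O, G (fun i => (c i : L)) = 1 + (a : L) • e) ∧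
      ∃ δ : Fin r ⊕ Fin s → A, f - G (fun i => (c i : L)) ^ (p + 1) =
        (a : L) ^ (n + 1) • ∑ i, (δ i : L) • v i := by
    intro n
    induction n with
    | zero =>
        have h1 : G (fun i => (c₁ i : L)) = 1 := hc₁.symm
        refine ⟨c₁, ⟨0, zero_mem _, by rw [h1, smul_zero, add_zero]⟩,
          fun i => ⟨s' * θ i, hs i⟩, ?_⟩
        rw [h1, one_pow, hθ, zero_add, pow_one, Finset.smul_sum]
        refine Finset.sum_congr rfl fun i _ => ?_
        rw [smul_smul]
        congr 1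
        rw [← mul_assoc, mul_comm (a : L), hi₁, one_mul]
    | succ n ih =>
        obtain ⟨c, ⟨e, he, hGe⟩, δ, hδ⟩ := ih
        set g := G fun i => (c i : L)
        set δV : F := ∑ i, (δ (.inl i) : L) • v (.inl i) with hδV
        set δR : F := ∑ i, (δ (.inr i) : L) • v (.inr i) with hδR
        have hδVO : δV ∈ M.O := (Reduction.Res.sum fun i _ => (hvw (.inl i)).smul (δ (.inl i))).mem
        have hgO : g ∈ M.O := hGe ▸ add_mem (one_mem _)
          (by rw [Algebra.smul_def]; exact mul_mem (M.algebraMap_mem a) he)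
        set E := (a : L) ^ (n + 1) with hEdef
        set c' : Fin r → A := fun i => c i + a ^ (n + 1) * u * δ (.inl i) with hc'
        have hG' : G (fun i => (c' i : L)) = g + (E * u) • δV := by
          simp only [G, g, hc', hδV, Finset.smul_sum, smul_smul, ← Finset.sum_add_distrib, ← add_smul]
          refine Finset.sum_congr rfl fun i _ => ?_
          push_cast
          rfl
        have hy : (E * u) • δV ∈ M.O := by
          rw [Algebra.smul_def]
          exact mul_mem (M.algebraMap_mem (a ^ (n + 1) * u)) hδVO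
        obtain ⟨z, hz⟩ := exists_pow_add (R := M.O) ⟨g, hgO⟩ ⟨_, hy⟩ (p + 1)
        have hz' := congrArg Subtype.val hz
        push_cast at hz'
        obtain ⟨⟨q, hq⟩, hq'⟩ := (Polynomial.evalSubFactor (X ^ p : (↥M.O)[X]) ⟨g, hgO⟩ 1)
        have hgp : g ^ p = 1 + q * ((a : L) • e) := by
          have := congrArg Subtype.val hq'
          simp at this
          rw [hGe, add_sub_cancel_left] at this
          rw [hGe]
          linear_combination this
        -- the new error
        set o : F := -(q * e * δV + (a : L) ^ n • ((u : L) ^ 2 • ((z : F) * δV ^ 2))) with ho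
        have herr : f - G (fun i => (c' i : L)) ^ (p + 1) = E • δR + (E * a) • o := by
          have hd : f - g ^ (p + 1) = E • (δV + δR) := by rw [hδ, Fintype.sum_sum_type]
          have hu' : algebraMap L F ((p + 1 : ℕ) : L) * algebraMap L F (u : L) = 1 := by
            rw [← map_mul, hu, map_one]
          rw [hG', hz', ho, hgp]
          simp only [Algebra.smul_def, map_mul, map_pow, map_natCast, hEdef, Nat.cast_add,
            Nat.cast_one, map_add, map_one] at hd hu' ⊢
          linear_combination hd - (algebraMap L F (a : L)) ^ (n + 1) * δV *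
            (1 + q * (algebraMap L F (a : L) * e)) * hu'
        have hoO : o ∈ M.O := by
          refine neg_mem (add_mem (mul_mem (mul_mem hq he) hδVO) ?_)
          rw [Algebra.smul_def, Algebra.smul_def]
          exact mul_mem (M.algebraMap_mem (a ^ n)) (mul_mem (M.algebraMap_mem (u ^ 2))
            (mul_mem z.2 (pow_mem hδVO 2)))
        have hoU : o ∈ riemannRochSpace ((p + 1) • G₀) := by
          have h1 : (E * a) • o ∈ riemannRochSpace ((p + 1) • G₀) := by
            rw [← add_sub_cancel_left (E • δR) ((E * a) • o), ← herr]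
            refine Submodule.sub_mem _ (Submodule.sub_mem _ hfW (mem_rrSpace_pow (hGV _) _))
              (Submodule.smul_mem _ _ (Submodule.sum_mem _ fun i _ => Submodule.smul_mem _ _
                (hW ▸ Submodule.subset_span ⟨_, rfl⟩)))
          have := Submodule.smul_mem _ (E * a)⁻¹ h1
          rwa [smul_smul, inv_mul_cancel₀ (mul_ne_zero (pow_ne_zero _ ha0) ha0), one_smul] at this
        obtain ⟨ω, hω⟩ := hcoord o hoU hoO
        set θ' : Fin r ⊕ Fin s → L := fun i =>
          E * Sum.elim (0 : Fin r → L) (fun j => (δ (.inr j) : L)) i + E * a * ω i with hθ'def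
        have hθe : f - G (fun i => (c' i : L)) ^ (p + 1) = ∑ i, θ' i • v i := by
          rw [herr, hω, hθ'def]
          simp only [add_smul, Finset.sum_add_distrib, mul_smul, ← Finset.smul_sum]
          congr 2
          rw [Fintype.sum_sum_type]
          simp [hδR]
        have hg'1 : M.Res (G fun i => (c' i : L)) 1 := by
          rw [hG', hGe]
          obtain ⟨eb, heb⟩ := M.exists_res_of_mem he
          obtain ⟨db, hdb⟩ := M.exists_res_of_mem hδVO
          have := (M.res_one.add (heb.smul a)).add (hdb.smul (a ^ (n + 1) * u))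
          simpa [ha] using this
        have hEa : E * (a : L) ≠ 0 := mul_ne_zero (pow_ne_zero _ ha0) ha0
        have hall := coords_le hM hm hE hG hr hf0 hdiv hvw hw hV hGdeg (hGV _) hg'1 hθe hEa
          fun i => by
            simp only [θ', Sum.elim_inl, Pi.zero_apply, mul_zero, zero_add]
            rw [mul_div_cancel_left₀ _ hEa]
            exact (ω _).2
        refine ⟨c', ⟨e + ((a : L) ^ n * u) • δV, add_mem he ?_, ?_⟩, fun i => ⟨_, hall i⟩, ?_⟩
        · rw [Algebra.smul_def]; exact mul_mem (M.algebraMap_mem (a ^ n * u)) hδVO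
        · rw [hG', hGe, smul_add, add_assoc, smul_smul, hEdef, pow_succ']
          congr 3; ring
        · rw [hθe, Finset.smul_sum]
          refine Finset.sum_congr rfl fun i _ => ?_
          rw [smul_smul]
          congr 1
          rw [pow_succ (a : L) (n + 1), ← hEdef]
          show θ' i = E * a * (θ' i / (E * a))
          rw [mul_div_cancel₀ _ hEa]
  obtain ⟨c, hc⟩ := exists_common_zero M.surj hA P ha (fun h => ha0 (by rw [h]; rfl)) fun n => by
    obtain ⟨c, -, δ, hδ⟩ := key n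
    refine ⟨c, fun t => ?_⟩
    rw [hP, Finset.smul_sum] at hδ
    simp only [smul_smul] at hδ
    rw [congrFun (huniq _ _ hδ) t, pow_succ, mul_assoc, mul_div_cancel_left₀ _ (pow_ne_zero _ ha0)]
    exact mul_mem a.2 (δ t).2
  refine ⟨G c, hGV c, (sub_eq_zero.1 ?_).symm⟩
  rw [hP]
  exact Finset.sum_eq_zero fun i _ => by rw [hc, zero_smul]

end Root

/-- A divisor class of order prime to the residue characteristic whose specialisation is trivial
is trivial. -/
theorem isPrincipal_of_divMap (hM : M.Smooth) (hA : RankOne π) {m : ℕ} (hm : (m : k) ≠ 0)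
    {E : Divisor L F} (hE : Divisor.degree E = 0) (hmE : Divisor.IsPrincipal (m • E))
    (hrE : Divisor.IsPrincipal (divMap hM E)) : Divisor.IsPrincipal E := by
  classical
  have hm0 : m ≠ 0 := by rintro rfl; simp at hm
  obtain ⟨hb, hb0, hbdiv⟩ := isPrincipal_iff.1 hrE
  obtain ⟨N, hN⟩ := M.exists_le_mul (M.bound + 1)
  set G₀ := (N : ℤ) • poleDiv L M.x with hG₀
  have hG : 0 ≤ G₀ := fun v => by
    rw [hG₀, Finsupp.smul_apply, poleDiv_apply, smul_eq_mul]
    exact mul_nonneg (Int.natCast_nonneg _) (le_max_right _ _)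
  have hGdeg : M.bound ≤ Divisor.degree G₀ := by
    rw [hG₀, M.degree_poles]; have := hN N le_rfl; omega
  have hmem : hb⁻¹ ∈ M.image (riemannRochSpace (G₀ + E)) := by
    rw [image_rrSpace hM (by rw [map_add, hE]; omega), mem_rrSpace_iff_divOf (inv_ne_zero hb0),
      map_add, hbdiv, show divOf k hb⁻¹ = -divOf k hb from
        Finsupp.ext fun v => by simp [v.ord_inv]]
    have := divMap_nonneg hM hG
    rwa [show -divOf k hb + (divMap hM G₀ + divOf k hb) = divMap hM G₀ by abel]
  obtain ⟨σ, hσ, hσr⟩ := (Reduction.mem_image M.surj).1 hmem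
  have hσ0 : σ ≠ 0 := hσr.ne_zero (inv_ne_zero hb0)
  set E₁ := divOf L σ + (G₀ + E) with hE₁
  have hE₁0 : 0 ≤ E₁ := (mem_rrSpace_iff_divOf hσ0).1 hσ
  have hr : divMap hM E₁ = divMap hM G₀ := by
    rw [hE₁, map_add, map_add, divMap_divOf hM hσr (inv_ne_zero hb0), hbdiv]
    ext v; simp [v.ord_inv]
  obtain ⟨e, he0, hme⟩ := isPrincipal_iff.1 hmE
  set f₀ := σ ^ m * e with hf₀def
  have hf₀ : f₀ ≠ 0 := mul_ne_zero (pow_ne_zero _ hσ0) he0
  have hdf₀ : divOf L f₀ = m • (E₁ - G₀) := by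
    rw [hf₀def, divOf_mul (pow_ne_zero _ hσ0) he0, divOf_pow, ← hme, hE₁, ← smul_add]
    congr 1; abel
  -- normalise
  obtain ⟨c, g, hg, hcg⟩ := M.scaled f₀ hf₀
  have hc0 : c ≠ 0 := by rintro rfl; rw [zero_smul] at hcg; exact hg (hcg.unique M.res_zero)
  have hdc : divOf L (c • f₀) = m • (E₁ - G₀) := by
    rw [Algebra.smul_def, divOf_mul ((_root_.map_ne_zero _).2 hc0) hf₀, divOf_algebraMap, zero_add, hdf₀]
  have hgdiv : divOf k g = 0 := by
    rw [← divMap_divOf hM hcg hg, hdc, map_nsmul, map_sub, hr, sub_self, smul_zero]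
  obtain ⟨α, hα⟩ := eq_algebraMap_of_forall_ord_nonneg (K := k) (f := g) fun v => by
    rw [← divOf_apply (K := k) g v, hgdiv]; rfl
  obtain ⟨β, hβ⟩ := M.surj α⁻¹
  have hα0 : α ≠ 0 := by rintro rfl; exact hg (by rw [hα, map_zero])
  have hf1 : M.Res ((β : L) • c • f₀) 1 := by
    have := hcg.smul β
    rwa [hβ, hα, Algebra.smul_def α⁻¹, ← map_mul, inv_mul_cancel₀ hα0, map_one] at this
  set f := (β : L) • c • f₀ with hfdef
  have hβ0 : (β : L) ≠ 0 := fun h0 => inv_ne_zero hα0 (by
    rw [← hβ, show β = 0 from Subtype.ext h0, map_zero])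
  have hf0 : f ≠ 0 := hf1.ne_zero one_ne_zero
  have hdf : divOf L f = m • (E₁ - G₀) := by
    rw [hfdef, Algebra.smul_def, divOf_mul ((_root_.map_ne_zero _).2 hβ0) (hcg.ne_zero hg),
      divOf_algebraMap, zero_add, hdc]
  obtain ⟨r, s, v, w, hvw, hw, hV, hW⟩ := M.hasOrth.exists_extend M.surj
    (rrSpace_le ((one_nsmul G₀).symm.le.trans (nsmul_le_nsmul_left hG (Nat.one_le_iff_ne_zero.2 hm0))) : riemannRochSpace G₀ ≤ riemannRochSpace (m • G₀))
  obtain ⟨root, -, hroot⟩ := exists_root hM hm hE₁0 hG hr hf0 hdf hvw hw hV hGdeg hA hf1 hW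
  have hroot0 : root ≠ 0 := by
    rintro rfl
    rw [zero_pow hm0] at hroot
    exact hf0 hroot.symm
  have hE' : E₁ - G₀ = divOf L root := Finsupp.ext fun v => by
    have h1 := congrArg (fun D : Divisor L F => D v) hdf
    simp only [← hroot, divOf_pow, Finsupp.smul_apply, nsmul_eq_mul] at h1
    exact (mul_left_cancel₀ (Int.natCast_ne_zero.2 hm0) h1).symm
  refine isPrincipal_iff.2 ⟨root / σ, div_ne_zero hroot0 hσ0, ?_⟩
  rw [divOf_div hroot0 hσ0, ← hE', hE₁]
  abel

end Model

end FLTAgent.Specialization
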