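import Fermat.Agent.ModEq.Bar
import Fermat.Agent.Curves.FunctionField
import Fermat.Prelude.Def_ModularCurve_X0ModL

/-!
# The function field of `X₀(N)` over a field in which `N` is invertible
-/

set_option autoImplicit false
set_option linter.style.haveILetI false

noncomputable section

namespace FLTAgent.Specialization

open AlgebraicCurve FLTAgent.Curves IntermediateField ModularCurve

section General

variable {K Ω : Type*} [Field K] [Field Ω] [Algebra K Ω] {F : IntermediateField K Ω}

/-- The degree over a simple subextension, computed inside the ambient field. -/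
theorem finrank_adjoin_coe (x : F) (h : K⟮(x : Ω)⟯ ≤ F) :
    Module.finrank K⟮x⟯ F = Module.finrank K⟮(x : Ω)⟯ (IntermediateField.extendScalars h) := by
  have hmap : K⟮x⟯.map F.val = K⟮(x : Ω)⟯ := by
    rw [IntermediateField.adjoin_map, Set.image_singleton]; rfl
  let e : K⟮x⟯ ≃ₐ[K] K⟮(x : Ω)⟯ :=
    (K⟮x⟯.equivMap F.val).trans (IntermediateField.equivOfEq hmap)
  let e' : F ≃+* IntermediateField.extendScalars h :=
    { toFun := fun z => ⟨z, z.2⟩, invFun := fun z => ⟨z, z.2⟩, left_inv := fun _ => rfl,
      right_inv := fun _ => rfl, map_mul' := fun _ _ => rfl, map_add' := fun _ _ => rfl }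
  exact Algebra.finrank_eq_of_equiv_equiv e.toRingEquiv e' (RingHom.ext fun _ => rfl)

theorem transcendental_coe {x : F} (hx : Transcendental K (x : Ω)) : Transcendental K x :=
  fun h => hx (h.algebraMap (A := Ω))

end General

variable (K : Type*) [Field K] (N : ℕ) [NeZero N]

theorem transcendental_jq : Transcendental K (jqModC K) := by
  rw [← FLTAgent.ModEq.jAt_one_one]
  exact FLTAgent.ModEq.transcendental_jAt 1 1

theorem jField_le_full {E : IntermediateField K (LaurentSeries K)}
    (hE : E = modularFunctionFieldFullC K N) : K⟮jqModC K⟯ ≤ E := by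
  subst hE
  exact adjoin_simple_le_iff.2 (jqModC_mem_full K N)

/-- `[E : K(j)] = ψ(N)`. -/
theorem finrank_extendScalars_full {E : IntermediateField K (LaurentSeries K)}
    (hE : E = modularFunctionFieldFullC K N) (hN : (N : K) ≠ 0) :
    Module.finrank K⟮jqModC K⟯ (IntermediateField.extendScalars (jField_le_full K N hE)) =
      dedekindPsi N := by
  have h : IntermediateField.extendScalars (jField_le_full K N hE) =
      (K⟮jqModC K⟯)⟮jqNModC K N⟯ := by
    apply IntermediateField.restrictScalars_injective K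
    rw [IntermediateField.extendScalars_restrictScalars, hE,
      FLTAgent.ModEq.modularFunctionFieldFullC_eq N hN,
      FLTAgent.ModEq.modularFunctionFieldC_eq_restrictScalars]
  rw [h]
  exact FLTAgent.ModEq.finrank_jqN N hN

theorem dedekindPsi_pos : 0 < dedekindPsi N := by
  rw [dedekindPsi]
  refine Finset.sum_pos' (fun d _ => Nat.zero_le _) ⟨1, ?_, ?_⟩
  · exact Finset.mem_filter.2 ⟨Nat.mem_divisors.2 ⟨one_dvd N, NeZero.ne N⟩, squarefree_one⟩
  · rw [Nat.div_one]; exact Nat.pos_of_ne_zero (NeZero.ne N)

theorem finrank_jElt {E : IntermediateField K (LaurentSeries K)}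
    (hE : E = modularFunctionFieldFullC K N) (hN : (N : K) ≠ 0) (x : E)
    (hx : (x : LaurentSeries K) = jqModC K) : Module.finrank K⟮x⟯ E = dedekindPsi N := by
  obtain ⟨x, hxE⟩ := x
  replace hx : x = jqModC K := hx
  subst hx
  rw [finrank_adjoin_coe ⟨jqModC K, hxE⟩ (jField_le_full K N hE)]
  exact finrank_extendScalars_full K N hE hN

theorem isFunctionField_full {E : IntermediateField K (LaurentSeries K)}
    (hE : E = modularFunctionFieldFullC K N) (hN : (N : K) ≠ 0) : IsFunctionField K E :=
  IsFunctionField.mk_of (⟨jqModC K, hE ▸ jqModC_mem_full K N⟩ : E)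
    (transcendental_coe (transcendental_jq K))
    (Module.finite_of_finrank_pos (by rw [finrank_jElt K N hE hN _ rfl]; exact dedekindPsi_pos N))

theorem laurentBaseChange_full_eq :
    laurentBaseChange (AlgebraicClosure ℚ) (modularFunctionFieldFull N) =
      modularFunctionFieldFullC (AlgebraicClosure ℚ) N :=
  (FLTAgent.ModEq.modularFunctionFieldBar_eq N).trans
    (FLTAgent.ModEq.modularFunctionFieldFullC_eq N (Nat.cast_ne_zero.2 (NeZero.ne N))).symm

/-! ### Degrees in a tower of levels -/

theorem finrank_tower {N' : ℕ} [NeZero N'] {E E' : IntermediateField K (LaurentSeries K)}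
    (hE : E = modularFunctionFieldFullC K N) (hE' : E' = modularFunctionFieldFullC K N')
    (hN : (N : K) ≠ 0) (hN' : (N' : K) ≠ 0) (h : E ≤ E') :
    letI := (IntermediateField.inclusion h).toRingHom.toAlgebra
    dedekindPsi N * Module.finrank E E' = dedekindPsi N' ∧ FiniteDimensional E E' := by
  letI := (IntermediateField.inclusion h).toRingHom.toAlgebra
  haveI : IsScalarTower K E E' := IsScalarTower.of_algebraMap_eq fun _ => rfl
  set x : E := ⟨jqModC K, hE ▸ jqModC_mem_full K N⟩
  set x' : E' := ⟨jqModC K, hE' ▸ jqModC_mem_full K N'⟩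
  haveI : FiniteDimensional K⟮x'⟯ E' :=
    Module.finite_of_finrank_pos (by rw [finrank_jElt K N' hE' hN' x' rfl]; exact dedekindPsi_pos N')
  have hmap : K⟮x⟯.map (IsScalarTower.toAlgHom K E E') = K⟮x'⟯ := by
    rw [IntermediateField.adjoin_map, Set.image_singleton]; rfl
  let e : K⟮x⟯ ≃ₐ[K] K⟮x'⟯ :=
    (K⟮x⟯.equivMap (IsScalarTower.toAlgHom K E E')).trans (IntermediateField.equivOfEq hmap)
  have h1 : Module.finrank K⟮x⟯ E' = Module.finrank K⟮x'⟯ E' :=
    Algebra.finrank_eq_of_equiv_equiv e.toRingEquiv (RingEquiv.refl E') (RingHom.ext fun _ => rfl)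
  have h2 := Module.finrank_mul_finrank K⟮x⟯ E E'
  rw [h1, finrank_jElt K N hE hN x rfl, finrank_jElt K N' hE' hN' x' rfl] at h2
  refine ⟨h2, Module.finite_of_finrank_pos (Nat.pos_of_ne_zero fun h0 => ?_)⟩
  rw [h0, mul_zero] at h2
  exact (dedekindPsi_pos N').ne h2

end FLTAgent.Specialization
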