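import Fermat.Agent.Specialization.Reduction

/-!
# Lattices: bases with independent reductions in finite-dimensional subspaces
-/

set_option autoImplicit false
set_option linter.style.haveILetI false

noncomputable section

namespace FLTAgent.Specialization

open Polynomial IntermediateField

variable {L k : Type*} [Field L] [Field k] {A : ValuationSubring L} {π : A →+* k}

theorem exists_primitive_family (hπ : Function.Surjective π) {ι : Type*} [Fintype ι]
    (U : Submodule L (ι → L)) :
    ∃ v : Fin (Module.finrank L U) → ι → A, (∀ i, (fun j => (v i j : L)) ∈ U) ∧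
      LinearIndependent k fun i j => π (v i j) := by
  classical
  suffices H : ∀ n, ∀ U : Submodule L (ι → L), Module.finrank L U = n →
      ∃ v : Fin n → ι → A, (∀ i, (fun j => (v i j : L)) ∈ U) ∧
        LinearIndependent k fun i j => π (v i j) from H _ U rfl
  intro n
  induction n with
  | zero => exact fun U _ => ⟨Fin.elim0, fun i => i.elim0, linearIndependent_empty_type⟩
  | succ n ih =>
      intro U hU
      obtain ⟨f, hf, hf0⟩ : ∃ f ∈ U, f ≠ 0 := U.ne_bot_iff.1 fun h => by rw [h, finrank_bot] at hU; omega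
      obtain ⟨s, i, hs, hi⟩ := (Reduction.base_total hπ).exists_scale_family hf0
      let g : ι → A := fun j => ⟨s * f j, hs j⟩
      have hg : (fun j => (g j : L)) ∈ U := U.smul_mem s hf
      have hgi : g i = 1 := Subtype.ext hi
      set U' : Submodule L (ι → L) := U ⊓ LinearMap.ker (LinearMap.proj i) with hU'
      have h1 : U ≤ (L ∙ fun j => (g j : L)) ⊔ U' := fun u hu => by
        rw [← add_sub_cancel (u i • fun j => (g j : L)) u]
        refine Submodule.add_mem_sup (Submodule.smul_mem _ _ (Submodule.mem_span_singleton_self _))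
          ⟨U.sub_mem hu (U.smul_mem _ hg), ?_⟩
        simp [LinearMap.mem_ker, hgi]
      have h2 : U' < U := lt_of_le_of_ne inf_le_left fun h => by
        have : (fun j => (g j : L)) ∈ U' := h ▸ hg
        simpa [hgi, hU', LinearMap.mem_ker] using this.2
      have hn : Module.finrank L U' = n := by
        have h3 := Submodule.finrank_lt_finrank_of_lt h2
        have h4 := (Submodule.finrank_mono h1).trans
          (Submodule.finrank_add_le_finrank_add_finrank _ _)
        have h5 : Module.finrank L (L ∙ fun j => (g j : L)) ≤ 1 := by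
          simpa using finrank_span_le_card (R := L) ({fun j => (g j : L)} : Set (ι → L))
        omega
      obtain ⟨v, hv, hind⟩ := ih U' hn
      refine ⟨Fin.cons g v, fun l => ?_, ?_⟩
      · refine Fin.cases ?_ (fun l => ?_) l
        · simpa using hg
        · simpa using (hv l).1
      · have he : (fun l j => π ((Fin.cons g v : Fin (n + 1) → ι → A) l j)) =
            Fin.cons (fun j => π (g j)) (fun l j => π (v l j)) :=
          funext fun l => Fin.cases (by simp) (fun l => by simp) l
        rw [he, linearIndependent_finCons]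
        refine ⟨hind, fun hmem => ?_⟩
        have hker : Submodule.span k (Set.range fun l j => π (v l j)) ≤
            LinearMap.ker (LinearMap.proj i : (ι → k) →ₗ[k] k) := Submodule.span_le.2 <| by
          rintro _ ⟨l, rfl⟩
          have h : ((v l i : A) : L) = 0 := (hv l).2
          simp [LinearMap.mem_ker, ZeroMemClass.coe_eq_zero.1 h]
        simpa [LinearMap.mem_ker, hgi] using hker hmem

namespace Reduction

variable {F Fb : Type*} [Field F] [Field Fb] [Algebra L F] [Algebra k Fb] {R : Reduction π F Fb}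

/-- Every finite-dimensional subspace has a basis whose reductions are independent. -/
def HasOrth (R : Reduction π F Fb) : Prop :=
  ∀ U : Submodule L F, FiniteDimensional L U →
    ∃ (v : Fin (Module.finrank L U) → F) (w : Fin (Module.finrank L U) → Fb),
      (∀ i, v i ∈ U) ∧ (∀ i, R.Res (v i) (w i)) ∧ LinearIndependent k w

/-- The reduction of a subspace. -/
def image (R : Reduction π F Fb) (U : Submodule L F) : Submodule k Fb :=
  Submodule.span k {g | ∃ f ∈ U, R.Res f g}

theorem mem_image_of_res {U : Submodule L F} {f : F} {g : Fb} (hf : f ∈ U) (h : R.Res f g) :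
    g ∈ R.image U :=
  Submodule.subset_span ⟨f, hf, h⟩

theorem image_mono {U U' : Submodule L F} (h : U ≤ U') : R.image U ≤ R.image U' :=
  Submodule.span_mono fun _ ⟨f, hf, hr⟩ => ⟨f, h hf, hr⟩

theorem image_le {U : Submodule L F} {W : Submodule k Fb}
    (h : ∀ f g, f ∈ U → R.Res f g → g ∈ W) : R.image U ≤ W :=
  Submodule.span_le.2 fun g ⟨f, hf, hr⟩ => h f g hf hr

theorem mem_image (hπ : Function.Surjective π) {U : Submodule L F} {g : Fb} :
    g ∈ R.image U ↔ ∃ f ∈ U, R.Res f g := by
  refine ⟨fun hg => ?_, fun ⟨f, hf, h⟩ => mem_image_of_res hf h⟩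
  refine Submodule.span_induction (fun g hg => hg) ⟨0, U.zero_mem, R.res_zero⟩
    (fun g g' _ _ ⟨f, hf, h⟩ ⟨f', hf', h'⟩ => ⟨f + f', U.add_mem hf hf', h.add h'⟩)
    (fun c g _ ⟨f, hf, h⟩ => ?_) hg
  obtain ⟨a, rfl⟩ := hπ c
  exact ⟨(a : L) • f, U.smul_mem _ hf, h.smul a⟩

section Family

variable (hπ : Function.Surjective π) {ι : Type*} [Fintype ι] {v : ι → F} {w : ι → Fb}
  {U : Submodule L F} (hv : ∀ i, v i ∈ U) (hvw : ∀ i, R.Res (v i) (w i))
  (hw : LinearIndependent k w)

include hπ hv hvw hw in
theorem span_eq_of_card [FiniteDimensional L U] (hc : Module.finrank L U = Fintype.card ι) :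
    Submodule.span L (Set.range v) = U := by
  refine Submodule.eq_of_le_of_finrank_le (Submodule.span_le.2 (by rintro _ ⟨i, rfl⟩; exact hv i)) ?_
  rw [finrank_span_eq_card (linearIndependent_of_res (compat_base hπ R) hvw (base_total hπ) hw), hc]

include hπ hvw hw in
theorem exists_coord_res {f : F} {g : Fb} (hf : f ∈ Submodule.span L (Set.range v))
    (h : R.Res f g) : ∃ c : ι → A, f = ∑ i, (c i : L) • v i ∧ g = ∑ i, π (c i) • w i := by
  obtain ⟨a, rfl⟩ := (Submodule.mem_span_range_iff_exists_fun L).1 hf
  obtain ⟨b, hb, hg⟩ := coord_res (compat_base hπ R) hvw (base_total hπ) hw h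
  exact ⟨fun i => ⟨a i, (hb i).1⟩, rfl,
    hg.trans (Finset.sum_congr rfl fun i _ => congrArg (· • w i) (hb i).2.symm)⟩

include hπ hv hvw hw in
theorem image_eq_span [FiniteDimensional L U] (hc : Module.finrank L U = Fintype.card ι) :
    R.image U = Submodule.span k (Set.range w) := by
  refine le_antisymm (image_le fun f g hf h => ?_)
    (Submodule.span_le.2 (by rintro _ ⟨i, rfl⟩; exact mem_image_of_res (hv i) (hvw i)))
  obtain ⟨c, -, rfl⟩ := exists_coord_res hπ hvw hw (span_eq_of_card hπ hv hvw hw hc ▸ hf) h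
  exact Submodule.sum_mem _ fun i _ => Submodule.smul_mem _ _ (Submodule.subset_span ⟨i, rfl⟩)

end Family

theorem HasOrth.finrank_image (hR : R.HasOrth) (hπ : Function.Surjective π) (U : Submodule L F)
    [FiniteDimensional L U] : Module.finrank k (R.image U) = Module.finrank L U := by
  obtain ⟨v, w, hv, hvw, hw⟩ := hR U inferInstance
  rw [image_eq_span hπ hv hvw hw (Fintype.card_fin _).symm, finrank_span_eq_card hw,
    Fintype.card_fin]

theorem HasOrth.finiteDimensional_image (hR : R.HasOrth) (hπ : Function.Surjective π)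
    (U : Submodule L F) [FiniteDimensional L U] : FiniteDimensional k (R.image U) := by
  obtain ⟨v, w, hv, hvw, hw⟩ := hR U inferInstance
  rw [image_eq_span hπ hv hvw hw (Fintype.card_fin _).symm]
  exact FiniteDimensional.span_of_finite k (Set.finite_range w)

/-- A basis with independent reductions of a subspace extends to one of a larger subspace. -/
theorem HasOrth.exists_extend (hR : R.HasOrth) (hπ : Function.Surjective π)
    {U U' : Submodule L F} (hle : U ≤ U') [FiniteDimensional L U'] :
    ∃ (n s : ℕ) (v : Fin n ⊕ Fin s → F) (w : Fin n ⊕ Fin s → Fb),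
      (∀ i, R.Res (v i) (w i)) ∧ LinearIndependent k w ∧
      Submodule.span L (Set.range (v ∘ Sum.inl)) = U ∧ Submodule.span L (Set.range v) = U' := by
  haveI : FiniteDimensional L U := Submodule.finiteDimensional_of_le hle
  obtain ⟨v₁, w₁, hv₁, hvw₁, hw₁⟩ := hR U inferInstance
  haveI := hR.finiteDimensional_image hπ U'
  obtain ⟨Q, hQ⟩ := exists_isCompl (R.image U)
  set C : Submodule k Fb := Q ⊓ R.image U'
  haveI : FiniteDimensional k C := Submodule.finiteDimensional_of_le inf_le_right
  let b := Module.finBasis k C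
  choose v₂ hv₂ hvw₂ using fun i => (mem_image hπ).1 (b i).2.2
  have him : R.image U = Submodule.span k (Set.range w₁) :=
    image_eq_span hπ hv₁ hvw₁ hw₁ (Fintype.card_fin _).symm
  have hdisj : Disjoint (R.image U) C := hQ.disjoint.mono_right inf_le_left
  have hsup : R.image U ⊔ C = R.image U' := by
    rw [← sup_inf_assoc_of_le Q (image_mono hle), hQ.sup_eq_top, top_inf_eq]
  have hw : LinearIndependent k (Sum.elim w₁ fun i => (b i : Fb)) := by
    refine hw₁.sum_type (b.linearIndependent.map' C.subtype (Submodule.ker_subtype _)) ?_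
    rw [← him]
    exact hdisj.mono_right (Submodule.span_le.2 (by rintro _ ⟨i, rfl⟩; exact (b i).2))
  have hvw : ∀ i, R.Res (Sum.elim v₁ v₂ i) (Sum.elim w₁ (fun i => (b i : Fb)) i) := by
    rintro (i | i)
    exacts [hvw₁ i, hvw₂ i]
  refine ⟨_, _, Sum.elim v₁ v₂, Sum.elim w₁ fun i => (b i : Fb), hvw, hw, ?_, ?_⟩
  · rw [Sum.elim_comp_inl]
    exact span_eq_of_card hπ hv₁ hvw₁ hw₁ (Fintype.card_fin _).symm
  · have hcard : Module.finrank L U + Module.finrank k C = Module.finrank L U' := by
      haveI := hR.finiteDimensional_image hπ U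
      have := Submodule.finrank_sup_add_finrank_inf_eq (R.image U) C
      rw [hsup, hdisj.eq_bot, finrank_bot, hR.finrank_image hπ, hR.finrank_image hπ] at this
      omega
    refine span_eq_of_card hπ ?_ hvw hw (by simp [hcard])
    rintro (i | i)
    exacts [hle (hv₁ i), hv₂ i]

section Line

variable {x : F} {xb : Fb} (hx : R.Res x xb) (hxb : Transcendental k xb)
  {ι : Type*} [Fintype ι] {u : ι → F} {w : ι → Fb} (huw : ∀ i, R.Res (u i) (w i))
  (hw : LinearIndependent k⟮xb⟯ w) (hspan : Submodule.span L⟮x⟯ (Set.range u) = ⊤)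

include hspan in
omit [Field k] [Algebra k Fb] in
theorem exists_denominator (hxL : Transcendental L x) (f : F) :
    ∃ (q : L[X]) (p : ι → L[X]), q ≠ 0 ∧ aeval x q * f = ∑ i, aeval x (p i) * u i := by
  classical
  obtain ⟨a, ha⟩ := (Submodule.mem_span_range_iff_exists_fun _).1
    (hspan ▸ Submodule.mem_top : f ∈ Submodule.span L⟮x⟯ (Set.range u))
  choose p q hpq using fun i => (mem_adjoin_simple_iff L (a i : F)).1 (a i).2
  let q' : ι → L[X] := fun i => if q i = 0 then 1 else q i
  let p' : ι → L[X] := fun i => if q i = 0 then 0 else p i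
  have hq' : ∀ i, q' i ≠ 0 := fun i => by
    simp only [q']; split_ifs with h; exacts [one_ne_zero, h]
  have hpq' : ∀ i, (a i : F) * aeval x (q' i) = aeval x (p' i) := by
    intro i
    by_cases h : q i = 0
    · simp [q', p', h, hpq i]
    · have hne : aeval x (q i) ≠ 0 := fun h0 => hxL ⟨_, h, h0⟩
      simp [q', p', h, hpq i, hne]
  refine ⟨∏ i, q' i, fun i => p' i * ∏ j ∈ Finset.univ.erase i, q' j,
    Finset.prod_ne_zero_iff.2 fun i _ => hq' i, ?_⟩
  rw [← ha, Finset.mul_sum]
  refine Finset.sum_congr rfl fun i _ => ?_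
  rw [IntermediateField.smul_def, smul_eq_mul, map_mul, ← hpq' i,
    ← Finset.mul_prod_erase _ _ (Finset.mem_univ i), map_mul]
  ring

theorem sum_mem_span {N : ℕ} {p : ι → L[X]} (hp : ∀ i, (p i).natDegree ≤ N) :
    ∑ i, aeval x (p i) * u i ∈
      Submodule.span L (Set.range fun z : Fin (N + 1) × ι => x ^ (z.1 : ℕ) * u z.2) := by
  refine Submodule.sum_mem _ fun i _ => ?_
  rw [aeval_eq_sum_range' (Nat.lt_succ_of_le (hp i)), Finset.sum_mul]
  refine Submodule.sum_mem _ fun a ha => ?_
  rw [smul_mul_assoc]
  exact Submodule.smul_mem _ _ (Submodule.subset_span ⟨(⟨a, Finset.mem_range.1 ha⟩, i), rfl⟩)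

include hspan in
theorem exists_common_denominator (hxL : Transcendental L x) (U : Submodule L F)
    [FiniteDimensional L U] :
    ∃ (Q : L[X]) (N : ℕ), Q ≠ 0 ∧ ∀ f ∈ U, aeval x Q * f ∈
      Submodule.span L (Set.range fun z : Fin (N + 1) × ι => x ^ (z.1 : ℕ) * u z.2) := by
  classical
  let b := Module.finBasis L U
  choose q p hq hqp using fun j => exists_denominator hspan hxL (b j : F)
  let P : Fin (Module.finrank L U) → ι → L[X] := fun j i =>
    (∏ l ∈ Finset.univ.erase j, q l) * p j i
  obtain ⟨N, hN⟩ : ∃ N : ℕ, ∀ z : Fin (Module.finrank L U) × ι, (P z.1 z.2).natDegree ≤ N :=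
    (Set.finite_range fun z : Fin (Module.finrank L U) × ι => (P z.1 z.2).natDegree).bddAbove.imp
      fun N hN z => hN (Set.mem_range_self z)
  refine ⟨∏ j, q j, N,
    Finset.prod_ne_zero_iff.2 fun j _ => hq j, fun f hf => ?_⟩
  have hf' : f = ∑ j, b.repr ⟨f, hf⟩ j • (b j : F) := by
    have h := congrArg U.subtype (b.sum_repr ⟨f, hf⟩)
    rw [map_sum] at h
    simp only [map_smul, Submodule.subtype_apply] at h
    exact h.symm
  rw [hf', Finset.mul_sum]
  refine Submodule.sum_mem _ fun j _ => ?_
  rw [mul_smul_comm]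
  refine Submodule.smul_mem _ _ ?_
  have he : aeval x (∏ j, q j) * (b j : F) = ∑ i, aeval x (P j i) * u i := by
    rw [← Finset.mul_prod_erase _ _ (Finset.mem_univ j), map_mul, mul_comm (aeval x (q j)),
      mul_assoc, hqp j, Finset.mul_sum]
    exact Finset.sum_congr rfl fun i _ => by rw [map_mul, mul_assoc]
  rw [he]
  exact sum_mem_span fun i => hN (j, i)

include hx hxb huw hw hspan in
theorem hasOrth_of_basis (hπ : Function.Surjective π) : R.HasOrth := by
  classical
  intro U hU
  have hxL : Transcendental L x := by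
    rintro ⟨p, hp, hp0⟩
    obtain ⟨c, q, -, hq, h⟩ := exists_scale_aeval hx hxb hπ hp
    rw [hp0, smul_zero] at h
    exact hxb ⟨q, hq, h.unique R.res_zero⟩
  obtain ⟨Q, N, hQ0, hQ⟩ := exists_common_denominator hspan hxL U
  obtain ⟨c, Qb, hc, hQb, hres⟩ := exists_scale_aeval hx hxb hπ hQ0
  have hd : aeval xb Qb ≠ 0 := fun h => hxb ⟨_, hQb, h⟩
  let e : Fin (N + 1) × ι → F := fun z => x ^ (z.1 : ℕ) * u z.2
  let eb : Fin (N + 1) × ι → Fb := fun z => xb ^ (z.1 : ℕ) * w z.2
  have hee : ∀ z, R.Res (e z) (eb z) := fun z => (hx.pow _).mul (huw z.2)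
  have hxK : LinearIndependent k
      fun i : Fin (N + 1) => (AdjoinSimple.gen k xb) ^ (i : ℕ) :=
    LinearIndependent.of_comp (k⟮xb⟯.val.toLinearMap)
      (by simpa [Function.comp_def] using linearIndependent_pow_res hxb (N + 1))
  have heb : LinearIndependent k eb := by
    have := linearIndependent_smul hxK hw
    simpa [eb, IntermediateField.smul_def] using this
  have hΦ : Function.Injective (Fintype.linearCombination L e) :=
    linearIndependent_iff_injective_fintypeLinearCombination.1
      (linearIndependent_of_res (compat_base hπ R) hee (base_total hπ) heb)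
  have hμ0 : c • aeval x Q ≠ 0 := hres.ne_zero hd
  have hμ : Function.Injective (LinearMap.mulLeft L (c • aeval x Q)) := mul_right_injective₀ hμ0
  have hrange : U.map (LinearMap.mulLeft L (c • aeval x Q)) ≤
      LinearMap.range (Fintype.linearCombination L e) := by
    rintro _ ⟨f, hf, rfl⟩
    rw [Fintype.range_linearCombination, LinearMap.mulLeft_apply, smul_mul_assoc]
    exact Submodule.smul_mem _ _ (hQ f hf)
  set U₀ := (U.map (LinearMap.mulLeft L (c • aeval x Q))).comap (Fintype.linearCombination L e)
  have hU₀ : Module.finrank L U₀ = Module.finrank L U := by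
    rw [(Submodule.equivMapOfInjective _ hΦ U₀).finrank_eq, Submodule.map_comap_eq,
      inf_eq_right.2 hrange, ← (Submodule.equivMapOfInjective _ hμ U).finrank_eq]
  obtain ⟨v, hv, hind⟩ := exists_primitive_family hπ U₀
  have hlin : LinearIndependent k fun i => ∑ z, π (v i z) • eb z :=
    hind.map' (Fintype.linearCombination k eb) (LinearMap.ker_eq_bot.2
      (linearIndependent_iff_injective_fintypeLinearCombination.1 heb))
  have key : ∀ i, ∃ f ∈ U, R.Res f ((aeval xb Qb)⁻¹ * ∑ z, π (v i z) • eb z) := by
    intro i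
    obtain ⟨f, hf, he⟩ := hv i
    refine ⟨f, hf, ?_⟩
    have h1 : R.Res ((c • aeval x Q) * f) (∑ z, π (v i z) • eb z) := by
      rw [LinearMap.mulLeft_apply, Fintype.linearCombination_apply] at he
      rw [he]
      exact res_sum_smul (compat_base hπ R) hee fun z => base_res hπ (v i z)
    have h2 := (hres.inv hd).mul h1
    rwa [← mul_assoc, inv_mul_cancel₀ hμ0, one_mul] at h2
  choose f hf hres' using key
  refine ⟨fun i => f (Fin.cast hU₀.symm i),
    fun i => (aeval xb Qb)⁻¹ * ∑ z, π (v (Fin.cast hU₀.symm i) z) • eb z,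
    fun i => hf _, fun i => hres' _, ?_⟩
  exact (hlin.map' (LinearMap.mulLeft k (aeval xb Qb)⁻¹)
    (LinearMap.ker_eq_bot.2 (mul_right_injective₀ (inv_ne_zero hd)))).comp _
    (Fin.cast_injective _)

end Line

end Reduction

end FLTAgent.Specialization
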