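import Mathlib

/-!
# Reduction maps of field extensions along a residue map

An abstract reduction of an extension `F / L` along `π : A → k`, with the linear algebra of
families whose reductions are independent (orthonormal families for the Gauss norm).
-/

set_option autoImplicit false

noncomputable section

namespace FLTAgent.Specialization

open Polynomial IntermediateField

variable {L k : Type*} [Field L] [Field k] {A : ValuationSubring L}

/-- A reduction of `F / L` to `Fb / k` along `π`: a subring with a homomorphism to `Fb`, whose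
elements with nonzero image are units. -/
structure Reduction (π : A →+* k) (F Fb : Type*) [Field F] [Field Fb] [Algebra L F]
    [Algebra k Fb] where
  O : Subring F
  red : O →+* Fb
  algebraMap_mem : ∀ a : A, algebraMap L F a ∈ O
  red_algebraMap : ∀ a : A, red ⟨algebraMap L F a, algebraMap_mem a⟩ = algebraMap k Fb (π a)
  inv_mem : ∀ f : O, red f ≠ 0 → (f : F)⁻¹ ∈ O

namespace Reduction

variable {π : A →+* k} {F Fb : Type*} [Field F] [Field Fb] [Algebra L F] [Algebra k Fb]

/-- `f` reduces to `g`. -/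
def Res (R : Reduction π F Fb) (f : F) (g : Fb) : Prop := ∃ h : f ∈ R.O, R.red ⟨f, h⟩ = g

variable {R : Reduction π F Fb} {f f' : F} {g g' : Fb}

theorem Res.mem (h : R.Res f g) : f ∈ R.O := h.1

theorem Res.unique (h : R.Res f g) (h' : R.Res f g') : g = g' := h.2.symm.trans h'.2

theorem res_red (R : Reduction π F Fb) {f : F} (h : f ∈ R.O) : R.Res f (R.red ⟨f, h⟩) := ⟨h, rfl⟩

theorem exists_res_of_mem (R : Reduction π F Fb) {f : F} (h : f ∈ R.O) : ∃ g, R.Res f g :=
  ⟨_, R.res_red h⟩

theorem res_zero (R : Reduction π F Fb) : R.Res 0 0 := ⟨zero_mem _, map_zero _⟩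

theorem res_one (R : Reduction π F Fb) : R.Res 1 1 := ⟨one_mem _, map_one _⟩

theorem Res.add (h : R.Res f g) (h' : R.Res f' g') : R.Res (f + f') (g + g') :=
  ⟨add_mem h.1 h'.1, by rw [← h.2, ← h'.2, ← map_add]; rfl⟩

theorem Res.neg (h : R.Res f g) : R.Res (-f) (-g) :=
  ⟨neg_mem h.1, by rw [← h.2, ← map_neg]; rfl⟩

theorem Res.sub (h : R.Res f g) (h' : R.Res f' g') : R.Res (f - f') (g - g') := by
  simpa [sub_eq_add_neg] using h.add h'.neg

theorem Res.mul (h : R.Res f g) (h' : R.Res f' g') : R.Res (f * f') (g * g') :=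
  ⟨mul_mem h.1 h'.1, by rw [← h.2, ← h'.2, ← map_mul]; rfl⟩

theorem Res.pow (h : R.Res f g) (n : ℕ) : R.Res (f ^ n) (g ^ n) :=
  ⟨pow_mem h.1 n, by rw [← h.2, ← map_pow]; rfl⟩

theorem Res.sum {ι : Type*} {s : Finset ι} {a : ι → F} {b : ι → Fb}
    (h : ∀ i ∈ s, R.Res (a i) (b i)) : R.Res (∑ i ∈ s, a i) (∑ i ∈ s, b i) := by
  classical
  induction s using Finset.induction with
  | empty => simpa using R.res_zero
  | insert i s hi ih =>
      rw [Finset.sum_insert hi, Finset.sum_insert hi]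
      exact (h i (Finset.mem_insert_self i s)).add (ih fun j hj => h j (Finset.mem_insert_of_mem hj))

theorem res_algebraMap (R : Reduction π F Fb) (a : A) :
    R.Res (algebraMap L F a) (algebraMap k Fb (π a)) :=
  ⟨R.algebraMap_mem a, R.red_algebraMap a⟩

theorem Res.smul (h : R.Res f g) (a : A) : R.Res ((a : L) • f) (π a • g) := by
  rw [Algebra.smul_def, Algebra.smul_def]
  exact (R.res_algebraMap a).mul h

theorem Res.ne_zero (h : R.Res f g) (hg : g ≠ 0) : f ≠ 0 := by
  rintro rfl
  exact hg (h.unique R.res_zero)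

theorem Res.inv (h : R.Res f g) (hg : g ≠ 0) : R.Res f⁻¹ g⁻¹ := by
  have hm : f⁻¹ ∈ R.O := R.inv_mem ⟨f, h.1⟩ (by rw [h.2]; exact hg)
  refine ⟨hm, eq_inv_of_mul_eq_one_left ?_⟩
  have h1 := (R.res_red hm).mul h
  rw [inv_mul_cancel₀ (h.ne_zero hg)] at h1
  exact h1.unique R.res_one

theorem Res.div (h : R.Res f g) (h' : R.Res f' g') (hg : g' ≠ 0) :
    R.Res (f / f') (g / g') := by
  rw [div_eq_mul_inv, div_eq_mul_inv]
  exact h.mul (h'.inv hg)

/-- Every element or its inverse is integral; inverses of non-integral elements reduce to zero. -/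
def Total (R : Reduction π F Fb) : Prop := ∀ f : F, f ∈ R.O ∨ R.Res f⁻¹ 0

/-- Every nonzero element has a constant multiple with nonzero reduction. -/
def Scaled (R : Reduction π F Fb) : Prop :=
  ∀ f : F, f ≠ 0 → ∃ (c : L) (g : Fb), g ≠ 0 ∧ R.Res (c • f) g

theorem Total.inv_mem_of_not_res (hR : R.Total) (h : ¬ R.Res f 0) : f⁻¹ ∈ R.O := by
  rcases hR f with hm | h0
  · refine R.inv_mem ⟨f, hm⟩ fun h0 => h ⟨hm, h0⟩
  · exact h0.mem

theorem Total.exists_max (hR : R.Total) {ι : Type*} (s : Finset ι) (c : ι → F)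
    (h : ∃ i ∈ s, c i ≠ 0) : ∃ i ∈ s, c i ≠ 0 ∧ ∀ j ∈ s, c j / c i ∈ R.O := by
  classical
  induction s using Finset.induction with
  | empty => simp at h
  | insert a s ha ih =>
      by_cases hs : ∃ i ∈ s, c i ≠ 0
      swap
      · push Not at hs
        obtain ⟨i, hi, hci⟩ := h
        rcases Finset.mem_insert.1 hi with rfl | hi
        · refine ⟨i, Finset.mem_insert_self _ _, hci, fun j hj => ?_⟩
          rcases Finset.mem_insert.1 hj with rfl | hj
          · rw [div_self hci]; exact one_mem _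
          · rw [hs j hj, zero_div]; exact zero_mem _
        · exact absurd (hs i hi) hci
      obtain ⟨i, hi, hci, hmax⟩ := ih hs
      rcases hR (c a / c i) with hm | hm
      · refine ⟨i, Finset.mem_insert_of_mem hi, hci, fun j hj => ?_⟩
        rcases Finset.mem_insert.1 hj with rfl | hj
        · exact hm
        · exact hmax j hj
      · have hm' : c i / c a ∈ R.O := by rw [← inv_div]; exact hm.mem
        rcases eq_or_ne (c a) 0 with h0 | h0
        · refine ⟨i, Finset.mem_insert_of_mem hi, hci, fun j hj => ?_⟩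
          rcases Finset.mem_insert.1 hj with rfl | hj
          · rw [h0, zero_div]; exact zero_mem _
          · exact hmax j hj
        refine ⟨a, Finset.mem_insert_self _ _, h0, fun j hj => ?_⟩
        rcases Finset.mem_insert.1 hj with rfl | hj
        · rw [div_self h0]; exact one_mem _
        · rw [show c j / c a = c j / c i * (c i / c a) by field_simp]
          exact mul_mem (hmax j hj) hm'

theorem Total.exists_scale_family (hR : R.Total) {ι : Type*} [Fintype ι] {c : ι → F}
    (h : c ≠ 0) : ∃ (s : F) (i : ι), (∀ j, s * c j ∈ R.O) ∧ s * c i = 1 := by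
  obtain ⟨i, hi⟩ := Function.ne_iff.1 h
  obtain ⟨i, -, hci, hmax⟩ := hR.exists_max Finset.univ c ⟨i, Finset.mem_univ i, hi⟩
  exact ⟨(c i)⁻¹, i, fun j => by rw [mul_comm, ← div_eq_mul_inv]; exact hmax j (Finset.mem_univ j),
    inv_mul_cancel₀ hci⟩

section Base

/-- The reduction of the constants themselves. -/
def base (π : A →+* k) (hπ : Function.Surjective π) : Reduction π L k where
  O := A.toSubring
  red := π
  algebraMap_mem a := a.2
  red_algebraMap a := rfl
  inv_mem a ha := by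
    by_contra hna
    apply ha
    have hker : RingHom.ker π = IsLocalRing.maximalIdeal A :=
      IsLocalRing.eq_maximalIdeal (RingHom.ker_isMaximal_of_surjective π hπ)
    have hmem : (a : A) ∈ IsLocalRing.maximalIdeal A := by
      refine (IsLocalRing.mem_maximalIdeal (R := A) _).2 fun hu => ?_
      obtain ⟨b, hb⟩ := isUnit_iff_exists_inv.1 hu
      have hb' : (a : L) * b = 1 := congrArg Subtype.val hb
      exact hna (by rw [inv_eq_of_mul_eq_one_right hb']; exact b.2)
    rwa [← hker, RingHom.mem_ker] at hmem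

variable (hπ : Function.Surjective π)

theorem base_res_iff {c : L} {d : k} : (base π hπ).Res c d ↔ ∃ h : c ∈ A, π ⟨c, h⟩ = d := Iff.rfl

theorem base_res (a : A) : (base π hπ).Res (a : L) (π a) := ⟨a.2, rfl⟩

include hπ in
theorem map_eq_zero_of_inv_notMem {a : A} (h : (a : L)⁻¹ ∉ A) : π a = 0 := by
  by_contra ha
  exact h ((base π hπ).inv_mem a ha)

theorem base_total : (base π hπ).Total := by
  intro c
  by_cases hc : c ∈ A
  · exact Or.inl hc
  · have hci : c⁻¹ ∈ A := (A.mem_or_inv_mem c).resolve_left hc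
    exact Or.inr ⟨hci, map_eq_zero_of_inv_notMem hπ (a := ⟨c⁻¹, hci⟩) (by rwa [inv_inv])⟩

theorem base_scaled : (base π hπ).Scaled := fun c hc => ⟨c⁻¹, 1, one_ne_zero, by
  rw [smul_eq_mul, inv_mul_cancel₀ hc]; exact (base π hπ).res_one⟩

end Base

section Compat

variable {K Kb : Type*} [Field K] [Field Kb] [Algebra L K] [Algebra k Kb]

/-- Two reductions agree along an embedding of fields. -/
def Compat (R₁ : Reduction π K Kb) (R : Reduction π F Fb) [Algebra K F] [Algebra Kb Fb] : Prop :=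
  ∀ a b, R₁.Res a b → R.Res (algebraMap K F a) (algebraMap Kb Fb b)

theorem compat_base (hπ : Function.Surjective π) (R : Reduction π F Fb) :
    (base π hπ).Compat R := by
  rintro a b ⟨ha, rfl⟩
  exact R.res_algebraMap ⟨a, ha⟩

variable [Algebra K F] [Algebra Kb Fb] {R₁ : Reduction π K Kb}
variable (hc : R₁.Compat R) {ι : Type*} [Fintype ι] {v : ι → F} {w : ι → Fb}
  (hvw : ∀ i, R.Res (v i) (w i))

include hc hvw in
theorem res_sum_smul {a : ι → K} {b : ι → Kb} (hab : ∀ i, R₁.Res (a i) (b i)) :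
    R.Res (∑ i, a i • v i) (∑ i, b i • w i) := by
  simp only [Algebra.smul_def]
  exact Res.sum fun i _ => (hc _ _ (hab i)).mul (hvw i)

variable (hT : R₁.Total) (hw : LinearIndependent Kb w)

include hc hvw hT hw in
theorem exists_scale_sum {a : ι → K} (ha : a ≠ 0) :
    ∃ (s : K) (b : ι → Kb) (i : ι), s * a i = 1 ∧ (∀ j, R₁.Res (s * a j) (b j)) ∧
      (∑ j, b j • w j) ≠ 0 ∧ R.Res (s • ∑ j, a j • v j) (∑ j, b j • w j) := by
  obtain ⟨s, i, hs, hi⟩ := hT.exists_scale_family ha
  choose b hb using fun j => R₁.exists_res_of_mem (hs j)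
  refine ⟨s, b, i, hi, hb, fun h0 => ?_, ?_⟩
  · have h1 : R₁.Res (s * a i) 1 := hi ▸ R₁.res_one
    exact one_ne_zero ((h1.unique (hb i)).trans (Fintype.linearIndependent_iff.1 hw b h0 i))
  · have := res_sum_smul hc hvw hb
    rwa [Finset.smul_sum, Finset.sum_congr rfl fun j _ => smul_smul s (a j) (v j)]

include hc hvw hT hw in
theorem linearIndependent_of_res : LinearIndependent K v := by
  rw [Fintype.linearIndependent_iff]
  intro a ha
  by_contra hne
  push Not at hne
  obtain ⟨s, b, i, -, -, hb, h⟩ := exists_scale_sum hc hvw hT hw (a := a)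
    (Function.ne_iff.2 hne)
  rw [ha, smul_zero] at h
  exact hb (h.unique R.res_zero)

include hc hvw hT hw in
theorem coord_mem {a : ι → K} (h : ∑ i, a i • v i ∈ R.O) (i : ι) : a i ∈ R₁.O := by
  by_cases ha : a = 0
  · rw [ha]; exact zero_mem _
  obtain ⟨s, b, j, hj, hab, hb, h'⟩ := exists_scale_sum hc hvw hT hw ha
  by_cases hs : R₁.Res s 0
  · exfalso
    have h1 := (hc _ _ hs).mul (R.res_red h)
    rw [map_zero, zero_mul, ← Algebra.smul_def] at h1
    exact hb (h'.unique h1)
  · have hs' := hT.inv_mem_of_not_res hs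
    have hs0 : s ≠ 0 := left_ne_zero_of_mul_eq_one hj
    rw [show a i = s⁻¹ * (s * a i) by rw [← mul_assoc, inv_mul_cancel₀ hs0, one_mul]]
    exact mul_mem hs' (hab i).mem

include hc hvw hT hw in
theorem coord_res {a : ι → K} (h : R.Res (∑ i, a i • v i) g) :
    ∃ b : ι → Kb, (∀ i, R₁.Res (a i) (b i)) ∧ g = ∑ i, b i • w i := by
  choose b hb using fun i => R₁.exists_res_of_mem (coord_mem hc hvw hT hw h.mem i)
  exact ⟨b, hb, h.unique (res_sum_smul hc hvw hb)⟩

include hc hvw hT hw in
theorem exists_scale_of_mem_span {f : F} (hf : f ∈ Submodule.span K (Set.range v)) (hf0 : f ≠ 0) :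
    ∃ (s : K) (g : Fb), g ≠ 0 ∧ R.Res (s • f) g := by
  obtain ⟨a, rfl⟩ := (Submodule.mem_span_range_iff_exists_fun K).1 hf
  obtain ⟨s, b, i, -, -, hb, h⟩ := exists_scale_sum hc hvw hT hw (a := a) fun h0 =>
    hf0 (by simp [h0])
  exact ⟨s, _, hb, h⟩

include hc hvw hT hw in
theorem scaled_of_span [IsScalarTower L K F] (hS : R₁.Scaled)
    (hspan : Submodule.span K (Set.range v) = ⊤) : R.Scaled := by
  intro f hf0
  obtain ⟨a, rfl⟩ := (Submodule.mem_span_range_iff_exists_fun K).1
    (hspan ▸ Submodule.mem_top : f ∈ Submodule.span K (Set.range v))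
  obtain ⟨s, b, i, hi, -, hb, h⟩ := exists_scale_sum hc hvw hT hw (a := a) fun h0 =>
    hf0 (by simp [h0])
  obtain ⟨c, e, he, hce⟩ := hS (a i) (right_ne_zero_of_mul_eq_one hi)
  refine ⟨c, _, mul_ne_zero ((map_ne_zero (algebraMap Kb Fb)).2 he) hb, ?_⟩
  have h2 := (hc _ _ hce).mul h
  rwa [← Algebra.smul_def, smul_assoc, smul_smul, mul_comm, hi, one_smul] at h2

end Compat

theorem Scaled.total (hπ : Function.Surjective π) (hR : R.Scaled) : R.Total := by
  intro f
  rcases eq_or_ne f 0 with rfl | hf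
  · exact Or.inl (zero_mem _)
  obtain ⟨c, g, hg, h⟩ := hR f hf
  have hc0 : c ≠ 0 := by rintro rfl; rw [zero_smul] at h; exact hg (h.unique R.res_zero)
  by_cases hc : (base π hπ).Res c 0
  · refine Or.inr ?_
    have h1 := (compat_base hπ R c 0 hc).mul (h.inv hg)
    rw [map_zero, zero_mul] at h1
    rwa [Algebra.smul_def, mul_inv, ← mul_assoc,
      mul_inv_cancel₀ ((map_ne_zero (algebraMap L F)).2 hc0), one_mul] at h1
  · refine Or.inl ?_
    have hci : c⁻¹ ∈ A := (base_total hπ).inv_mem_of_not_res hc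
    have := (h.smul ⟨c⁻¹, hci⟩).mem
    rwa [smul_smul, inv_mul_cancel₀ hc0, one_smul] at this

/-- The reduction of an intermediate field. -/
def restrict (R : Reduction π F Fb) (K₁ : IntermediateField L F) (Kb₁ : IntermediateField k Fb)
    (h : ∀ f ∈ K₁, ∀ g, R.Res f g → g ∈ Kb₁) : Reduction π K₁ Kb₁ where
  O := R.O.comap (algebraMap K₁ F)
  red :=
    { toFun := fun f => ⟨R.red ⟨algebraMap K₁ F f, f.2⟩, h _ f.1.2 _ (R.res_red f.2)⟩
      map_one' := Subtype.ext (R.res_red (f := ((1 : K₁) : F)) (one_mem R.O) |>.unique R.res_one)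
      map_zero' := Subtype.ext (R.res_red (f := ((0 : K₁) : F)) (zero_mem R.O) |>.unique R.res_zero)
      map_add' := fun a b => Subtype.ext (map_add R.red ⟨(a.1 : F), a.2⟩ ⟨(b.1 : F), b.2⟩)
      map_mul' := fun a b => Subtype.ext (map_mul R.red ⟨(a.1 : F), a.2⟩ ⟨(b.1 : F), b.2⟩) }
  algebraMap_mem a := R.algebraMap_mem a
  red_algebraMap a := Subtype.ext (R.red_algebraMap a)
  inv_mem f hf := R.inv_mem ⟨algebraMap K₁ F f, f.2⟩ fun h0 => hf (Subtype.ext h0)

theorem restrict_res_iff {K₁ : IntermediateField L F} {Kb₁ : IntermediateField k Fb}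
    {h : ∀ f ∈ K₁, ∀ g, R.Res f g → g ∈ Kb₁} {a : K₁} {b : Kb₁} :
    (R.restrict K₁ Kb₁ h).Res a b ↔ R.Res (a : F) (b : Fb) :=
  ⟨fun ⟨h1, h2⟩ => ⟨h1, congrArg Subtype.val h2⟩, fun ⟨h1, h2⟩ => ⟨h1, Subtype.ext h2⟩⟩

theorem compat_restrict (K₁ : IntermediateField L F) (Kb₁ : IntermediateField k Fb)
    (h : ∀ f ∈ K₁, ∀ g, R.Res f g → g ∈ Kb₁) : (R.restrict K₁ Kb₁ h).Compat R :=
  fun _ _ hab => restrict_res_iff.1 hab

section Line

variable {x : F} {xb : Fb} (hx : R.Res x xb) (hxb : Transcendental k xb)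

include hx in
theorem res_aeval (p : A[X]) :
    R.Res (aeval x (p.map A.subtype)) (aeval xb (p.map π)) := by
  induction p using Polynomial.induction_on' with
  | add p q hp hq => simpa using hp.add hq
  | monomial n a =>
      simp only [map_monomial, aeval_monomial, ← Algebra.smul_def]
      exact (hx.pow n).smul a

include hxb in
theorem linearIndependent_pow_res (n : ℕ) :
    LinearIndependent k fun i : Fin n => xb ^ (i : ℕ) := by
  rw [Fintype.linearIndependent_iff]
  intro c hc i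
  set p : k[X] := ∑ j : Fin n, Polynomial.C (c j) * X ^ (j : ℕ) with hp
  have hp0 : p = 0 := not_not.1 fun h => hxb ⟨p, h, by simpa [hp, Algebra.smul_def] using hc⟩
  have h := congrArg (fun q : k[X] => q.coeff (i : ℕ)) hp0
  simp only [hp, finsetSum_coeff, coeff_C_mul_X_pow, coeff_zero] at h
  rwa [Finset.sum_eq_single i (fun j _ hj => if_neg fun e => hj (Fin.ext e.symm))
    (fun h => absurd (Finset.mem_univ i) h), if_pos rfl] at h

theorem aeval_eq_sum_fin {S : Type*} [CommRing S] {E : Type*} [CommRing E] [Algebra S E] (y : E)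
    (p : S[X]) : aeval y p = ∑ i : Fin (p.natDegree + 1), p.coeff i • y ^ (i : ℕ) :=
  (aeval_eq_sum_range y).trans
    (Fin.sum_univ_eq_sum_range (fun i => p.coeff i • y ^ i) (p.natDegree + 1)).symm

theorem exists_polynomial_of_sum {n : ℕ} (b : Fin (n + 1) → k) :
    ∃ q : k[X], q.natDegree ≤ n ∧ aeval xb q = ∑ i, b i • xb ^ (i : ℕ) := by
  refine ⟨∑ i : Fin (n + 1), Polynomial.C (b i) * X ^ (i : ℕ), ?_, by simp [Algebra.smul_def]⟩
  refine natDegree_sum_le_of_forall_le _ _ fun i _ => ?_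
  exact (natDegree_C_mul_X_pow_le _ _).trans (Nat.lt_succ_iff.1 i.2)

include hx hxb in
theorem exists_scale_aeval (hπ : Function.Surjective π) {p : L[X]} (hp : p ≠ 0) :
    ∃ (c : L) (q : k[X]), c ≠ 0 ∧ q ≠ 0 ∧ R.Res (c • aeval x p) (aeval xb q) := by
  obtain ⟨s, b, i, hi, -, hb, h⟩ := exists_scale_sum (compat_base hπ R)
    (fun i : Fin (p.natDegree + 1) => hx.pow i) (base_total hπ) (linearIndependent_pow_res hxb _)
    (a := fun i => p.coeff i) fun h0 => hp (leadingCoeff_eq_zero.1
      (congrFun h0 (Fin.last p.natDegree)))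
  obtain ⟨q, -, hq⟩ := exists_polynomial_of_sum (xb := xb) b
  refine ⟨s, q, left_ne_zero_of_mul_eq_one hi, fun h0 => hb ?_, ?_⟩
  · rw [← hq, h0, map_zero]
  · rwa [hq, aeval_eq_sum_fin x p]

include hx hxb in
theorem res_of_aeval_mem (hπ : Function.Surjective π) {p : L[X]} (h : aeval x p ∈ R.O) :
    ∃ q : k[X], q.natDegree ≤ p.natDegree ∧ R.Res (aeval x p) (aeval xb q) := by
  obtain ⟨g, h'⟩ := R.exists_res_of_mem h
  have h'' := h'
  rw [aeval_eq_sum_fin x p] at h''
  obtain ⟨b, -, hg⟩ := coord_res (compat_base hπ R) (fun i : Fin (p.natDegree + 1) => hx.pow i)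
    (base_total hπ) (linearIndependent_pow_res hxb _) h''
  obtain ⟨q, hq1, hq2⟩ := exists_polynomial_of_sum (xb := xb) b
  exact ⟨q, hq1, by rw [hq2, ← hg]; exact h'⟩

include hx hxb in
theorem exists_scale_adjoin (hπ : Function.Surjective π) {r : F} (hr : r ∈ L⟮x⟯) (hr0 : r ≠ 0) :
    ∃ (c : L) (g : Fb), g ≠ 0 ∧ g ∈ k⟮xb⟯ ∧ R.Res (c • r) g := by
  obtain ⟨p, q, rfl⟩ := (mem_adjoin_simple_iff L r).1 hr
  have hp : p ≠ 0 := by rintro rfl; simp at hr0
  have hq : q ≠ 0 := by rintro rfl; simp at hr0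
  obtain ⟨c, p', hc, hp', h⟩ := exists_scale_aeval hx hxb hπ hp
  obtain ⟨d, q', hd, hq', h'⟩ := exists_scale_aeval hx hxb hπ hq
  have hne : ∀ {q : k[X]}, q ≠ 0 → aeval xb q ≠ 0 := fun hq h => hxb ⟨_, hq, h⟩
  refine ⟨c / d, aeval xb p' / aeval xb q', div_ne_zero (hne hp') (hne hq'),
    div_mem ((mem_adjoin_simple_iff k _).2 ⟨p', 1, by simp⟩)
      ((mem_adjoin_simple_iff k _).2 ⟨q', 1, by simp⟩), ?_⟩
  have := h.div h' (hne hq')
  rw [Algebra.smul_def, Algebra.smul_def] at this
  rwa [Algebra.smul_def, map_div₀, div_mul_div_comm]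

include hx hxb in
theorem res_mem_adjoin (hπ : Function.Surjective π) {r : F} (hr : r ∈ L⟮x⟯) {g : Fb}
    (h : R.Res r g) : g ∈ k⟮xb⟯ := by
  rcases eq_or_ne r 0 with rfl | hr0
  · rw [h.unique R.res_zero]; exact zero_mem _
  obtain ⟨c, g', hg', hg'm, h'⟩ := exists_scale_adjoin hx hxb hπ hr hr0
  by_cases hc : (base π hπ).Res c 0
  · have h1 := (compat_base hπ R c 0 hc).mul h
    rw [map_zero, zero_mul, ← Algebra.smul_def] at h1
    exact absurd (h'.unique h1) hg'
  · have hci : c⁻¹ ∈ A := (base_total hπ).inv_mem_of_not_res hc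
    have hc0 : c ≠ 0 := by rintro rfl; exact hc (base π hπ).res_zero
    have h1 := h'.smul ⟨c⁻¹, hci⟩
    rw [smul_smul, inv_mul_cancel₀ hc0, one_smul] at h1
    rw [h.unique h1]
    exact IntermediateField.smul_mem _ hg'm

/-- The reduction of the line with coordinate `x`. -/
def lineReduction (hπ : Function.Surjective π) : Reduction π L⟮x⟯ k⟮xb⟯ :=
  R.restrict _ _ fun _ hf _ hg => res_mem_adjoin hx hxb hπ hf hg

theorem lineReduction_compat (hπ : Function.Surjective π) :
    (lineReduction hx hxb hπ).Compat R :=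
  compat_restrict _ _ _

theorem lineReduction_scaled (hπ : Function.Surjective π) :
    (lineReduction hx hxb hπ).Scaled := fun r hr => by
  obtain ⟨c, g, hg, hgm, h⟩ := exists_scale_adjoin hx hxb hπ r.2 fun h => hr (Subtype.ext h)
  exact ⟨c, ⟨g, hgm⟩, fun h0 => hg (congrArg Subtype.val h0), restrict_res_iff.2 h⟩

theorem lineReduction_total (hπ : Function.Surjective π) :
    (lineReduction hx hxb hπ).Total :=
  (lineReduction_scaled hx hxb hπ).total hπ

end Line

end Reduction

end FLTAgent.Specialization
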